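import Mathlib

/-!
# S18, package [SPEC]: the two-chart connectedness lemma (helper18)

`O` a ring with an element `π` (in the application: a discrete valuation ring and a uniformiser),
`R₁`, `R₂` two `O`-subalgebras of a commutative ring `R` (in the application: the coordinate rings
of the two charts `j ≠ ∞`, `j ≠ 0` of a normal arithmetic surface, inside the coordinate ring of
the intersection) with

* `R₁ ∩ R₂ = O` (global functions are constants),
* the `π`-power torsion of `R / (R₁ + R₂)` (the first cohomology of the structure sheaf) is killed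
  by `π ^ a`,
* `O / π` has only the trivial idempotents.

Then a pair of idempotents of `R₁ / π`, `R₂ / π` which agree in `R / π` is trivial: the special
fibre is connected.  Everything is stated with divisibility, no quotient rings.
-/

set_option autoImplicit false

namespace Fermat.Agent.S18x.Spec

/-- Newton step for idempotents: `π ^ n ∣ x ^ 2 - x` can be improved to any power of `π`. -/
theorem h18_lift_idem {S : Type*} [CommRing S] (π x : S) (hx : π ∣ x * x - x) (n : ℕ) :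
    ∃ x' : S, π ∣ x' - x ∧ π ^ n ∣ x' * x' - x' := by
  induction n with
  | zero => exact ⟨x, by simp, by simp⟩
  | succ n ih =>
    obtain ⟨x', h1, h2⟩ := ih
    rcases Nat.eq_zero_or_pos n with hn | hn
    · subst hn
      exact ⟨x, by simp, by simpa using hx⟩
    · refine ⟨3 * x' ^ 2 - 2 * x' ^ 3, ?_, ?_⟩
      · have e : 3 * x' ^ 2 - 2 * x' ^ 3 - x = -((x' * x' - x') * (2 * x' - 1)) + (x' - x) := by
          ring
        rw [e]
        have h3 : π ∣ x' * x' - x' := (dvd_pow_self π (Nat.pos_iff_ne_zero.mp hn)).trans h2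
        exact dvd_add ((h3.mul_right _).neg_right) h1
      · have e : (3 * x' ^ 2 - 2 * x' ^ 3) * (3 * x' ^ 2 - 2 * x' ^ 3) - (3 * x' ^ 2 - 2 * x' ^ 3)
            = (x' * x' - x') * (x' * x' - x') * (4 * x' ^ 2 - 4 * x' - 3) := by ring
        rw [e]
        have h4 : π ^ (n + 1) ∣ π ^ n * π ^ n := by
          rw [← pow_add]
          exact pow_dvd_pow π (by omega)
        exact (h4.trans (mul_dvd_mul h2 h2)).mul_right _

/-- Uniqueness of idempotent lifts, with divisibility. -/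
theorem h18_idem_unique {S : Type*} [CommRing S] (π x y : S) (n : ℕ)
    (hx : π ^ n ∣ x * x - x) (hy : π ^ n ∣ y * y - y) (hxy : π ∣ x - y) :
    π ^ n ∣ x - y := by
  have key : π ^ n ∣ (x - y) ^ 3 - (x - y) := by
    have e : (x - y) ^ 3 - (x - y) = (x * x - x) * (1 + x - 3 * y) + (y * y - y) * (3 * x - 1 - y) := by
      ring
    rw [e]
    exact dvd_add (hx.mul_right _) (hy.mul_right _)
  have step : ∀ k : ℕ, k ≤ n → π ^ k ∣ x - y := by
    intro k
    induction k with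
    | zero => intro _; simp
    | succ k ih =>
      intro hk
      rcases Nat.eq_zero_or_pos k with h0 | h0
      · subst h0; simpa using hxy
      · have hk' : π ^ k ∣ x - y := ih (by omega)
        have h3 : π ^ (k + 1) ∣ (x - y) ^ 3 := by
          have : π ^ (k + 1) ∣ (π ^ k) ^ 3 := by
            rw [← pow_mul]
            exact pow_dvd_pow π (by omega)
          exact this.trans (pow_dvd_pow_of_dvd hk' 3)
        have h4 : π ^ (k + 1) ∣ (x - y) ^ 3 - (x - y) := (pow_dvd_pow π hk).trans key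
        have e : x - y = (x - y) ^ 3 - ((x - y) ^ 3 - (x - y)) := by ring
        rw [e]
        exact dvd_sub h3 h4
  exact step n le_rfl

/-- **Connectedness lemma** (two charts). -/
theorem h18_connected {O R : Type*} [CommRing O] [CommRing R] [Algebra O R]
    (π : O) (R₁ R₂ : Subalgebra O R)
    (hcap : ∀ x : R, x ∈ R₁ → x ∈ R₂ → ∃ c : O, algebraMap O R c = x)
    (hloc : ∀ c : O, (algebraMap O R₁ π ∣ algebraMap O R₁ (c * c - c)) → π ∣ c ∨ π ∣ c - 1)
    (a : ℕ)
    (hbdd : ∀ y : R, (∃ n : ℕ, ∃ z₁ ∈ R₁, ∃ z₂ ∈ R₂, algebraMap O R (π ^ n) * y = z₁ - z₂) →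
      ∃ z₁ ∈ R₁, ∃ z₂ ∈ R₂, algebraMap O R (π ^ a) * y = z₁ - z₂)
    (e₁ : R₁) (e₂ : R₂)
    (h₁ : algebraMap O R₁ π ∣ e₁ * e₁ - e₁) (h₂ : algebraMap O R₂ π ∣ e₂ * e₂ - e₂)
    (h₁₂ : algebraMap O R π ∣ (e₁ : R) - (e₂ : R)) :
    (algebraMap O R₁ π ∣ e₁ ∧ algebraMap O R₂ π ∣ e₂) ∨
      (algebraMap O R₁ π ∣ e₁ - 1 ∧ algebraMap O R₂ π ∣ e₂ - 1) := by
  obtain ⟨x₁, hx₁e, hx₁⟩ := h18_lift_idem (algebraMap O R₁ π) e₁ h₁ (a + 1)
  obtain ⟨x₂, hx₂e, hx₂⟩ := h18_lift_idem (algebraMap O R₂ π) e₂ h₂ (a + 1)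
  -- transport to `R`
  have c₁ : ∀ u v : R₁, u ∣ v → (u : R) ∣ (v : R) := by
    rintro u v ⟨w, rfl⟩; exact ⟨(w : R), by simp⟩
  have c₂ : ∀ u v : R₂, u ∣ v → (u : R) ∣ (v : R) := by
    rintro u v ⟨w, rfl⟩; exact ⟨(w : R), by simp⟩
  have p₁ : ((algebraMap O R₁ π : R₁) : R) = algebraMap O R π := rfl
  have p₂ : ((algebraMap O R₂ π : R₂) : R) = algebraMap O R π := rfl
  have hX₁ : algebraMap O R π ^ (a + 1) ∣ (x₁ : R) * x₁ - x₁ := by
    have := c₁ _ _ hx₁
    simpa [p₁] using this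
  have hX₂ : algebraMap O R π ^ (a + 1) ∣ (x₂ : R) * x₂ - x₂ := by
    have := c₂ _ _ hx₂
    simpa [p₂] using this
  have hX₁e : algebraMap O R π ∣ (x₁ : R) - e₁ := by
    have := c₁ _ _ hx₁e
    simpa [p₁] using this
  have hX₂e : algebraMap O R π ∣ (x₂ : R) - e₂ := by
    have := c₂ _ _ hx₂e
    simpa [p₂] using this
  have hX₁₂ : algebraMap O R π ∣ (x₁ : R) - x₂ := by
    have e : (x₁ : R) - x₂ = ((x₁ : R) - e₁) + ((e₁ : R) - e₂) - ((x₂ : R) - e₂) := by ring
    rw [e]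
    exact dvd_sub (dvd_add hX₁e h₁₂) hX₂e
  obtain ⟨y, hy⟩ := h18_idem_unique (algebraMap O R π) (x₁ : R) (x₂ : R) (a + 1) hX₁ hX₂ hX₁₂
  obtain ⟨z₁, hz₁, z₂, hz₂, hz⟩ := hbdd y ⟨a + 1, x₁, x₁.2, x₂, x₂.2, by
    rw [map_pow]; exact hy.symm⟩
  -- the common value
  have hw : (x₁ : R) - algebraMap O R π * z₁ = (x₂ : R) - algebraMap O R π * z₂ := by
    have e : algebraMap O R π * (z₁ - z₂) = (x₁ : R) - x₂ := by
      rw [← hz, hy, map_pow, pow_succ]
      ring
    linear_combination (-1 : R) * e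
  obtain ⟨c, hc⟩ := hcap ((x₁ : R) - algebraMap O R π * z₁)
    (R₁.sub_mem x₁.2 (R₁.mul_mem (R₁.algebraMap_mem _) hz₁))
    (by rw [hw]; exact R₂.sub_mem x₂.2 (R₂.mul_mem (R₂.algebraMap_mem _) hz₂))
  -- in `R₁`: `c = x₁ - π z₁`, in `R₂`: `c = x₂ - π z₂`
  have hc₁ : algebraMap O R₁ c = x₁ - algebraMap O R₁ π * ⟨z₁, hz₁⟩ := by
    apply Subtype.ext
    simpa using hc
  have hc₂ : algebraMap O R₂ c = x₂ - algebraMap O R₂ π * ⟨z₂, hz₂⟩ := by
    apply Subtype.ext
    have := hc.trans hw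
    simpa using this
  have hπ₁ : algebraMap O R₁ π ∣ x₁ * x₁ - x₁ := by
    refine Dvd.dvd.trans ?_ hx₁
    exact dvd_pow_self _ (Nat.succ_ne_zero a)
  have hcc : algebraMap O R₁ π ∣ algebraMap O R₁ (c * c - c) := by
    have e : algebraMap O R₁ (c * c - c) = (x₁ * x₁ - x₁) + algebraMap O R₁ π *
        (⟨z₁, hz₁⟩ * (algebraMap O R₁ π * ⟨z₁, hz₁⟩ - 2 * x₁ + 1)) := by
      rw [map_sub, map_mul, hc₁]
      ring
    rw [e]
    exact dvd_add hπ₁ (dvd_mul_right _ _)
  have d₁ : algebraMap O R₁ π ∣ e₁ - algebraMap O R₁ c := by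
    have e : e₁ - algebraMap O R₁ c = -(x₁ - e₁) + algebraMap O R₁ π * ⟨z₁, hz₁⟩ := by
      rw [hc₁]; ring
    rw [e]
    exact dvd_add hx₁e.neg_right (dvd_mul_right _ _)
  have d₂ : algebraMap O R₂ π ∣ e₂ - algebraMap O R₂ c := by
    have e : e₂ - algebraMap O R₂ c = -(x₂ - e₂) + algebraMap O R₂ π * ⟨z₂, hz₂⟩ := by
      rw [hc₂]; ring
    rw [e]
    exact dvd_add hx₂e.neg_right (dvd_mul_right _ _)
  rcases hloc c hcc with ⟨c', hc'⟩ | ⟨c', hc'⟩
  · left
    constructor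
    · have e : e₁ = (e₁ - algebraMap O R₁ c) + algebraMap O R₁ π * algebraMap O R₁ c' := by
        rw [← map_mul, ← hc']; ring
      rw [e]
      exact dvd_add d₁ (dvd_mul_right _ _)
    · have e : e₂ = (e₂ - algebraMap O R₂ c) + algebraMap O R₂ π * algebraMap O R₂ c' := by
        rw [← map_mul, ← hc']; ring
      rw [e]
      exact dvd_add d₂ (dvd_mul_right _ _)
  · right
    constructor
    · have e : e₁ - 1 = (e₁ - algebraMap O R₁ c) + algebraMap O R₁ π * algebraMap O R₁ c' := by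
        rw [← map_mul, ← hc', map_sub, map_one]; ring
      rw [e]
      exact dvd_add d₁ (dvd_mul_right _ _)
    · have e : e₂ - 1 = (e₂ - algebraMap O R₂ c) + algebraMap O R₂ π * algebraMap O R₂ c' := by
        rw [← map_mul, ← hc', map_sub, map_one]; ring
      rw [e]
      exact dvd_add d₂ (dvd_mul_right _ _)

end Fermat.Agent.S18x.Spec
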