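import Mathlib
import Fermat.Agent.S18x.Spec.H18_Connected

/-!
# S18, package [SPEC]: the connectedness lemma in subring (element) form (helper17)

`h17_connected_sub` is helper18's `h18_connected` for four subrings `O ≤ R₁, R₂ ≤ R` of one
ambient commutative ring `L`, with all divisibilities written as `∃ y ∈ _, _ = π * y`.
-/

set_option autoImplicit false

namespace Fermat.Agent.S18x.Spec.H17

/-- The two-chart connectedness lemma, for subrings of an ambient ring. -/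
theorem h17_connected_sub {L : Type*} [CommRing L] (π : L) (O R₁ R₂ R : Subring L)
    (hO₁ : O ≤ R₁) (hO₂ : O ≤ R₂) (h₁ : R₁ ≤ R) (h₂ : R₂ ≤ R) (hπ : π ∈ O)
    (hcap : ∀ x, x ∈ R₁ → x ∈ R₂ → x ∈ O)
    (hloc : ∀ c ∈ O, (∃ y ∈ R₁, c * c - c = π * y) →
      (∃ o ∈ O, c = π * o) ∨ (∃ o ∈ O, c - 1 = π * o))
    (a : ℕ)
    (hbdd : ∀ y ∈ R, (∃ n : ℕ, ∃ z₁ ∈ R₁, ∃ z₂ ∈ R₂, π ^ n * y = z₁ - z₂) →
      ∃ z₁ ∈ R₁, ∃ z₂ ∈ R₂, π ^ a * y = z₁ - z₂)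
    (e₁ e₂ : L) (he₁ : e₁ ∈ R₁) (he₂ : e₂ ∈ R₂)
    (hi₁ : ∃ y ∈ R₁, e₁ * e₁ - e₁ = π * y) (hi₂ : ∃ y ∈ R₂, e₂ * e₂ - e₂ = π * y)
    (h₁₂ : ∃ y ∈ R, e₁ - e₂ = π * y) :
    ((∃ y ∈ R₁, e₁ = π * y) ∧ ∃ y ∈ R₂, e₂ = π * y) ∨
      ((∃ y ∈ R₁, e₁ - 1 = π * y) ∧ ∃ y ∈ R₂, e₂ - 1 = π * y) := by
  letI alg : Algebra O R := (Subring.inclusion (hO₁.trans h₁)).toAlgebra
  have halg : ∀ c : O, ((algebraMap O R c : R) : L) = (c : L) := fun c => rfl
  let S₁ : Subalgebra O R :=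
    { carrier := {x | (x : L) ∈ R₁}
      mul_mem' := fun {x y} hx hy => by
        show ((x * y : R) : L) ∈ R₁
        rw [Subring.coe_mul]; exact R₁.mul_mem hx hy
      add_mem' := fun {x y} hx hy => by
        show ((x + y : R) : L) ∈ R₁
        rw [Subring.coe_add]; exact R₁.add_mem hx hy
      one_mem' := by
        show ((1 : R) : L) ∈ R₁
        rw [Subring.coe_one]; exact R₁.one_mem
      zero_mem' := by
        show ((0 : R) : L) ∈ R₁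
        rw [Subring.coe_zero]; exact R₁.zero_mem
      algebraMap_mem' := fun c => by
        show ((algebraMap O R c : R) : L) ∈ R₁
        rw [halg]; exact hO₁ c.2 }
  let S₂ : Subalgebra O R :=
    { carrier := {x | (x : L) ∈ R₂}
      mul_mem' := fun {x y} hx hy => by
        show ((x * y : R) : L) ∈ R₂
        rw [Subring.coe_mul]; exact R₂.mul_mem hx hy
      add_mem' := fun {x y} hx hy => by
        show ((x + y : R) : L) ∈ R₂
        rw [Subring.coe_add]; exact R₂.add_mem hx hy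
      one_mem' := by
        show ((1 : R) : L) ∈ R₂
        rw [Subring.coe_one]; exact R₂.one_mem
      zero_mem' := by
        show ((0 : R) : L) ∈ R₂
        rw [Subring.coe_zero]; exact R₂.zero_mem
      algebraMap_mem' := fun c => by
        show ((algebraMap O R c : R) : L) ∈ R₂
        rw [halg]; exact hO₂ c.2 }
  have hS₁ : ∀ x : R, x ∈ S₁ ↔ (x : L) ∈ R₁ := fun x => Iff.rfl
  have hS₂ : ∀ x : R, x ∈ S₂ ↔ (x : L) ∈ R₂ := fun x => Iff.rfl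
  -- coercions
  have k₁ : ∀ x : S₁, (((x : R) : L)) ∈ R₁ := fun x => x.2
  have k₂ : ∀ x : S₂, (((x : R) : L)) ∈ R₂ := fun x => x.2
  have q₁ : ∀ c : O, (((algebraMap O S₁ c : S₁) : R) : L) = (c : L) := fun c => rfl
  have q₂ : ∀ c : O, (((algebraMap O S₂ c : S₂) : R) : L) = (c : L) := fun c => rfl
  -- divisibility dictionaries
  have d₁ : ∀ (x : S₁), (algebraMap O S₁ ⟨π, hπ⟩ ∣ x) ↔ ∃ y ∈ R₁, (((x : R) : L)) = π * y := by
    intro x
    constructor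
    · rintro ⟨w, rfl⟩
      exact ⟨((w : R) : L), w.2, rfl⟩
    · rintro ⟨y, hy, hxy⟩
      refine ⟨⟨⟨y, h₁ hy⟩, hy⟩, ?_⟩
      apply Subtype.ext
      apply Subtype.ext
      exact hxy
  have d₂ : ∀ (x : S₂), (algebraMap O S₂ ⟨π, hπ⟩ ∣ x) ↔ ∃ y ∈ R₂, (((x : R) : L)) = π * y := by
    intro x
    constructor
    · rintro ⟨w, rfl⟩
      exact ⟨((w : R) : L), w.2, rfl⟩
    · rintro ⟨y, hy, hxy⟩
      refine ⟨⟨⟨y, h₂ hy⟩, hy⟩, ?_⟩
      apply Subtype.ext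
      apply Subtype.ext
      exact hxy
  have d : ∀ (x : R), (algebraMap O R ⟨π, hπ⟩ ∣ x) ↔ ∃ y ∈ R, (x : L) = π * y := by
    intro x
    constructor
    · rintro ⟨w, rfl⟩
      exact ⟨(w : L), w.2, rfl⟩
    · rintro ⟨y, hy, hxy⟩
      refine ⟨⟨y, hy⟩, ?_⟩
      apply Subtype.ext
      exact hxy
  have key := h18_connected (O := O) (R := R) ⟨π, hπ⟩ S₁ S₂
    (by
      intro x hx₁ hx₂
      exact ⟨⟨(x : L), hcap _ hx₁ hx₂⟩, Subtype.ext rfl⟩)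
    (by
      intro c hc
      rw [d₁] at hc
      obtain ⟨y, hy, hcy⟩ := hc
      have hcy' : (c : L) * c - c = π * y := by
        rw [← hcy, q₁]
        push_cast
        rfl
      rcases hloc c c.2 ⟨y, hy, hcy'⟩ with ⟨o, ho, h⟩ | ⟨o, ho, h⟩
      · left
        exact ⟨⟨o, ho⟩, Subtype.ext h⟩
      · right
        refine ⟨⟨o, ho⟩, Subtype.ext ?_⟩
        push_cast
        exact h)
    a
    (by
      rintro y ⟨n, z₁, hz₁, z₂, hz₂, hz⟩
      have hz' : π ^ n * (y : L) = (z₁ : L) - (z₂ : L) := by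
        have := congrArg (Subtype.val) hz
        simpa [halg] using this
      obtain ⟨w₁, hw₁, w₂, hw₂, hw⟩ := hbdd (y : L) y.2 ⟨n, (z₁ : L), hz₁, (z₂ : L), hz₂, hz'⟩
      refine ⟨⟨w₁, h₁ hw₁⟩, hw₁, ⟨w₂, h₂ hw₂⟩, hw₂, ?_⟩
      apply Subtype.ext
      simpa [halg] using hw)
    ⟨⟨e₁, h₁ he₁⟩, he₁⟩ ⟨⟨e₂, h₂ he₂⟩, he₂⟩
    (by
      rw [d₁]
      obtain ⟨y, hy, h⟩ := hi₁
      exact ⟨y, hy, h⟩)
    (by
      rw [d₂]
      obtain ⟨y, hy, h⟩ := hi₂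
      exact ⟨y, hy, h⟩)
    (by
      rw [d]
      obtain ⟨y, hy, h⟩ := h₁₂
      exact ⟨y, hy, h⟩)
  rcases key with ⟨k1, k2⟩ | ⟨k1, k2⟩
  · left
    rw [d₁] at k1
    rw [d₂] at k2
    exact ⟨k1, k2⟩
  · right
    rw [d₁] at k1
    rw [d₂] at k2
    exact ⟨k1, k2⟩

end Fermat.Agent.S18x.Spec.H17
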