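import Mathlib
import Fermat.Agent.S18x.Spec.H17_Conn

/-!
# S18, package [SPEC]: the gluing theorem (helper17)

Setting: `F ⊆ L` fields, `u ∈ L` with `u ^ m = f ∈ F`, `1, u, …, u ^ (m - 1)` linearly
independent over `F` (`m ≥ 2`, `1 / m ∈ O`); `V ⊆ F` an integrally closed subring (the valuation
ring of the vertical prime) in which `π` is not a unit and `f ≡ 1 mod π V`; charts
`O ≤ B₁, B₂ ≤ B₁₂ ≤ V`, integrally closed in `F`, with `B ∩ π V = π B`; `B'` denotes the integral
closure of `B` in `L`.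

* `h17_tf` : `B' ∩ π W = π B'` for `W = V[u]` (minimal polynomials);
* `h17_lift` : the idempotent `ε = (1 / m) ∑_{k < m} u ^ k` of `W / π W` lifts to `B'`, provided
  the LOCAL INPUT holds at every maximal ideal `𝔫 ∋ π` of `B`:
  there are `h ∈ F`, `s ∈ B ∖ 𝔫` with `h ≡ 1 mod π V` and `s f h ^ m ∈ B`;
* `h17_spec` : with the hypotheses of the connectedness lemma (`h18_connected`) for
  `B₁', B₂' ⊆ B₁₂'`, this is contradictory.  Hence in the application `d = [F(u) : F] < m`.
-/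

set_option autoImplicit false

open Polynomial

namespace Fermat.Agent.S18x.Spec.H17

section Generic

/-- An idempotent modulo `π` which is a root of a scaled monic polynomial is `0` modulo `π`. -/
theorem h17_idem_root {V W' : Type*} [CommRing V] [CommRing W'] [Algebra V W'] (π : V)
    (p : V[X]) (hp : p.Monic) (ε : W')
    (hroot : Polynomial.eval₂ (algebraMap V W') ε (Polynomial.scaleRoots p π) = 0)
    (hidem : algebraMap V W' π ∣ ε * ε - ε) : algebraMap V W' π ∣ ε := by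
  set P : W' := algebraMap V W' π with hP
  set N := p.natDegree with hN
  have hpow : ∀ n : ℕ, P ∣ ε ^ (n + 1) - ε := by
    intro n
    induction n with
    | zero => simp
    | succ n ih =>
      have e : ε ^ (n + 1 + 1) - ε = ε * (ε ^ (n + 1) - ε) + (ε * ε - ε) := by ring
      rw [e]
      exact dvd_add (ih.mul_left _) hidem
  have hexp : Polynomial.eval₂ (algebraMap V W') ε (Polynomial.scaleRoots p π) =
      ∑ i ∈ Finset.range (N + 1),
        algebraMap V W' ((Polynomial.scaleRoots p π).coeff i) * ε ^ i := by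
    rw [Polynomial.eval₂_eq_sum_range, Polynomial.natDegree_scaleRoots]
  rw [hexp, Finset.sum_range_succ] at hroot
  have htop : algebraMap V W' ((Polynomial.scaleRoots p π).coeff N) = 1 := by
    rw [Polynomial.coeff_scaleRoots, ← hN, Nat.sub_self, pow_zero, mul_one, hN]
    have : p.coeff p.natDegree = 1 := hp
    rw [this, map_one]
  rw [htop, one_mul] at hroot
  have hlow : P ∣ ∑ i ∈ Finset.range N,
      algebraMap V W' ((Polynomial.scaleRoots p π).coeff i) * ε ^ i := by
    apply Finset.dvd_sum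
    intro i hi
    have hiN : i < N := Finset.mem_range.mp hi
    rw [Polynomial.coeff_scaleRoots, ← hN]
    obtain ⟨k, hk⟩ : ∃ k, N - i = k + 1 := ⟨N - i - 1, by omega⟩
    rw [hk, pow_succ, ← mul_assoc, map_mul]
    exact (dvd_mul_left _ _).mul_right _
  have hεN : P ∣ ε ^ N := by
    have e : ε ^ N = -(∑ i ∈ Finset.range N,
        algebraMap V W' ((Polynomial.scaleRoots p π).coeff i) * ε ^ i) := by
      linear_combination hroot
    rw [e]
    exact hlow.neg_right
  rcases Nat.eq_zero_or_pos N with h0 | h0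
  · rw [h0, pow_zero] at hεN
    exact hεN.trans (one_dvd _)
  · obtain ⟨n, hn⟩ : ∃ n, N = n + 1 := ⟨N - 1, by omega⟩
    have := hpow n
    rw [← hn] at this
    have e : ε = ε ^ N - (ε ^ N - ε) := by ring
    rw [e]
    exact dvd_sub hεN this

end Generic

section Field

variable {F L : Type*} [Field F] [Field L] [Algebra F L]

/-- Integrality passes to a larger subring. -/
theorem h17_isIntegral_mono {B B' : Subring F} (h : B ≤ B') {x : L} (hx : IsIntegral B x) :
    IsIntegral B' x := by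
  obtain ⟨p, hp, hpx⟩ := hx
  refine ⟨p.map (Subring.inclusion h), hp.map _, ?_⟩
  rw [Polynomial.eval₂_map]
  exact hpx

/-- The image of an element of `B` is integral over `B`. -/
theorem h17_isIntegral_of_mem {B : Subring F} {c : F} (hc : c ∈ B) :
    IsIntegral B (algebraMap F L c) := by
  have : algebraMap F L c = algebraMap B L ⟨c, hc⟩ := rfl
  rw [this]
  exact isIntegral_algebraMap

/-- An element of `F` whose image in `L` is integral over `B` is integral over `B`. -/
theorem h17_isIntegral_down {B : Subring F} {c : F} (hc : IsIntegral B (algebraMap F L c)) :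
    IsIntegral B c := by
  obtain ⟨p, hp, hpx⟩ := hc
  refine ⟨p, hp, ?_⟩
  have h1 : Polynomial.eval₂ (algebraMap B L) (algebraMap F L c) p =
      algebraMap F L (Polynomial.eval₂ (algebraMap B F) c p) := by
    rw [Polynomial.hom_eval₂]
    rfl
  rw [h1] at hpx
  exact (map_eq_zero_iff _ (algebraMap F L).injective).mp hpx

/-- The coefficients of the minimal polynomial over `F` of an element integral over an
integrally closed subring `B` lie in `B`. -/
theorem h17_minpoly_coeff_mem (B : Subring F) (hBic : ∀ y : F, IsIntegral B y → y ∈ B)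
    {x : L} (hx : IsIntegral B x) (i : ℕ) : (minpoly F x).coeff i ∈ B := by
  obtain ⟨p, hp, hpx⟩ := hx
  have hxF : IsIntegral F x := by
    refine ⟨p.map (algebraMap B F), hp.map _, ?_⟩
    rw [Polynomial.eval₂_map]
    exact hpx
  have hdvd : minpoly F x ∣ p.map (algebraMap B F) := by
    apply minpoly.dvd
    rw [Polynomial.aeval_def, Polynomial.eval₂_map]
    exact hpx
  exact hBic _ (Polynomial.isIntegral_coeff_of_dvd p (minpoly F x) hp (minpoly.monic hxF) hdvd i)

/-- Scaling: the minimal polynomial of `π w` is the scaled minimal polynomial of `w`. -/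
theorem h17_minpoly_scale (π : F) (hπ : π ≠ 0) {w : L} (hw : IsIntegral F w) :
    minpoly F (algebraMap F L π * w) = Polynomial.scaleRoots (minpoly F w) π := by
  have hx : IsIntegral F (algebraMap F L π * w) := (isIntegral_algebraMap).mul hw
  have hQ : (Polynomial.scaleRoots (minpoly F w) π).Monic :=
    (Polynomial.monic_scaleRoots_iff π).mpr (minpoly.monic hw)
  have h1 : minpoly F (algebraMap F L π * w) ∣ Polynomial.scaleRoots (minpoly F w) π :=
    minpoly.dvd F _ (Polynomial.scaleRoots_aeval_eq_zero (minpoly.aeval F w))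
  generalize hxdef : algebraMap F L π * w = x at hx h1 ⊢
  have hw' : algebraMap F L π⁻¹ * x = w := by
    rw [← hxdef, ← mul_assoc, ← map_mul, inv_mul_cancel₀ hπ, map_one, one_mul]
  have h2 : minpoly F w ∣ Polynomial.scaleRoots (minpoly F x) π⁻¹ := by
    apply minpoly.dvd F
    have := Polynomial.scaleRoots_aeval_eq_zero (r := π⁻¹) (minpoly.aeval F x)
    rwa [hw'] at this
  have hQ' : (Polynomial.scaleRoots (minpoly F x) π⁻¹).Monic :=
    (Polynomial.monic_scaleRoots_iff _).mpr (minpoly.monic hx)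
  have d2 : (minpoly F w).natDegree ≤ (minpoly F x).natDegree := by
    have := Polynomial.natDegree_le_of_dvd h2 hQ'.ne_zero
    rwa [Polynomial.natDegree_scaleRoots] at this
  have := Polynomial.eq_of_monic_of_dvd_of_natDegree_le (minpoly.monic hx) hQ h1
    (by rw [Polynomial.natDegree_scaleRoots]; exact d2)
  exact this.symm

/-- Iterated form of `B ∩ π V = π B`. -/
theorem h17_pow_cancel (B V : Subring F) (π : F) (hπV : π ∈ V)
    (hBπ : ∀ v ∈ V, π * v ∈ B → v ∈ B) (k : ℕ) :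
    ∀ v ∈ V, π ^ k * v ∈ B → v ∈ B := by
  induction k with
  | zero => intro v _ h; simpa using h
  | succ k ih =>
    intro v hv h
    have h1 : π * (π ^ k * v) ∈ B := by
      have e : π * (π ^ k * v) = π ^ (k + 1) * v := by ring
      rw [e]; exact h
    have h2 : π ^ k * v ∈ B := hBπ _ (V.mul_mem (V.pow_mem hπV k) hv) h1
    exact ih v hv h2

/-- **Torsion-freeness**: if `x = π w` is integral over `B` and `w` is integral over `V`, then `w`
is integral over `B` (`B`, `V` integrally closed in `F`, `B ≤ V`, `B ∩ π V = π B`). -/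
theorem h17_tf (B V : Subring F) (hBic : ∀ y : F, IsIntegral B y → y ∈ B)
    (hVic : ∀ y : F, IsIntegral V y → y ∈ V) (π : F) (hπ0 : π ≠ 0) (hπV : π ∈ V)
    (hBπ : ∀ v ∈ V, π * v ∈ B → v ∈ B) {x w : L} (hx : IsIntegral B x) (hw : IsIntegral V w)
    (hxw : x = algebraMap F L π * w) : IsIntegral B w := by
  have hwF : IsIntegral F w := by
    obtain ⟨p, hp, hpx⟩ := hw
    refine ⟨p.map (algebraMap V F), hp.map _, ?_⟩
    rw [Polynomial.eval₂_map]
    exact hpx
  have hcV : ∀ i, (minpoly F w).coeff i ∈ V := fun i => h17_minpoly_coeff_mem V hVic hw i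
  have hcB : ∀ i, (minpoly F w).coeff i ∈ B := by
    intro i
    have h1 : (minpoly F x).coeff i ∈ B := h17_minpoly_coeff_mem B hBic hx i
    rw [hxw, h17_minpoly_scale π hπ0 hwF, Polynomial.coeff_scaleRoots, mul_comm] at h1
    exact h17_pow_cancel B V π hπV hBπ _ _ (hcV i) h1
  have hsub : (↑(minpoly F w).coeffs : Set F) ⊆ B := by
    intro c hc
    obtain ⟨i, -, rfl⟩ := Polynomial.mem_coeffs_iff.mp (Finset.mem_coe.mp hc)
    exact hcB i
  refine ⟨Polynomial.toSubring (minpoly F w) B hsub, ?_, ?_⟩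
  · exact (Polynomial.monic_toSubring _ _ _).mpr (minpoly.monic hwF)
  · have h2 : Polynomial.eval₂ (algebraMap B L) w (Polynomial.toSubring (minpoly F w) B hsub) =
        Polynomial.eval₂ (algebraMap F L) w
          ((Polynomial.toSubring (minpoly F w) B hsub).map (algebraMap B F)) := by
      rw [Polynomial.eval₂_map]
      rfl
    rw [h2]
    have h3 : (Polynomial.toSubring (minpoly F w) B hsub).map (algebraMap B F) = minpoly F w :=
      Polynomial.map_toSubring _ _ _
    rw [h3]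
    exact minpoly.aeval F w


/-- `W = V[u]`, as a subalgebra of `L` over `V`. -/
def h17_W (V : Subring F) (u : L) : Subalgebra V L := Algebra.adjoin V ({u} : Set L)

theorem h17_mem_W_of_mem (V : Subring F) (u : L) {c : F} (hc : c ∈ V) :
    algebraMap F L c ∈ h17_W V u :=
  (h17_W V u).algebraMap_mem ⟨c, hc⟩

theorem h17_u_mem_W (V : Subring F) (u : L) : u ∈ h17_W V u :=
  Algebra.subset_adjoin (Set.mem_singleton u)

/-- The elements of `W` are integral over `V`. -/
theorem h17_isIntegral_of_mem_W (V : Subring F) (u : L) (m : ℕ) (hm : 0 < m) (f : F)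
    (hf : f ∈ V) (hu : u ^ m = algebraMap F L f) {w : L} (hw : w ∈ h17_W V u) :
    IsIntegral V w := by
  have huint : IsIntegral V u := by
    apply IsIntegral.of_pow hm
    rw [hu]
    have : algebraMap F L f = algebraMap V L ⟨f, hf⟩ := rfl
    rw [this]
    exact isIntegral_algebraMap
  have hle : h17_W V u ≤ integralClosure V L := by
    apply Algebra.adjoin_le
    intro x hx
    rw [Set.mem_singleton_iff] at hx
    rw [hx]
    exact huint
  exact hle hw

/-- The elements of `W` are `V`-combinations of `1, u, …, u ^ (m - 1)`. -/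
theorem h17_mem_W_repr (V : Subring F) (u : L) (m : ℕ) (hm : 0 < m) (f : F)
    (hf : f ∈ V) (hu : u ^ m = algebraMap F L f) {w : L} (hw : w ∈ h17_W V u) :
    ∃ v : Fin m → F, (∀ k, v k ∈ V) ∧ w = ∑ k : Fin m, algebraMap F L (v k) * u ^ (k : ℕ) := by
  set S : Submodule V L := Submodule.span V (Set.range fun k : Fin m => u ^ (k : ℕ)) with hS
  have hpow : ∀ n : ℕ, u ^ n ∈ S := by
    intro n
    induction n using Nat.strong_induction_on with
    | _ n ih =>
      by_cases hn : n < m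
      · exact Submodule.subset_span ⟨⟨n, hn⟩, rfl⟩
      · push Not at hn
        obtain ⟨k, rfl⟩ := Nat.exists_eq_add_of_le hn
        have hk : k < m + k := by omega
        have e : u ^ (m + k) = (⟨f, hf⟩ : V) • u ^ k := by
          rw [pow_add, hu, Algebra.smul_def]
          rfl
        rw [e]
        exact S.smul_mem _ (ih k hk)
  have hle : Subalgebra.toSubmodule (h17_W V u) ≤ S := by
    unfold h17_W
    rw [Algebra.adjoin_eq_span]
    apply Submodule.span_le.mpr
    intro x hx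
    rw [SetLike.mem_coe, Submonoid.mem_closure_singleton] at hx
    obtain ⟨n, rfl⟩ := hx
    exact hpow n
  have hwS : w ∈ S := hle hw
  rw [hS, Submodule.mem_span_range_iff_exists_fun] at hwS
  obtain ⟨c, hc⟩ := hwS
  refine ⟨fun k => (c k : F), fun k => (c k).2, ?_⟩
  rw [← hc]
  apply Finset.sum_congr rfl
  intro k _
  rw [Algebra.smul_def]
  rfl

/-- Comparison of coefficients: a `V`-combination of the `u ^ k` equal to `0`. -/
theorem h17_coeff_zero (u : L) (m : ℕ)
    (hind : LinearIndependent F (fun k : Fin m => u ^ (k : ℕ))) (c : Fin m → F)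
    (h : ∑ k : Fin m, algebraMap F L (c k) * u ^ (k : ℕ) = 0) (k : Fin m) : c k = 0 := by
  have h' : ∑ k : Fin m, c k • u ^ (k : ℕ) = 0 := by
    rw [← h]
    apply Finset.sum_congr rfl
    intro k _
    rw [Algebra.smul_def]
  exact (Fintype.linearIndependent_iff.mp hind) c h' k

/-- `ε ∈ W`, idempotent modulo `π W`, with `ε / π` integral over `V`: then `ε ∈ π W`. -/
theorem h17_idem_div (V : Subring F) (u : L) (π : F) (hπV : π ∈ V) {ε η w₀ : L}
    (hε : ε ∈ h17_W V u) (hw₀ : w₀ ∈ h17_W V u)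
    (hidem : ε * ε - ε = algebraMap F L π * w₀) (hη : IsIntegral V η)
    (hεη : ε = algebraMap F L π * η) : ∃ w ∈ h17_W V u, ε = algebraMap F L π * w := by
  obtain ⟨p, hp, hpη⟩ := hη
  have hQ : Polynomial.eval₂ (algebraMap V L) ε (Polynomial.scaleRoots p ⟨π, hπV⟩) = 0 := by
    rw [hεη]
    have h := Polynomial.scaleRoots_eval₂_eq_zero (algebraMap V L) (s := (⟨π, hπV⟩ : V)) hpη
    exact h
  have hQW : Polynomial.eval₂ (algebraMap V (h17_W V u)) (⟨ε, hε⟩ : h17_W V u)
      (Polynomial.scaleRoots p ⟨π, hπV⟩) = 0 := by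
    apply Subtype.ext
    have h := Polynomial.hom_eval₂ (Polynomial.scaleRoots p ⟨π, hπV⟩)
      (algebraMap V (h17_W V u)) ((h17_W V u).val : h17_W V u →+* L) ⟨ε, hε⟩
    have h' : ((Polynomial.eval₂ (algebraMap V (h17_W V u)) (⟨ε, hε⟩ : h17_W V u)
        (Polynomial.scaleRoots p ⟨π, hπV⟩) : h17_W V u) : L) =
        Polynomial.eval₂ (algebraMap V L) ε (Polynomial.scaleRoots p ⟨π, hπV⟩) := h
    rw [h', hQ]
    rfl
  have hdvd := h17_idem_root (⟨π, hπV⟩ : V) p hp (⟨ε, hε⟩ : h17_W V u) hQW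
    ⟨⟨w₀, hw₀⟩, Subtype.ext hidem⟩
  obtain ⟨w, hw⟩ := hdvd
  exact ⟨w, w.2, congrArg Subtype.val hw⟩

/-- **(F0)** `ε = (1 / m) ∑_{k < m} u ^ k` is an idempotent modulo `π W`. -/
theorem h17_F0 (V : Subring F) (u : L) (π μ f v : F) (m : ℕ) (hμV : μ ∈ V)
    (hμ : μ * (m : F) = 1) (hvV : v ∈ V) (hf : f - 1 = π * v) (hu : u ^ m = algebraMap F L f) :
    ∃ w ∈ h17_W V u,
      (algebraMap F L μ * ∑ k ∈ Finset.range m, u ^ k) *
          (algebraMap F L μ * ∑ k ∈ Finset.range m, u ^ k) -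
        (algebraMap F L μ * ∑ k ∈ Finset.range m, u ^ k) = algebraMap F L π * w := by
  have hM : algebraMap F L μ * (m : L) = 1 := by
    rw [← map_natCast (algebraMap F L), ← map_mul, hμ, map_one]
  have hfι : algebraMap F L f - 1 = algebraMap F L π * algebraMap F L v := by
    rw [← map_mul, ← hf, map_sub, map_one]
  have hgeo : (∑ k ∈ Finset.range m, u ^ k) * (u - 1) = u ^ m - 1 := geom_sum_mul u m
  have hSg : ∑ k ∈ Finset.range m, u ^ k =
      (m : L) + (∑ k ∈ Finset.range m, ∑ i ∈ Finset.range k, u ^ i) * (u - 1) := by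
    have hk : ∀ k ∈ Finset.range m, u ^ k = 1 + (∑ i ∈ Finset.range k, u ^ i) * (u - 1) := by
      intro k _
      rw [geom_sum_mul]
      ring
    rw [Finset.sum_congr rfl hk, Finset.sum_add_distrib, Finset.sum_const, Finset.card_range,
      nsmul_eq_mul, mul_one, Finset.sum_mul]
  have hupow : ∀ k : ℕ, u ^ k ∈ h17_W V u := fun k => (h17_W V u).pow_mem (h17_u_mem_W V u) k
  have hG : (∑ k ∈ Finset.range m, ∑ i ∈ Finset.range k, u ^ i) ∈ h17_W V u :=
    Subalgebra.sum_mem _ fun k _ => Subalgebra.sum_mem _ fun i _ => hupow i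
  refine ⟨algebraMap F L μ * algebraMap F L v *
      (algebraMap F L μ * ∑ k ∈ Finset.range m, ∑ i ∈ Finset.range k, u ^ i), ?_, ?_⟩
  · exact (h17_W V u).mul_mem
      ((h17_W V u).mul_mem (h17_mem_W_of_mem V u hμV) (h17_mem_W_of_mem V u hvV))
      ((h17_W V u).mul_mem (h17_mem_W_of_mem V u hμV) hG)
  · generalize (∑ k ∈ Finset.range m, u ^ k) = Sg at *
    generalize (∑ k ∈ Finset.range m, ∑ i ∈ Finset.range k, u ^ i) = G at *
    linear_combination ((algebraMap F L μ) ^ 2 * Sg) * hSg + (algebraMap F L μ * Sg) * hM +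
      ((algebraMap F L μ) ^ 2 * G) * hgeo + ((algebraMap F L μ) ^ 2 * G) * hu +
      ((algebraMap F L μ) ^ 2 * G) * hfι

/-- **Lifting of the idempotent** `ε` to the integral closure `B'` of a chart `B`, from the local
input at the maximal ideals of `B` containing `π`. -/
theorem h17_lift (B V : Subring F) (hBV : B ≤ V) (hBic : ∀ y : F, IsIntegral B y → y ∈ B)
    (hVic : ∀ y : F, IsIntegral V y → y ∈ V) (π : F) (hπ0 : π ≠ 0) (hπB : π ∈ B)
    (hBπ : ∀ v ∈ V, π * v ∈ B → v ∈ B) (m : ℕ) (hm : 0 < m) (μ : F) (hμB : μ ∈ B)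
    (hμ : μ * (m : F) = 1) (f v : F) (hvV : v ∈ V) (hf : f - 1 = π * v) (u : L)
    (hu : u ^ m = algebraMap F L f)
    (hLOC : ∀ 𝔫 : Ideal B, 𝔫.IsMaximal → (⟨π, hπB⟩ : B) ∈ 𝔫 →
      ∃ (h : F) (s : B), s ∉ 𝔫 ∧ (∃ c ∈ V, h - 1 = π * c) ∧ (s : F) * f * h ^ m ∈ B) :
    ∃ e : L, IsIntegral B e ∧
      (∃ w ∈ h17_W V u,
        (algebraMap F L μ * ∑ k ∈ Finset.range m, u ^ k) - e = algebraMap F L π * w) ∧
      ∃ y : L, IsIntegral B y ∧ e * e - e = algebraMap F L π * y := by
  classical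
  have hπV : π ∈ V := hBV hπB
  have hfV : f ∈ V := by
    have e : f = 1 + π * v := by linear_combination hf
    rw [e]
    exact V.add_mem V.one_mem (V.mul_mem hπV hvV)
  have hupow : ∀ k : ℕ, u ^ k ∈ h17_W V u := fun k => (h17_W V u).pow_mem (h17_u_mem_W V u) k
  have hεW : (algebraMap F L μ * ∑ k ∈ Finset.range m, u ^ k) ∈ h17_W V u :=
    (h17_W V u).mul_mem (h17_mem_W_of_mem V u (hBV hμB)) (Subalgebra.sum_mem _ fun k _ => hupow k)
  have hPW : algebraMap F L π ∈ h17_W V u := h17_mem_W_of_mem V u hπV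
  obtain ⟨w₀, hw₀, hidem⟩ := h17_F0 V u π μ f v m (hBV hμB) hμ hvV hf hu
  generalize hεdef : (algebraMap F L μ * ∑ k ∈ Finset.range m, u ^ k) = ε at hεW hidem ⊢
  -- the ideal
  let I : Ideal B :=
    { carrier := {s | ∃ y : L, IsIntegral B y ∧ ∃ w ∈ h17_W V u,
        algebraMap F L (s : F) * ε - y = algebraMap F L π * w}
      add_mem' := by
        rintro s₁ s₂ ⟨y₁, hy₁, w₁, hw₁, h₁⟩ ⟨y₂, hy₂, w₂, hw₂, h₂⟩
        refine ⟨y₁ + y₂, hy₁.add hy₂, w₁ + w₂, (h17_W V u).add_mem hw₁ hw₂, ?_⟩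
        have e : ((s₁ + s₂ : B) : F) = (s₁ : F) + (s₂ : F) := rfl
        rw [e, map_add]
        linear_combination h₁ + h₂
      zero_mem' := ⟨0, isIntegral_zero, 0, (h17_W V u).zero_mem, by
        have e : ((0 : B) : F) = 0 := rfl
        rw [e, map_zero]
        ring⟩
      smul_mem' := by
        rintro b s ⟨y, hy, w, hw, h⟩
        refine ⟨algebraMap F L (b : F) * y, (h17_isIntegral_of_mem b.2).mul hy,
          algebraMap F L (b : F) * w,
          (h17_W V u).mul_mem (h17_mem_W_of_mem V u (hBV b.2)) hw, ?_⟩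
        have e : ((b • s : B) : F) = (b : F) * (s : F) := rfl
        rw [e, map_mul]
        linear_combination (algebraMap F L (b : F)) * h }
  have hImem : ∀ s : B, s ∈ I ↔ ∃ y : L, IsIntegral B y ∧ ∃ w ∈ h17_W V u,
      algebraMap F L (s : F) * ε - y = algebraMap F L π * w := fun s => Iff.rfl
  have hI : I = ⊤ := by
    by_contra hne
    obtain ⟨𝔫, h𝔫, hle⟩ := Ideal.exists_le_maximal I hne
    have hπI : (⟨π, hπB⟩ : B) ∈ I := by
      rw [hImem]
      exact ⟨0, isIntegral_zero, ε, hεW, by simp⟩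
    obtain ⟨h, s, hs, ⟨c, hcV, hh⟩, hb⟩ := hLOC 𝔫 h𝔫 (hle hπI)
    have hhV : h ∈ V := by
      have e : h = 1 + π * c := by linear_combination hh
      rw [e]
      exact V.add_mem V.one_mem (V.mul_mem hπV hcV)
    have hsI : s ^ (m - 1) ∈ I := by
      rw [hImem]
      have htm : (algebraMap F L (s : F) * u * algebraMap F L h) ^ m =
          algebraMap F L ((s : F) ^ (m - 1) * ((s : F) * f * h ^ m)) := by
        rw [mul_pow, mul_pow, hu, map_mul, map_pow, map_mul, map_mul, map_pow]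
        obtain ⟨n, hn⟩ : ∃ n, m = n + 1 := ⟨m - 1, by omega⟩
        rw [hn]
        simp only [Nat.add_sub_cancel]
        ring
      have htint : IsIntegral B (algebraMap F L (s : F) * u * algebraMap F L h) := by
        apply IsIntegral.of_pow hm
        rw [htm]
        exact h17_isIntegral_of_mem (B.mul_mem (B.pow_mem s.2 _) hb)
      have hSint : IsIntegral B (algebraMap F L (s : F)) := h17_isIntegral_of_mem s.2
      refine ⟨algebraMap F L μ * ∑ k ∈ Finset.range m,
          algebraMap F L (s : F) ^ (m - 1 - k) *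
            (algebraMap F L (s : F) * u * algebraMap F L h) ^ k, ?_,
        algebraMap F L μ * ∑ k ∈ Finset.range m,
          algebraMap F L (s : F) ^ (m - 1) * u ^ k *
            algebraMap F L (-(c * ∑ i ∈ Finset.range k, h ^ i)), ?_, ?_⟩
      · exact (h17_isIntegral_of_mem hμB).mul
          (IsIntegral.sum _ fun k _ => (hSint.pow _).mul (htint.pow _))
      · exact (h17_W V u).mul_mem (h17_mem_W_of_mem V u (hBV hμB))
          (Subalgebra.sum_mem _ fun k _ => (h17_W V u).mul_mem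
            ((h17_W V u).mul_mem ((h17_W V u).pow_mem (h17_mem_W_of_mem V u (hBV s.2)) _)
              (hupow k))
            (h17_mem_W_of_mem V u
              (V.neg_mem (V.mul_mem hcV (Subring.sum_mem _ fun i _ => V.pow_mem hhV i)))))
      · have e : ((s ^ (m - 1) : B) : F) = (s : F) ^ (m - 1) := rfl
        rw [e, map_pow, ← hεdef]
        have hterm : ∀ k ∈ Finset.range m,
            algebraMap F L (s : F) ^ (m - 1) * u ^ k -
              algebraMap F L (s : F) ^ (m - 1 - k) *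
                (algebraMap F L (s : F) * u * algebraMap F L h) ^ k =
            algebraMap F L π * (algebraMap F L (s : F) ^ (m - 1) * u ^ k *
              algebraMap F L (-(c * ∑ i ∈ Finset.range k, h ^ i))) := by
          intro k hk
          have hk' : k < m := Finset.mem_range.mp hk
          have hgeo : (∑ i ∈ Finset.range k, h ^ i) * (h - 1) = h ^ k - 1 := geom_sum_mul h k
          have hH' : algebraMap F L h ^ k - 1 =
              algebraMap F L π * algebraMap F L (c * ∑ i ∈ Finset.range k, h ^ i) := by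
            rw [← map_pow, ← map_one (algebraMap F L), ← map_sub, ← map_mul, ← hgeo, hh]
            congr 1
            ring
          have hSk : algebraMap F L (s : F) ^ (m - 1 - k) * algebraMap F L (s : F) ^ k =
              algebraMap F L (s : F) ^ (m - 1) := by
            rw [← pow_add]
            congr 1
            omega
          rw [mul_pow, mul_pow, map_neg]
          linear_combination (-(u ^ k) * algebraMap F L h ^ k) * hSk +
            (-(algebraMap F L (s : F) ^ (m - 1)) * u ^ k) * hH'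
        have hsum := Finset.sum_congr rfl hterm
        rw [← Finset.mul_sum, Finset.sum_sub_distrib, ← Finset.mul_sum] at hsum
        linear_combination (algebraMap F L μ) * hsum
    exact hs (h𝔫.isPrime.mem_of_pow_mem _ (hle hsI))
  have h1 : (1 : B) ∈ I := by
    rw [hI]
    trivial
  rw [hImem] at h1
  obtain ⟨e, he, w, hw, hew⟩ := h1
  have hew' : ε - e = algebraMap F L π * w := by
    have e1 : (((1 : B) : F)) = 1 := rfl
    rw [e1, map_one, one_mul] at hew
    exact hew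
  refine ⟨e, he, ⟨w, hw, hew'⟩, ?_⟩
  have hw'W : w₀ + w - 2 * ε * w + algebraMap F L π * w * w ∈ h17_W V u := by
    refine (h17_W V u).add_mem ((h17_W V u).sub_mem ((h17_W V u).add_mem hw₀ hw) ?_) ?_
    · have e2 : (2 : L) * ε * w = ε * w + ε * w := by ring
      rw [e2]
      exact (h17_W V u).add_mem ((h17_W V u).mul_mem hεW hw) ((h17_W V u).mul_mem hεW hw)
    · exact (h17_W V u).mul_mem ((h17_W V u).mul_mem hPW hw) hw
  have hee : e * e - e =
      algebraMap F L π * (w₀ + w - 2 * ε * w + algebraMap F L π * w * w) := by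
    linear_combination hidem + (1 - ε + algebraMap F L π * w - e) * hew'
  refine ⟨_, ?_, hee⟩
  exact h17_tf B V hBic hVic π hπ0 hπV hBπ ((he.mul he).sub he)
    (h17_isIntegral_of_mem_W V u m hm f hfV hu hw'W) hee

/-- **[SPEC] the gluing theorem**: the local inputs `hLOC₁`, `hLOC₂` at the closed points of the
two charts and the hypotheses of the connectedness lemma are contradictory when
`1, u, …, u ^ (m - 1)` are linearly independent over `F` and `m ≥ 2`. -/
theorem h17_spec (O V B₁ B₂ B₁₂ : Subring F)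
    (hOB₁ : O ≤ B₁) (hOB₂ : O ≤ B₂) (hB₁ : B₁ ≤ B₁₂) (hB₂ : B₂ ≤ B₁₂) (hBV : B₁₂ ≤ V)
    (hVic : ∀ y : F, IsIntegral V y → y ∈ V)
    (hic₁ : ∀ y : F, IsIntegral B₁ y → y ∈ B₁) (hic₂ : ∀ y : F, IsIntegral B₂ y → y ∈ B₂)
    (hic₁₂ : ∀ y : F, IsIntegral B₁₂ y → y ∈ B₁₂)
    (π : F) (hπ0 : π ≠ 0) (hπO : π ∈ O) (hπV : ∀ v ∈ V, π * v ≠ 1)
    (hπ₁ : ∀ v ∈ V, π * v ∈ B₁ → v ∈ B₁) (hπ₂ : ∀ v ∈ V, π * v ∈ B₂ → v ∈ B₂)
    (hπ₁₂ : ∀ v ∈ V, π * v ∈ B₁₂ → v ∈ B₁₂)
    (m : ℕ) (hm : 2 ≤ m) (μ : F) (hμO : μ ∈ O) (hμ : μ * (m : F) = 1)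
    (f v : F) (hvV : v ∈ V) (hf : f - 1 = π * v)
    (u : L) (hu : u ^ m = algebraMap F L f)
    (hind : LinearIndependent F (fun k : Fin m => u ^ (k : ℕ)))
    (hLOC₁ : ∀ 𝔫 : Ideal B₁, 𝔫.IsMaximal → (⟨π, hOB₁ hπO⟩ : B₁) ∈ 𝔫 →
      ∃ (h : F) (s : B₁), s ∉ 𝔫 ∧ (∃ c ∈ V, h - 1 = π * c) ∧ (s : F) * f * h ^ m ∈ B₁)
    (hLOC₂ : ∀ 𝔫 : Ideal B₂, 𝔫.IsMaximal → (⟨π, hOB₂ hπO⟩ : B₂) ∈ 𝔫 →
      ∃ (h : F) (s : B₂), s ∉ 𝔫 ∧ (∃ c ∈ V, h - 1 = π * c) ∧ (s : F) * f * h ^ m ∈ B₂)
    (hcap : ∀ x : L, IsIntegral B₁ x → IsIntegral B₂ x → ∃ c ∈ O, algebraMap F L c = x)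
    (hloc : ∀ c ∈ O, (∃ v ∈ V, c * c - c = π * v) →
      (∃ o ∈ O, c = π * o) ∨ (∃ o ∈ O, c - 1 = π * o))
    (a : ℕ)
    (hbdd : ∀ y : L, IsIntegral B₁₂ y →
      (∃ n : ℕ, ∃ z₁ z₂ : L, IsIntegral B₁ z₁ ∧ IsIntegral B₂ z₂ ∧
        algebraMap F L π ^ n * y = z₁ - z₂) →
      ∃ z₁ z₂ : L, IsIntegral B₁ z₁ ∧ IsIntegral B₂ z₂ ∧
        algebraMap F L π ^ a * y = z₁ - z₂) :
    False := by
  classical
  have hm0 : 0 < m := by omega
  have hBV₁ : B₁ ≤ V := hB₁.trans hBV
  have hBV₂ : B₂ ≤ V := hB₂.trans hBV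
  have hπV' : π ∈ V := hBV₁ (hOB₁ hπO)
  have hμV : μ ∈ V := hBV₁ (hOB₁ hμO)
  have hfV : f ∈ V := by
    have e : f = 1 + π * v := by linear_combination hf
    rw [e]
    exact V.add_mem V.one_mem (V.mul_mem hπV' hvV)
  have hP0 : algebraMap F L π ≠ 0 := (map_ne_zero (algebraMap F L)).mpr hπ0
  obtain ⟨e₁, he₁, ⟨w₁, hw₁, hew₁⟩, y₁, hy₁, hee₁⟩ :=
    h17_lift B₁ V hBV₁ hic₁ hVic π hπ0 (hOB₁ hπO) hπ₁ m hm0 μ (hOB₁ hμO) hμ f v hvV hf u hu hLOC₁
  obtain ⟨e₂, he₂, ⟨w₂, hw₂, hew₂⟩, y₂, hy₂, hee₂⟩ :=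
    h17_lift B₂ V hBV₂ hic₂ hVic π hπ0 (hOB₂ hπO) hπ₂ m hm0 μ (hOB₂ hμO) hμ f v hvV hf u hu hLOC₂
  obtain ⟨w₀, hw₀, hidem⟩ := h17_F0 V u π μ f v m hμV hμ hvV hf hu
  have hupow : ∀ k : ℕ, u ^ k ∈ h17_W V u := fun k => (h17_W V u).pow_mem (h17_u_mem_W V u) k
  have hεW : (algebraMap F L μ * ∑ k ∈ Finset.range m, u ^ k) ∈ h17_W V u :=
    (h17_W V u).mul_mem (h17_mem_W_of_mem V u hμV) (Subalgebra.sum_mem _ fun k _ => hupow k)
  have hεsum : (algebraMap F L μ * ∑ k ∈ Finset.range m, u ^ k) =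
      ∑ k : Fin m, algebraMap F L μ * u ^ (k : ℕ) := by
    rw [Finset.sum_range, Finset.mul_sum]
  generalize hεdef : (algebraMap F L μ * ∑ k ∈ Finset.range m, u ^ k) = ε at *
  -- the difference `e₁ - e₂`
  have h12 : e₁ - e₂ = algebraMap F L π * (w₂ - w₁) := by linear_combination hew₂ - hew₁
  have hint12 : IsIntegral B₁₂ (e₁ - e₂) :=
    (h17_isIntegral_mono hB₁ he₁).sub (h17_isIntegral_mono hB₂ he₂)
  have hy12 : IsIntegral B₁₂ (w₂ - w₁) :=
    h17_tf B₁₂ V hic₁₂ hVic π hπ0 hπV' hπ₁₂ hint12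
      (h17_isIntegral_of_mem_W V u m hm0 f hfV hu ((h17_W V u).sub_mem hw₂ hw₁)) h12
  -- the connectedness lemma
  have key := h17_connected_sub (algebraMap F L π) (O.map (algebraMap F L))
    (integralClosure B₁ L).toSubring (integralClosure B₂ L).toSubring
    (integralClosure B₁₂ L).toSubring
    (by
      intro x hx
      obtain ⟨c, hc, rfl⟩ := Subring.mem_map.mp hx
      exact h17_isIntegral_of_mem (hOB₁ hc))
    (by
      intro x hx
      obtain ⟨c, hc, rfl⟩ := Subring.mem_map.mp hx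
      exact h17_isIntegral_of_mem (hOB₂ hc))
    (fun x hx => h17_isIntegral_mono hB₁ hx)
    (fun x hx => h17_isIntegral_mono hB₂ hx)
    (Subring.mem_map.mpr ⟨π, hπO, rfl⟩)
    (by
      intro x h1 h2
      obtain ⟨c, hc, rfl⟩ := hcap x h1 h2
      exact Subring.mem_map.mpr ⟨c, hc, rfl⟩)
    (by
      rintro c hc ⟨y, hy, hcy⟩
      obtain ⟨c₀, hc₀, rfl⟩ := Subring.mem_map.mp hc
      have hy0 : y = algebraMap F L ((c₀ * c₀ - c₀) / π) := by
        rw [map_div₀, map_sub, map_mul, hcy, mul_div_cancel_left₀ _ hP0]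
      have hyint : IsIntegral B₁ ((c₀ * c₀ - c₀) / π) := by
        apply h17_isIntegral_down (L := L)
        rw [← hy0]
        exact hy
      have hyV : (c₀ * c₀ - c₀) / π ∈ V := hBV₁ (hic₁ _ hyint)
      have hcc : c₀ * c₀ - c₀ = π * ((c₀ * c₀ - c₀) / π) := by
        rw [mul_div_cancel₀ _ hπ0]
      rcases hloc c₀ hc₀ ⟨_, hyV, hcc⟩ with ⟨o, ho, h⟩ | ⟨o, ho, h⟩
      · left
        exact ⟨algebraMap F L o, Subring.mem_map.mpr ⟨o, ho, rfl⟩, by rw [h, map_mul]⟩
      · right
        refine ⟨algebraMap F L o, Subring.mem_map.mpr ⟨o, ho, rfl⟩, ?_⟩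
        rw [← map_mul, ← h, map_sub, map_one])
    a
    (by
      rintro y hy ⟨n, z₁, hz₁, z₂, hz₂, hz⟩
      obtain ⟨z₁', z₂', h1, h2, h3⟩ := hbdd y hy ⟨n, z₁, z₂, hz₁, hz₂, hz⟩
      exact ⟨z₁', h1, z₂', h2, h3⟩)
    e₁ e₂ he₁ he₂ ⟨y₁, hy₁, hee₁⟩ ⟨y₂, hy₂, hee₂⟩ ⟨w₂ - w₁, hy12, h12⟩
  have hmV : ∀ c ∈ V, c * (m : F) ∈ V := fun c hc => V.mul_mem hc (natCast_mem V m)
  rcases key with ⟨⟨y, hy, hey⟩, -⟩ | ⟨⟨y, hy, hey⟩, -⟩
  · -- `ε = π (y + w₁)`
    have hεη : ε = algebraMap F L π * (y + w₁) := by linear_combination hew₁ + hey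
    have hη : IsIntegral V (y + w₁) :=
      (h17_isIntegral_mono hBV₁ hy).add (h17_isIntegral_of_mem_W V u m hm0 f hfV hu hw₁)
    obtain ⟨w, hw, hεw⟩ := h17_idem_div V u π hπV' hεW hw₀ hidem hη hεη
    obtain ⟨c, hcV, hwc⟩ := h17_mem_W_repr V u m hm0 f hfV hu hw
    have hz : ∑ k : Fin m, algebraMap F L (μ - π * c k) * u ^ (k : ℕ) = 0 := by
      have e1 : ∑ k : Fin m, algebraMap F L (μ - π * c k) * u ^ (k : ℕ) =
          (∑ k : Fin m, algebraMap F L μ * u ^ (k : ℕ)) -
            algebraMap F L π * ∑ k : Fin m, algebraMap F L (c k) * u ^ (k : ℕ) := by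
        rw [Finset.mul_sum, ← Finset.sum_sub_distrib]
        apply Finset.sum_congr rfl
        intro k _
        rw [map_sub, map_mul]
        ring
      rw [e1, ← hεsum, ← hwc, hεw, sub_self]
    have h0 := h17_coeff_zero u m hind _ hz ⟨0, hm0⟩
    apply hπV (c ⟨0, hm0⟩ * (m : F)) (hmV _ (hcV _))
    have e2 : μ = π * c ⟨0, hm0⟩ := by linear_combination h0
    rw [← mul_assoc, ← e2, hμ]
  · -- `1 - ε = π (-y - w₁)`
    have hε'W : 1 - ε ∈ h17_W V u := (h17_W V u).sub_mem (h17_W V u).one_mem hεW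
    have hidem' : (1 - ε) * (1 - ε) - (1 - ε) = algebraMap F L π * w₀ := by
      linear_combination hidem
    have hεη : 1 - ε = algebraMap F L π * (-y - w₁) := by linear_combination -hew₁ - hey
    have hη : IsIntegral V (-y - w₁) :=
      ((h17_isIntegral_mono hBV₁ hy).neg).sub (h17_isIntegral_of_mem_W V u m hm0 f hfV hu hw₁)
    obtain ⟨w, hw, hεw⟩ := h17_idem_div V u π hπV' hε'W hw₀ hidem' hη hεη
    obtain ⟨c, hcV, hwc⟩ := h17_mem_W_repr V u m hm0 f hfV hu hw
    have hone : (1 : L) =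
        ∑ k : Fin m, algebraMap F L (if (k : ℕ) = 0 then 1 else 0) * u ^ (k : ℕ) := by
      rw [Finset.sum_eq_single (⟨0, hm0⟩ : Fin m)]
      · simp
      · intro k _ hk
        have : (k : ℕ) ≠ 0 := fun h => hk (Fin.ext h)
        simp [this]
      · intro h
        exact absurd (Finset.mem_univ _) h
    have hz : ∑ k : Fin m,
        algebraMap F L ((if (k : ℕ) = 0 then 1 else 0) - μ - π * c k) * u ^ (k : ℕ) = 0 := by
      have e1 : ∑ k : Fin m,
          algebraMap F L ((if (k : ℕ) = 0 then 1 else 0) - μ - π * c k) * u ^ (k : ℕ) =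
          (∑ k : Fin m, algebraMap F L (if (k : ℕ) = 0 then 1 else 0) * u ^ (k : ℕ)) -
            (∑ k : Fin m, algebraMap F L μ * u ^ (k : ℕ)) -
            algebraMap F L π * ∑ k : Fin m, algebraMap F L (c k) * u ^ (k : ℕ) := by
        rw [Finset.mul_sum, ← Finset.sum_sub_distrib, ← Finset.sum_sub_distrib]
        apply Finset.sum_congr rfl
        intro k _
        rw [map_sub, map_sub, map_mul]
        ring
      rw [e1, ← hone, ← hεsum, ← hwc, hεw, sub_self]
    have h1 := h17_coeff_zero u m hind _ hz ⟨1, hm⟩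
    simp only [one_ne_zero, if_false] at h1
    apply hπV (-(c ⟨1, hm⟩) * (m : F)) (hmV _ (V.neg_mem (hcV _)))
    have e2 : μ = π * -(c ⟨1, hm⟩) := by linear_combination -h1
    rw [← mul_assoc, ← e2, hμ]


end Field

end Fermat.Agent.S18x.Spec.H17
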