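import Mathlib
import Fermat.Agent.S18x.Spec.H17_Glue

/-!
# S18, package [SPEC]: the gluing theorem with the connectedness conclusion as a hypothesis
(helper17)

`h17_spec_of_conn` is `h17_spec` with the three hypotheses `hcap`, `hloc`, `hbdd` of the
connectedness lemma replaced by its conclusion `hconn` for the integral closures
`B₁', B₂' ⊆ B₁₂'` (membership in `Bᵢ'` is spelled `IsIntegral Bᵢ x`), so that any form of the
connectedness lemma can be plugged in.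
-/

set_option autoImplicit false

open Polynomial

namespace Fermat.Agent.S18x.Spec.H17

variable {F L : Type*} [Field F] [Field L] [Algebra F L]

/-- **[SPEC] the gluing theorem**, with the connectedness of the special fibre as a hypothesis. -/
theorem h17_spec_of_conn (O V B₁ B₂ B₁₂ : Subring F)
    (hOB₁ : O ≤ B₁) (hOB₂ : O ≤ B₂) (hB₁ : B₁ ≤ B₁₂) (hB₂ : B₂ ≤ B₁₂) (hBV : B₁₂ ≤ V)
    (hVic : ∀ y : F, IsIntegral V y → y ∈ V)
    (hic₁ : ∀ y : F, IsIntegral B₁ y → y ∈ B₁) (hic₂ : ∀ y : F, IsIntegral B₂ y → y ∈ B₂)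
    (hic₁₂ : ∀ y : F, IsIntegral B₁₂ y → y ∈ B₁₂)
    (π : F) (hπ0 : π ≠ 0) (hπO : π ∈ O) (hπV : ∀ v ∈ V, π * v ≠ 1)
    (hπ₁ : ∀ v ∈ V, π * v ∈ B₁ → v ∈ B₁) (hπ₂ : ∀ v ∈ V, π * v ∈ B₂ → v ∈ B₂)
    (hπ₁₂ : ∀ v ∈ V, π * v ∈ B₁₂ → v ∈ B₁₂)
    (m : ℕ) (hm : 2 ≤ m) (μ : F) (hμO : μ ∈ O) (hμ : μ * (m : F) = 1)
    (f v : F) (hvV : v ∈ V) (hf : f - 1 = π * v)
    (u : L) (hu : u ^ m = algebraMap F L f)
    (hind : LinearIndependent F (fun k : Fin m => u ^ (k : ℕ)))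
    (hLOC₁ : ∀ 𝔫 : Ideal B₁, 𝔫.IsMaximal → (⟨π, hOB₁ hπO⟩ : B₁) ∈ 𝔫 →
      ∃ (h : F) (s : B₁), s ∉ 𝔫 ∧ (∃ c ∈ V, h - 1 = π * c) ∧ (s : F) * f * h ^ m ∈ B₁)
    (hLOC₂ : ∀ 𝔫 : Ideal B₂, 𝔫.IsMaximal → (⟨π, hOB₂ hπO⟩ : B₂) ∈ 𝔫 →
      ∃ (h : F) (s : B₂), s ∉ 𝔫 ∧ (∃ c ∈ V, h - 1 = π * c) ∧ (s : F) * f * h ^ m ∈ B₂)
    (hconn : ∀ e₁ e₂ : L, IsIntegral B₁ e₁ → IsIntegral B₂ e₂ →
      (∃ y : L, IsIntegral B₁ y ∧ e₁ * e₁ - e₁ = algebraMap F L π * y) →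
      (∃ y : L, IsIntegral B₂ y ∧ e₂ * e₂ - e₂ = algebraMap F L π * y) →
      (∃ y : L, IsIntegral B₁₂ y ∧ e₁ - e₂ = algebraMap F L π * y) →
      ((∃ y : L, IsIntegral B₁ y ∧ e₁ = algebraMap F L π * y) ∧
          ∃ y : L, IsIntegral B₂ y ∧ e₂ = algebraMap F L π * y) ∨
        ((∃ y : L, IsIntegral B₁ y ∧ e₁ - 1 = algebraMap F L π * y) ∧
          ∃ y : L, IsIntegral B₂ y ∧ e₂ - 1 = algebraMap F L π * y)) :
    False := by
  classical
  have hm0 : 0 < m := by omega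
  have hBV₁ : B₁ ≤ V := hB₁.trans hBV
  have hBV₂ : B₂ ≤ V := hB₂.trans hBV
  have hπV' : π ∈ V := hBV₁ (hOB₁ hπO)
  have hμV : μ ∈ V := hBV₁ (hOB₁ hμO)
  have hfV : f ∈ V := by
    have e : f = 1 + π * v := by linear_combination hf
    rw [e]
    exact V.add_mem V.one_mem (V.mul_mem hπV' hvV)
  have hP0 : algebraMap F L π ≠ 0 := (map_ne_zero (algebraMap F L)).mpr hπ0
  obtain ⟨e₁, he₁, ⟨w₁, hw₁, hew₁⟩, y₁, hy₁, hee₁⟩ :=
    h17_lift B₁ V hBV₁ hic₁ hVic π hπ0 (hOB₁ hπO) hπ₁ m hm0 μ (hOB₁ hμO) hμ f v hvV hf u hu hLOC₁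
  obtain ⟨e₂, he₂, ⟨w₂, hw₂, hew₂⟩, y₂, hy₂, hee₂⟩ :=
    h17_lift B₂ V hBV₂ hic₂ hVic π hπ0 (hOB₂ hπO) hπ₂ m hm0 μ (hOB₂ hμO) hμ f v hvV hf u hu hLOC₂
  obtain ⟨w₀, hw₀, hidem⟩ := h17_F0 V u π μ f v m hμV hμ hvV hf hu
  have hupow : ∀ k : ℕ, u ^ k ∈ h17_W V u := fun k => (h17_W V u).pow_mem (h17_u_mem_W V u) k
  have hεW : (algebraMap F L μ * ∑ k ∈ Finset.range m, u ^ k) ∈ h17_W V u :=
    (h17_W V u).mul_mem (h17_mem_W_of_mem V u hμV) (Subalgebra.sum_mem _ fun k _ => hupow k)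
  have hεsum : (algebraMap F L μ * ∑ k ∈ Finset.range m, u ^ k) =
      ∑ k : Fin m, algebraMap F L μ * u ^ (k : ℕ) := by
    rw [Finset.sum_range, Finset.mul_sum]
  generalize hεdef : (algebraMap F L μ * ∑ k ∈ Finset.range m, u ^ k) = ε at *
  -- the difference `e₁ - e₂`
  have h12 : e₁ - e₂ = algebraMap F L π * (w₂ - w₁) := by linear_combination hew₂ - hew₁
  have hint12 : IsIntegral B₁₂ (e₁ - e₂) :=
    (h17_isIntegral_mono hB₁ he₁).sub (h17_isIntegral_mono hB₂ he₂)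
  have hy12 : IsIntegral B₁₂ (w₂ - w₁) :=
    h17_tf B₁₂ V hic₁₂ hVic π hπ0 hπV' hπ₁₂ hint12
      (h17_isIntegral_of_mem_W V u m hm0 f hfV hu ((h17_W V u).sub_mem hw₂ hw₁)) h12
  -- the connectedness of the special fibre
  have key := hconn e₁ e₂ he₁ he₂ ⟨y₁, hy₁, hee₁⟩ ⟨y₂, hy₂, hee₂⟩ ⟨w₂ - w₁, hy12, h12⟩
  have hmV : ∀ c ∈ V, c * (m : F) ∈ V := fun c hc => V.mul_mem hc (natCast_mem V m)
  rcases key with ⟨⟨y, hy, hey⟩, -⟩ | ⟨⟨y, hy, hey⟩, -⟩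
  · -- `ε = π (y + w₁)`
    have hεη : ε = algebraMap F L π * (y + w₁) := by linear_combination hew₁ + hey
    have hη : IsIntegral V (y + w₁) :=
      (h17_isIntegral_mono hBV₁ hy).add (h17_isIntegral_of_mem_W V u m hm0 f hfV hu hw₁)
    obtain ⟨w, hw, hεw⟩ := h17_idem_div V u π hπV' hεW hw₀ hidem hη hεη
    obtain ⟨c, hcV, hwc⟩ := h17_mem_W_repr V u m hm0 f hfV hu hw
    have hz : ∑ k : Fin m, algebraMap F L (μ - π * c k) * u ^ (k : ℕ) = 0 := by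
      have e1 : ∑ k : Fin m, algebraMap F L (μ - π * c k) * u ^ (k : ℕ) =
          (∑ k : Fin m, algebraMap F L μ * u ^ (k : ℕ)) -
            algebraMap F L π * ∑ k : Fin m, algebraMap F L (c k) * u ^ (k : ℕ) := by
        rw [Finset.mul_sum, ← Finset.sum_sub_distrib]
        apply Finset.sum_congr rfl
        intro k _
        rw [map_sub, map_mul]
        ring
      rw [e1, ← hεsum, ← hwc, hεw, sub_self]
    have h0 := h17_coeff_zero u m hind _ hz ⟨0, hm0⟩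
    apply hπV (c ⟨0, hm0⟩ * (m : F)) (hmV _ (hcV _))
    have e2 : μ = π * c ⟨0, hm0⟩ := by linear_combination h0
    rw [← mul_assoc, ← e2, hμ]
  · -- `1 - ε = π (-y - w₁)`
    have hε'W : 1 - ε ∈ h17_W V u := (h17_W V u).sub_mem (h17_W V u).one_mem hεW
    have hidem' : (1 - ε) * (1 - ε) - (1 - ε) = algebraMap F L π * w₀ := by
      linear_combination hidem
    have hεη : 1 - ε = algebraMap F L π * (-y - w₁) := by linear_combination -hew₁ - hey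
    have hη : IsIntegral V (-y - w₁) :=
      ((h17_isIntegral_mono hBV₁ hy).neg).sub (h17_isIntegral_of_mem_W V u m hm0 f hfV hu hw₁)
    obtain ⟨w, hw, hεw⟩ := h17_idem_div V u π hπV' hε'W hw₀ hidem' hη hεη
    obtain ⟨c, hcV, hwc⟩ := h17_mem_W_repr V u m hm0 f hfV hu hw
    have hone : (1 : L) =
        ∑ k : Fin m, algebraMap F L (if (k : ℕ) = 0 then 1 else 0) * u ^ (k : ℕ) := by
      rw [Finset.sum_eq_single (⟨0, hm0⟩ : Fin m)]
      · simp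
      · intro k _ hk
        have : (k : ℕ) ≠ 0 := fun h => hk (Fin.ext h)
        simp [this]
      · intro h
        exact absurd (Finset.mem_univ _) h
    have hz : ∑ k : Fin m,
        algebraMap F L ((if (k : ℕ) = 0 then 1 else 0) - μ - π * c k) * u ^ (k : ℕ) = 0 := by
      have e1 : ∑ k : Fin m,
          algebraMap F L ((if (k : ℕ) = 0 then 1 else 0) - μ - π * c k) * u ^ (k : ℕ) =
          (∑ k : Fin m, algebraMap F L (if (k : ℕ) = 0 then 1 else 0) * u ^ (k : ℕ)) -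
            (∑ k : Fin m, algebraMap F L μ * u ^ (k : ℕ)) -
            algebraMap F L π * ∑ k : Fin m, algebraMap F L (c k) * u ^ (k : ℕ) := by
        rw [Finset.mul_sum, ← Finset.sum_sub_distrib, ← Finset.sum_sub_distrib]
        apply Finset.sum_congr rfl
        intro k _
        rw [map_sub, map_sub, map_mul]
        ring
      rw [e1, ← hone, ← hεsum, ← hwc, hεw, sub_self]
    have h1 := h17_coeff_zero u m hind _ hz ⟨1, hm⟩
    simp only [one_ne_zero, if_false] at h1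
    apply hπV (-(c ⟨1, hm⟩) * (m : F)) (hmV _ (V.neg_mem (hcV _)))
    have e2 : μ = π * -(c ⟨1, hm⟩) := by linear_combination -h1
    rw [← mul_assoc, ← e2, hμ]

end Fermat.Agent.S18x.Spec.H17
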