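import Mathlib

/-!
# S18 / package SPEC (helper26): the two charts, finiteness of `B₁₂ / (B₁ + B₂)`

`O` a commutative ring, `R` a commutative `O`-algebra, `x y : R` with `x * y = 1`,
`B₁ ∋ x`, `B₂ ∋ y` two `O`-subalgebras of `R` ("the two charts"), `B₁₂ = B₁[1/x]` the set of the
`y ^ n * b`, `b ∈ B₁`.

* `h26_exists_finset` : if `B₁` is generated as an `O[x]`-module by a finite set `bs` and every
  `b ∈ bs` has some `y ^ n * b ∈ B₂`, then `B₁₂ / (B₁ + B₂)` is a finitely generated `O`-module: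
  there is a finite set `T` with `y ^ n * b ∈ B₁ + B₂ + span_O T` for all `b ∈ B₁`, `n`.
* `h26_bounded_torsion` : if moreover `O` is noetherian, the `π`-power torsion of
  `B₁₂ / (B₁ + B₂)` has bounded exponent.
-/

set_option autoImplicit false

open Polynomial

namespace Fermat.Agent.S18x.Spec.H26

section Generic

variable {O R : Type*} [CommRing O] [CommRing R] [Algebra O R]

/-- `y ^ n * x ^ i` is a power of `x` or a power of `y`. -/
theorem h26_pow_mul_pow {x y : R} (hxy : x * y = 1) (n i : ℕ) :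
    y ^ n * x ^ i = if n ≤ i then x ^ (i - n) else y ^ (n - i) := by
  have hyx : y * x = 1 := by rw [mul_comm]; exact hxy
  split_ifs with h
  · obtain ⟨k, rfl⟩ := Nat.exists_eq_add_of_le h
    rw [Nat.add_sub_cancel_left, pow_add, ← mul_assoc, ← mul_pow, hyx, one_pow, one_mul]
  · push Not at h
    obtain ⟨k, rfl⟩ := Nat.exists_eq_add_of_le h.le
    rw [Nat.add_sub_cancel_left, pow_add, mul_comm (y ^ i), mul_assoc, ← mul_pow, hyx, one_pow,
      mul_one]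

/-- The sum of the two charts and of the span of a finite set. -/
def h26_sum (B₁ B₂ : Subalgebra O R) (T : Set R) : Submodule O R :=
  Subalgebra.toSubmodule B₁ ⊔ Subalgebra.toSubmodule B₂ ⊔ Submodule.span O T

theorem h26_mem_sum_of_mem_left {B₁ B₂ : Subalgebra O R} {T : Set R} {z : R} (hz : z ∈ B₁) :
    z ∈ h26_sum B₁ B₂ T :=
  Submodule.mem_sup_left (Submodule.mem_sup_left hz)

theorem h26_mem_sum_of_mem_right {B₁ B₂ : Subalgebra O R} {T : Set R} {z : R} (hz : z ∈ B₂) :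
    z ∈ h26_sum B₁ B₂ T :=
  Submodule.mem_sup_left (Submodule.mem_sup_right hz)

theorem h26_mem_sum_of_mem_span {B₁ B₂ : Subalgebra O R} {T : Set R} {z : R} (hz : z ∈ T) :
    z ∈ h26_sum B₁ B₂ T :=
  Submodule.mem_sup_right (Submodule.subset_span hz)

/-- The finite set of the "middle" elements `y ^ s * b`, `s < S`, `b ∈ bs`. -/
noncomputable def h26_mid (y : R) (S : ℕ) (bs : Finset R) : Finset R :=
  open Classical in
  (Finset.range S ×ˢ bs).image fun sb => y ^ sb.1 * sb.2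

theorem h26_mem_mid {y : R} {S : ℕ} {bs : Finset R} {s : ℕ} {b : R} (hs : s < S) (hb : b ∈ bs) :
    y ^ s * b ∈ h26_mid y S bs := by
  classical
  unfold h26_mid
  exact Finset.mem_image.mpr ⟨(s, b), Finset.mem_product.mpr ⟨Finset.mem_range.mpr hs, hb⟩, rfl⟩

/-- **Finiteness of `B₁₂ / (B₁ + B₂)`**, with an explicit bound. -/
theorem h26_mem_sum (x y : R) (hxy : x * y = 1) (B₁ B₂ : Subalgebra O R)
    (hx : x ∈ B₁) (hy : y ∈ B₂) (bs : Finset R) (hbs : ∀ b ∈ bs, b ∈ B₁)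
    (hgen : ∀ b ∈ B₁, b ∈ Submodule.span (Algebra.adjoin O {x}) (bs : Set R))
    (S : ℕ) (hS : ∀ b ∈ bs, y ^ S * b ∈ B₂) :
    ∀ b ∈ B₁, ∀ n : ℕ, y ^ n * b ∈ h26_sum B₁ B₂ (h26_mid y S bs : Set R) := by
  classical
  set M := h26_sum B₁ B₂ (h26_mid y S bs : Set R) with hM
  -- step 1: `y ^ s * b ∈ M`
  have h1 : ∀ b ∈ bs, ∀ s : ℕ, y ^ s * b ∈ M := by
    intro b hb s
    by_cases hs : s < S
    · exact h26_mem_sum_of_mem_span (Finset.mem_coe.mpr (h26_mem_mid hs hb))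
    · push Not at hs
      obtain ⟨k, rfl⟩ := Nat.exists_eq_add_of_le hs
      refine h26_mem_sum_of_mem_right ?_
      rw [pow_add, mul_comm (y ^ S), mul_assoc]
      exact B₂.mul_mem (B₂.pow_mem hy k) (hS b hb)
  -- step 2: `y ^ n * x ^ i * b ∈ M`
  have h2 : ∀ b ∈ bs, ∀ n i : ℕ, y ^ n * x ^ i * b ∈ M := by
    intro b hb n i
    rw [h26_pow_mul_pow hxy]
    split_ifs with h
    · exact h26_mem_sum_of_mem_left (B₁.mul_mem (B₁.pow_mem hx _) (hbs b hb))
    · exact h1 b hb _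
  -- step 3: `y ^ n * p * b ∈ M` for `p ∈ O[x]`
  have h3 : ∀ b ∈ bs, ∀ p ∈ Algebra.adjoin O {x}, ∀ n : ℕ, y ^ n * p * b ∈ M := by
    intro b hb p hp n
    rw [Algebra.adjoin_singleton_eq_range_aeval] at hp
    obtain ⟨P, rfl⟩ := hp
    have : y ^ n * (aeval x P) * b = ∑ i ∈ Finset.range (P.natDegree + 1),
        P.coeff i • (y ^ n * x ^ i * b) := by
      rw [Polynomial.aeval_eq_sum_range, Finset.mul_sum, Finset.sum_mul]
      refine Finset.sum_congr rfl fun i _ => ?_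
      rw [mul_smul_comm, smul_mul_assoc]
    show y ^ n * (aeval x P) * b ∈ M
    rw [this]
    exact Submodule.sum_mem _ fun i _ => Submodule.smul_mem _ _ (h2 b hb n i)
  -- step 4: the span
  intro b' hb' n
  have hspan := hgen b' hb'
  rw [Submodule.mem_span_finset] at hspan
  obtain ⟨f, -, rfl⟩ := hspan
  rw [Finset.mul_sum]
  refine Submodule.sum_mem _ fun b hb => ?_
  have := h3 b hb (f b : R) (f b).2 n
  rw [mul_assoc] at this
  exact this

/-- **Finiteness of `B₁₂ / (B₁ + B₂)`.** -/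
theorem h26_exists_finset (x y : R) (hxy : x * y = 1) (B₁ B₂ : Subalgebra O R)
    (hx : x ∈ B₁) (hy : y ∈ B₂) (bs : Finset R) (hbs : ∀ b ∈ bs, b ∈ B₁)
    (hgen : ∀ b ∈ B₁, b ∈ Submodule.span (Algebra.adjoin O {x}) (bs : Set R))
    (hB₂ : ∀ b ∈ bs, ∃ n : ℕ, y ^ n * b ∈ B₂) :
    ∃ T : Finset R, ∀ b ∈ B₁, ∀ n : ℕ,
      y ^ n * b ∈ Subalgebra.toSubmodule B₁ ⊔ Subalgebra.toSubmodule B₂ ⊔
        Submodule.span O (T : Set R) := by
  classical
  choose! N hN using hB₂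
  refine ⟨h26_mid y (bs.sup N) bs, h26_mem_sum x y hxy B₁ B₂ hx hy bs hbs hgen (bs.sup N) ?_⟩
  intro b hb
  obtain ⟨k, hk⟩ := Nat.exists_eq_add_of_le (Finset.le_sup (f := N) hb)
  rw [hk, pow_add, mul_comm (y ^ N b), mul_assoc]
  exact B₂.mul_mem (B₂.pow_mem hy k) (hN b hb)

/-- **Bounded torsion** (abstract form): for a submodule `N` and a finite set `T` of a module over
a noetherian ring, the `π`-power torsion of `(N + span T) / N` has bounded exponent. -/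
theorem h26_bounded_torsion_span [IsNoetherianRing O] (π : O) (N : Submodule O R)
    (T : Finset R) :
    ∃ a : ℕ, ∀ z ∈ N ⊔ Submodule.span O (T : Set R), ∀ n : ℕ, π ^ n • z ∈ N → π ^ a • z ∈ N := by
  classical
  set φ : (T → O) →ₗ[O] R ⧸ N :=
    N.mkQ.comp (Fintype.linearCombination O (fun t : T => (t : R))) with hφ
  have hφ_apply : ∀ c : T → O, φ c = N.mkQ (∑ t, c t • (t : R)) := by
    intro c
    rw [hφ, LinearMap.comp_apply, Fintype.linearCombination_apply]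
  let K : ℕ →o Submodule O (T → O) :=
    ⟨fun n => LinearMap.ker ((π ^ n) • φ), by
      intro n m hnm c hc
      rw [LinearMap.mem_ker, LinearMap.smul_apply] at hc ⊢
      obtain ⟨k, rfl⟩ := Nat.exists_eq_add_of_le hnm
      rw [pow_add, mul_comm, mul_smul, hc, smul_zero]⟩
  obtain ⟨a, ha⟩ := (monotone_stabilizes_iff_noetherian (R := O) (M := T → O)).mpr inferInstance K
  refine ⟨a, fun z hz n hn => ?_⟩
  obtain ⟨u, hu, w, hw, rfl⟩ := Submodule.mem_sup.mp hz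
  have hw' : w ∈ Submodule.span O (Set.range fun t : T => (t : R)) := by
    have hr : (Set.range fun t : T => (t : R)) = (T : Set R) := by
      ext r
      constructor
      · rintro ⟨t, rfl⟩
        exact t.2
      · intro hr
        exact ⟨⟨r, hr⟩, rfl⟩
    rw [hr]
    exact hw
  obtain ⟨c, rfl⟩ := (Submodule.mem_span_range_iff_exists_fun O).mp hw'
  have h1 : π ^ n • (∑ t, c t • (t : R)) ∈ N := by
    have := N.sub_mem hn (N.smul_mem (π ^ n) hu)
    rwa [smul_add, add_sub_cancel_left] at this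
  have h2 : c ∈ K n := by
    show c ∈ LinearMap.ker ((π ^ n) • φ)
    rw [LinearMap.mem_ker, LinearMap.smul_apply, hφ_apply, ← map_smul]
    exact (Submodule.Quotient.mk_eq_zero N).mpr h1
  have h3 : c ∈ K a := by
    have h4 : K n ≤ K (max n a) := K.monotone (le_max_left _ _)
    rw [ha (max n a) (le_max_right _ _)]
    exact h4 h2
  have h5 : π ^ a • (∑ t, c t • (t : R)) ∈ N := by
    have : c ∈ LinearMap.ker ((π ^ a) • φ) := h3
    rw [LinearMap.mem_ker, LinearMap.smul_apply, hφ_apply, ← map_smul] at this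
    exact (Submodule.Quotient.mk_eq_zero N).mp this
  rw [smul_add]
  exact N.add_mem (N.smul_mem _ hu) h5

/-- **Bounded torsion of `B₁₂ / (B₁ + B₂)`.** -/
theorem h26_bounded_torsion [IsNoetherianRing O] (π : O) (x y : R) (hxy : x * y = 1)
    (B₁ B₂ : Subalgebra O R) (hx : x ∈ B₁) (hy : y ∈ B₂) (bs : Finset R)
    (hbs : ∀ b ∈ bs, b ∈ B₁)
    (hgen : ∀ b ∈ B₁, b ∈ Submodule.span (Algebra.adjoin O {x}) (bs : Set R))
    (hB₂ : ∀ b ∈ bs, ∃ n : ℕ, y ^ n * b ∈ B₂) :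
    ∃ a : ℕ, ∀ b ∈ B₁, ∀ m n : ℕ,
      π ^ n • (y ^ m * b) ∈ Subalgebra.toSubmodule B₁ ⊔ Subalgebra.toSubmodule B₂ →
        π ^ a • (y ^ m * b) ∈ Subalgebra.toSubmodule B₁ ⊔ Subalgebra.toSubmodule B₂ := by
  obtain ⟨T, hT⟩ := h26_exists_finset x y hxy B₁ B₂ hx hy bs hbs hgen hB₂
  obtain ⟨a, ha⟩ := h26_bounded_torsion_span π
    (Subalgebra.toSubmodule B₁ ⊔ Subalgebra.toSubmodule B₂) T
  exact ⟨a, fun b hb m n hn => ha _ (hT b hb m) n hn⟩

/-- **Bounded torsion of `B₁₂ / (B₁ + B₂)`**, in the shape of the hypothesis `hbdd` of the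
connectedness lemma `h18_connected` (for the elements of the form `y ^ m * b`). -/
theorem h26_hbdd_of_mem [IsNoetherianRing O] (π : O) (x y : R) (hxy : x * y = 1)
    (B₁ B₂ : Subalgebra O R) (hx : x ∈ B₁) (hy : y ∈ B₂) (bs : Finset R)
    (hbs : ∀ b ∈ bs, b ∈ B₁)
    (hgen : ∀ b ∈ B₁, b ∈ Submodule.span (Algebra.adjoin O {x}) (bs : Set R))
    (hB₂ : ∀ b ∈ bs, ∃ n : ℕ, y ^ n * b ∈ B₂) :
    ∃ a : ℕ, ∀ z : R, (∃ b ∈ B₁, ∃ m : ℕ, z = y ^ m * b) →
      (∃ n : ℕ, ∃ z₁ ∈ B₁, ∃ z₂ ∈ B₂, algebraMap O R (π ^ n) * z = z₁ - z₂) →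
        ∃ z₁ ∈ B₁, ∃ z₂ ∈ B₂, algebraMap O R (π ^ a) * z = z₁ - z₂ := by
  obtain ⟨a, ha⟩ := h26_bounded_torsion π x y hxy B₁ B₂ hx hy bs hbs hgen hB₂
  refine ⟨a, ?_⟩
  rintro z ⟨b, hb, m, rfl⟩ ⟨n, z₁, hz₁, z₂, hz₂, hz⟩
  have h1 : π ^ n • (y ^ m * b) ∈ Subalgebra.toSubmodule B₁ ⊔ Subalgebra.toSubmodule B₂ := by
    rw [Algebra.smul_def, hz, sub_eq_add_neg]
    exact Submodule.add_mem_sup hz₁ (B₂.neg_mem hz₂)
  have h2 := ha b hb m n h1
  obtain ⟨w₁, hw₁, w₂, hw₂, hw⟩ := Submodule.mem_sup.mp h2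
  refine ⟨w₁, hw₁, -w₂, B₂.neg_mem hw₂, ?_⟩
  rw [← Algebra.smul_def, ← hw, sub_neg_eq_add]

end Generic

end Fermat.Agent.S18x.Spec.H26
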