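import Mathlib
import Fermat.Agent.S18x.Spec.H26_TwoChart
import Fermat.Agent.S18x.Spec.H18_Connected

/-!
# S18 / package SPEC (helper26): the two charts of integral closures

`O` a ring, `R` a commutative `O`-algebra, `j j' : R` with `j * j' = 1`; the base rings of the
three charts are `O[j]`, `O[j']`, `O[j, j']` (as subalgebras of `R`), and
`C₁`, `C₂`, `C₁₂` are their integral closures in `R`.

* `h26_isIntegral_iff` : integrality over a subalgebra `A` of `R`, with a monic polynomial over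
  `R` whose coefficients lie in `A`;
* `h26_isIntegral_pow_mul` : the scaling trick;
* `h26_chart_scale₁₂`, `h26_chart_scale₁₂'`, `h26_chart_scale₁`, `h26_chart_scale₂` :
  `C₁₂ = C₁[1/j] = C₂[1/j']`, and `C₁ ⊆ C₂[j]`, `C₂ ⊆ C₁[j']`.
-/

set_option autoImplicit false

open Polynomial

namespace Fermat.Agent.S18x.Spec.H26

section Integral

variable {O R : Type*} [CommRing O] [CommRing R] [Algebra O R]

/-- Integrality over a subalgebra `A` of `R`: a monic polynomial over `R` with coefficients in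
`A`. -/
theorem h26_isIntegral_iff (A : Subalgebra O R) (z : R) :
    IsIntegral A z ↔ ∃ p : R[X], p.Monic ∧ (∀ i, p.coeff i ∈ A) ∧ p.eval z = 0 := by
  constructor
  · rintro ⟨P, hP, hz⟩
    refine ⟨P.map (algebraMap A R), hP.map _, fun i => ?_, ?_⟩
    · rw [coeff_map]
      exact (P.coeff i).2
    · rw [eval_map]
      exact hz
  · rintro ⟨p, hp, hcoeff, hz⟩
    have hl : p ∈ lifts (algebraMap A R) := by
      rw [lifts_iff_coeff_lifts]
      intro n
      exact ⟨⟨p.coeff n, hcoeff n⟩, rfl⟩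
    obtain ⟨q, hq, -, hqm⟩ := lifts_and_natDegree_eq_and_monic hl hp
    refine ⟨q, hqm, ?_⟩
    rw [← eval_map, hq]
    exact hz

/-- Integrality is monotone in the base subalgebra. -/
theorem h26_isIntegral_mono {A A' : Subalgebra O R} (h : A ≤ A') {z : R} (hz : IsIntegral A z) :
    IsIntegral A' z := by
  rw [h26_isIntegral_iff] at hz ⊢
  obtain ⟨p, hp, hcoeff, hz⟩ := hz
  exact ⟨p, hp, fun i => h (hcoeff i), hz⟩

/-- The elements of a subalgebra are integral over it. -/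
theorem h26_isIntegral_of_mem {A : Subalgebra O R} {z : R} (hz : z ∈ A) : IsIntegral A z := by
  have := isIntegral_algebraMap (R := A) (A := R) (x := ⟨z, hz⟩)
  exact this

/-- If every generator can be scaled into `A` by a power of `s ∈ A`, so can every element of the
algebra generated. -/
theorem h26_exists_pow_mul_mem (A : Subalgebra O R) (s : R) (hs : s ∈ A) (G : Set R)
    (hG : ∀ g ∈ G, ∃ k : ℕ, s ^ k * g ∈ A) :
    ∀ c ∈ Algebra.adjoin O G, ∃ k : ℕ, s ^ k * c ∈ A := by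
  intro c hc
  induction hc using Algebra.adjoin_induction with
  | mem g hg => exact hG g hg
  | algebraMap r => exact ⟨0, by rw [pow_zero, one_mul]; exact A.algebraMap_mem r⟩
  | add u v _ _ hu hv =>
    obtain ⟨k₁, h₁⟩ := hu
    obtain ⟨k₂, h₂⟩ := hv
    refine ⟨k₁ + k₂, ?_⟩
    have e : s ^ (k₁ + k₂) * (u + v) = s ^ k₂ * (s ^ k₁ * u) + s ^ k₁ * (s ^ k₂ * v) := by
      rw [pow_add]; ring
    rw [e]
    exact A.add_mem (A.mul_mem (A.pow_mem hs _) h₁) (A.mul_mem (A.pow_mem hs _) h₂)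
  | mul u v _ _ hu hv =>
    obtain ⟨k₁, h₁⟩ := hu
    obtain ⟨k₂, h₂⟩ := hv
    refine ⟨k₁ + k₂, ?_⟩
    have e : s ^ (k₁ + k₂) * (u * v) = (s ^ k₁ * u) * (s ^ k₂ * v) := by
      rw [pow_add]; ring
    rw [e]
    exact A.mul_mem h₁ h₂

/-- Uniform scaling of finitely many elements. -/
theorem h26_exists_pow_mul_mem_uniform (A : Subalgebra O R) (s : R) (hs : s ∈ A)
    (c : ℕ → R) (hc : ∀ i, ∃ k : ℕ, s ^ k * c i ∈ A) (d : ℕ) :
    ∃ n : ℕ, ∀ i < d, s ^ n * c i ∈ A := by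
  induction d with
  | zero => exact ⟨0, fun i hi => absurd hi (Nat.not_lt_zero i)⟩
  | succ d ih =>
    obtain ⟨n, hn⟩ := ih
    obtain ⟨k, hk⟩ := hc d
    refine ⟨n + k, fun i hi => ?_⟩
    rcases Nat.lt_succ_iff_lt_or_eq.mp hi with h | rfl
    · rw [pow_add, mul_comm (s ^ n), mul_assoc]
      exact A.mul_mem (A.pow_mem hs _) (hn i h)
    · rw [pow_add, mul_assoc]
      exact A.mul_mem (A.pow_mem hs _) hk

/-- **The scaling trick**: if every element of `A'` can be scaled into `A` by a power of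
`s ∈ A`, then every element integral over `A'` can be scaled to an element integral over `A`. -/
theorem h26_isIntegral_pow_mul (A A' : Subalgebra O R) (s : R) (hs : s ∈ A)
    (h : ∀ c ∈ A', ∃ k : ℕ, s ^ k * c ∈ A) (z : R) (hz : IsIntegral A' z) :
    ∃ n : ℕ, IsIntegral A (s ^ n * z) := by
  rw [h26_isIntegral_iff] at hz
  obtain ⟨p, hp, hcoeff, hz⟩ := hz
  obtain ⟨n, hn⟩ := h26_exists_pow_mul_mem_uniform A s hs (fun i => p.coeff i)
    (fun i => h _ (hcoeff i)) p.natDegree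
  refine ⟨n, (h26_isIntegral_iff A _).mpr ⟨p.scaleRoots (s ^ n), ?_, fun i => ?_, ?_⟩⟩
  · exact (monic_scaleRoots_iff _).mpr hp
  · rw [coeff_scaleRoots]
    rcases lt_trichotomy i p.natDegree with hi | hi | hi
    · obtain ⟨k, hk⟩ := Nat.exists_eq_add_of_lt hi
      have e : p.natDegree - i = 1 + k := by omega
      rw [e, pow_add, pow_one, ← mul_assoc, mul_comm (p.coeff i)]
      exact A.mul_mem (hn i hi) (A.pow_mem (A.pow_mem hs _) _)
    · rw [hi, Nat.sub_self, pow_zero, mul_one, hp.coeff_natDegree]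
      exact A.one_mem
    · rw [coeff_eq_zero_of_natDegree_lt hi, zero_mul]
      exact A.zero_mem
  · have h0 : aeval z p = 0 := by
      rw [coe_aeval_eq_eval]
      exact hz
    have := scaleRoots_aeval_eq_zero (r := s ^ n) h0
    rw [coe_aeval_eq_eval] at this
    exact this

end Integral

section Charts

variable {O R : Type*} [CommRing O] [CommRing R] [Algebra O R]

variable (O) in
/-- `C₁₂ ⊆ C₁[1/j]`. -/
theorem h26_chart_scale₁₂ {j j' : R} (hjj' : j * j' = 1) (z : R)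
    (hz : IsIntegral (Algebra.adjoin O {j, j'}) z) :
    ∃ n : ℕ, IsIntegral (Algebra.adjoin O {j}) (j ^ n * z) := by
  refine h26_isIntegral_pow_mul _ _ j (Algebra.subset_adjoin (Set.mem_singleton j)) ?_ z hz
  refine h26_exists_pow_mul_mem _ j (Algebra.subset_adjoin (Set.mem_singleton j)) _ ?_
  rintro g (rfl | rfl)
  · exact ⟨0, by rw [pow_zero, one_mul]; exact Algebra.subset_adjoin (Set.mem_singleton _)⟩
  · exact ⟨1, by rw [pow_one, hjj']; exact Subalgebra.one_mem _⟩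

variable (O) in
/-- `C₁₂ ⊆ C₂[1/j']`. -/
theorem h26_chart_scale₁₂' {j j' : R} (hjj' : j * j' = 1) (z : R)
    (hz : IsIntegral (Algebra.adjoin O {j, j'}) z) :
    ∃ n : ℕ, IsIntegral (Algebra.adjoin O {j'}) (j' ^ n * z) := by
  refine h26_isIntegral_pow_mul _ _ j' (Algebra.subset_adjoin (Set.mem_singleton j')) ?_ z hz
  refine h26_exists_pow_mul_mem _ j' (Algebra.subset_adjoin (Set.mem_singleton j')) _ ?_
  rintro g (rfl | rfl)
  · exact ⟨1, by rw [pow_one, mul_comm, hjj']; exact Subalgebra.one_mem _⟩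
  · exact ⟨0, by rw [pow_zero, one_mul]; exact Algebra.subset_adjoin (Set.mem_singleton _)⟩

variable (O) in
/-- `C₁ ⊆ C₂[j]`. -/
theorem h26_chart_scale₁ {j j' : R} (hjj' : j * j' = 1) (z : R)
    (hz : IsIntegral (Algebra.adjoin O {j}) z) :
    ∃ n : ℕ, IsIntegral (Algebra.adjoin O {j'}) (j' ^ n * z) :=
  h26_chart_scale₁₂' O hjj' z
    (h26_isIntegral_mono (Algebra.adjoin_mono (by intro x hx; exact Or.inl hx)) hz)

variable (O) in
/-- `C₂ ⊆ C₁[j']`. -/
theorem h26_chart_scale₂ {j j' : R} (hjj' : j * j' = 1) (z : R)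
    (hz : IsIntegral (Algebra.adjoin O {j'}) z) :
    ∃ n : ℕ, IsIntegral (Algebra.adjoin O {j}) (j ^ n * z) :=
  h26_chart_scale₁₂ O hjj' z
    (h26_isIntegral_mono (Algebra.adjoin_mono (by intro x hx; exact Or.inr hx)) hz)

end Charts

section Relative

variable {O R : Type*} [CommRing O] [CommRing R] [Algebra O R]

/-- Divisibility by `π` in a subalgebra of a subalgebra, in terms of the ambient ring. -/
theorem h26_dvd_comap_iff (π : O) (B B₁₂ : Subalgebra O R) (hB : B ≤ B₁₂)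
    (u : Subalgebra.comap B₁₂.val B) :
    algebraMap O (Subalgebra.comap B₁₂.val B) π ∣ u ↔
      ∃ b ∈ B, ((u : B₁₂) : R) = algebraMap O R π * b := by
  constructor
  · rintro ⟨w, rfl⟩
    exact ⟨((w : B₁₂) : R), w.2, rfl⟩
  · rintro ⟨b, hb, h⟩
    refine ⟨⟨⟨b, hB hb⟩, hb⟩, ?_⟩
    apply Subtype.ext
    apply Subtype.ext
    exact h

/-- **The connectedness lemma in relative form**: `B₁, B₂ ⊆ B₁₂` subalgebras of an ambient
ring. -/
theorem h26_connected_rel (π : O) (B₁ B₂ B₁₂ : Subalgebra O R) (h₁ : B₁ ≤ B₁₂) (h₂ : B₂ ≤ B₁₂)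
    (hcap : ∀ x ∈ B₁, x ∈ B₂ → ∃ c : O, algebraMap O R c = x)
    (hloc : ∀ c : O, (∃ b ∈ B₁, algebraMap O R (c * c - c) = algebraMap O R π * b) →
      π ∣ c ∨ π ∣ c - 1)
    (a : ℕ)
    (hbdd : ∀ y ∈ B₁₂, (∃ n : ℕ, ∃ z₁ ∈ B₁, ∃ z₂ ∈ B₂, algebraMap O R (π ^ n) * y = z₁ - z₂) →
      ∃ z₁ ∈ B₁, ∃ z₂ ∈ B₂, algebraMap O R (π ^ a) * y = z₁ - z₂)
    (e₁ e₂ : R) (he₁ : e₁ ∈ B₁) (he₂ : e₂ ∈ B₂)
    (hi₁ : ∃ b ∈ B₁, e₁ * e₁ - e₁ = algebraMap O R π * b)
    (hi₂ : ∃ b ∈ B₂, e₂ * e₂ - e₂ = algebraMap O R π * b)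
    (h₁₂ : ∃ b ∈ B₁₂, e₁ - e₂ = algebraMap O R π * b) :
    ((∃ b ∈ B₁, e₁ = algebraMap O R π * b) ∧ (∃ b ∈ B₂, e₂ = algebraMap O R π * b)) ∨
      ((∃ b ∈ B₁, e₁ - 1 = algebraMap O R π * b) ∧
        (∃ b ∈ B₂, e₂ - 1 = algebraMap O R π * b)) := by
  set R₁ : Subalgebra O B₁₂ := Subalgebra.comap B₁₂.val B₁ with hR₁
  set R₂ : Subalgebra O B₁₂ := Subalgebra.comap B₁₂.val B₂ with hR₂
  let E₁ : R₁ := ⟨⟨e₁, h₁ he₁⟩, he₁⟩
  let E₂ : R₂ := ⟨⟨e₂, h₂ he₂⟩, he₂⟩
  have key := h18_connected (O := O) (R := B₁₂) π R₁ R₂ ?_ ?_ a ?_ E₁ E₂ ?_ ?_ ?_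
  · rcases key with ⟨k₁, k₂⟩ | ⟨k₁, k₂⟩
    · left
      exact ⟨(h26_dvd_comap_iff π B₁ B₁₂ h₁ E₁).mp k₁, (h26_dvd_comap_iff π B₂ B₁₂ h₂ E₂).mp k₂⟩
    · right
      exact ⟨(h26_dvd_comap_iff π B₁ B₁₂ h₁ (E₁ - 1)).mp k₁,
        (h26_dvd_comap_iff π B₂ B₁₂ h₂ (E₂ - 1)).mp k₂⟩
  · -- hcap
    intro x hx₁ hx₂
    obtain ⟨c, hc⟩ := hcap (x : R) hx₁ hx₂
    exact ⟨c, Subtype.ext hc⟩
  · -- hloc
    intro c hc
    apply hloc c
    have := (h26_dvd_comap_iff π B₁ B₁₂ h₁ (algebraMap O R₁ (c * c - c))).mp hc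
    exact this
  · -- hbdd
    rintro y ⟨n, z₁, hz₁, z₂, hz₂, hz⟩
    obtain ⟨w₁, hw₁, w₂, hw₂, hw⟩ := hbdd (y : R) y.2
      ⟨n, (z₁ : R), hz₁, (z₂ : R), hz₂, by
        have := congrArg (fun t : B₁₂ => (t : R)) hz
        exact this⟩
    exact ⟨⟨w₁, h₁ hw₁⟩, hw₁, ⟨w₂, h₂ hw₂⟩, hw₂, Subtype.ext hw⟩
  · exact (h26_dvd_comap_iff π B₁ B₁₂ h₁ (E₁ * E₁ - E₁)).mpr hi₁
  · exact (h26_dvd_comap_iff π B₂ B₁₂ h₂ (E₂ * E₂ - E₂)).mpr hi₂
  · obtain ⟨b, hb, h⟩ := h₁₂
    exact ⟨⟨b, hb⟩, Subtype.ext h⟩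

end Relative

section ChartTheorem

variable (O : Type*) {F : Type*} [CommRing O] [CommRing F] [Algebra O F]

/-- The chart: the integral closure of `O[j]` in `F`, as an `O`-subalgebra of `F`. -/
def chart (j : F) : Subalgebra O F :=
  (integralClosure (Algebra.adjoin O {j}) F).restrictScalars O

/-- The intersection of the two charts: the integral closure of `O[j, j']` in `F`. -/
def chart₁₂ (j j' : F) : Subalgebra O F :=
  (integralClosure (Algebra.adjoin O {j, j'}) F).restrictScalars O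

theorem mem_chart {j z : F} : z ∈ chart O j ↔ IsIntegral (Algebra.adjoin O {j}) z := Iff.rfl

theorem mem_chart₁₂ {j j' z : F} :
    z ∈ chart₁₂ O j j' ↔ IsIntegral (Algebra.adjoin O {j, j'}) z := Iff.rfl

theorem chart_le_chart₁₂_left (j j' : F) : chart O j ≤ chart₁₂ O j j' := fun _ hz =>
  h26_isIntegral_mono (Algebra.adjoin_mono (by intro x hx; exact Or.inl hx)) hz

theorem chart_le_chart₁₂_right (j j' : F) : chart O j' ≤ chart₁₂ O j j' := fun _ hz =>
  h26_isIntegral_mono (Algebra.adjoin_mono (by intro x hx; exact Or.inr hx)) hz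

theorem self_mem_chart (j : F) : j ∈ chart O j :=
  h26_isIntegral_of_mem (Algebra.subset_adjoin (Set.mem_singleton j))

/-- Every element of `C₁₂` is `j' ^ n * b` with `b ∈ C₁`. -/
theorem exists_eq_pow_mul_of_mem_chart₁₂ {j j' : F} (hjj' : j * j' = 1) {z : F}
    (hz : z ∈ chart₁₂ O j j') : ∃ b ∈ chart O j, ∃ n : ℕ, z = j' ^ n * b := by
  obtain ⟨n, hn⟩ := h26_chart_scale₁₂ O hjj' z hz
  refine ⟨j ^ n * z, hn, n, ?_⟩
  rw [← mul_assoc, ← mul_pow, mul_comm j' j, hjj', one_pow, one_mul]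

/-- **Bounded torsion for the two charts** (the hypothesis `hbdd` of the connectedness lemma):
if `C₁` is a finitely generated `O[j]`-module and `O` is noetherian, the `π`-power torsion of
`C₁₂ / (C₁ + C₂)` has bounded exponent. -/
theorem h26_charts_hbdd [IsNoetherianRing O] (π : O) {j j' : F} (hjj' : j * j' = 1)
    (hfin : ∃ bs : Finset F, (∀ b ∈ bs, b ∈ chart O j) ∧
      ∀ b ∈ chart O j, b ∈ Submodule.span (Algebra.adjoin O {j}) (bs : Set F)) :
    ∃ a : ℕ, ∀ y ∈ chart₁₂ O j j',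
      (∃ n : ℕ, ∃ z₁ ∈ chart O j, ∃ z₂ ∈ chart O j', algebraMap O F (π ^ n) * y = z₁ - z₂) →
        ∃ z₁ ∈ chart O j, ∃ z₂ ∈ chart O j', algebraMap O F (π ^ a) * y = z₁ - z₂ := by
  obtain ⟨bs, hbs, hgen⟩ := hfin
  obtain ⟨a, ha⟩ := h26_hbdd_of_mem π j j' hjj' (chart O j) (chart O j') (self_mem_chart O j)
    (self_mem_chart O j') bs hbs hgen (fun b hb => h26_chart_scale₁ O hjj' b (hbs b hb))
  exact ⟨a, fun y hy h => ha y (exists_eq_pow_mul_of_mem_chart₁₂ O hjj' hy) h⟩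

/-- **Connectedness of the special fibre of the two-chart model.**  `O` noetherian, `π : O`,
`C₁`, `C₂`, `C₁₂` the integral closures of `O[j]`, `O[1/j]`, `O[j, 1/j]` in `F`.  If

* `C₁` is a finitely generated `O[j]`-module (`hfin`),
* `C₁ ∩ C₂ = O` (`hcap`: the global functions are the constants),
* `π C₁ ∩ O = π O` and `O / π` has only the trivial idempotents (`hloc`),

then a pair of idempotents of `C₁ / π`, `C₂ / π` which agree in `C₁₂ / π` is `(0, 0)` or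
`(1, 1)`. -/
theorem h26_charts_connected [IsNoetherianRing O] (π : O) {j j' : F} (hjj' : j * j' = 1)
    (hfin : ∃ bs : Finset F, (∀ b ∈ bs, b ∈ chart O j) ∧
      ∀ b ∈ chart O j, b ∈ Submodule.span (Algebra.adjoin O {j}) (bs : Set F))
    (hcap : ∀ x ∈ chart O j, x ∈ chart O j' → ∃ c : O, algebraMap O F c = x)
    (hloc : ∀ c : O, (∃ b ∈ chart O j, algebraMap O F (c * c - c) = algebraMap O F π * b) →
      π ∣ c ∨ π ∣ c - 1)
    (e₁ e₂ : F) (he₁ : e₁ ∈ chart O j) (he₂ : e₂ ∈ chart O j')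
    (hi₁ : ∃ b ∈ chart O j, e₁ * e₁ - e₁ = algebraMap O F π * b)
    (hi₂ : ∃ b ∈ chart O j', e₂ * e₂ - e₂ = algebraMap O F π * b)
    (h₁₂ : ∃ b ∈ chart₁₂ O j j', e₁ - e₂ = algebraMap O F π * b) :
    ((∃ b ∈ chart O j, e₁ = algebraMap O F π * b) ∧
        (∃ b ∈ chart O j', e₂ = algebraMap O F π * b)) ∨
      ((∃ b ∈ chart O j, e₁ - 1 = algebraMap O F π * b) ∧
        (∃ b ∈ chart O j', e₂ - 1 = algebraMap O F π * b)) := by
  obtain ⟨a, ha⟩ := h26_charts_hbdd O π hjj' hfin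
  exact h26_connected_rel π (chart O j) (chart O j') (chart₁₂ O j j')
    (chart_le_chart₁₂_left O j j') (chart_le_chart₁₂_right O j j') hcap hloc a ha e₁ e₂ he₁ he₂
    hi₁ hi₂ h₁₂

end ChartTheorem

end Fermat.Agent.S18x.Spec.H26
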