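import Mathlib
import Fermat.Agent.S18x.Spec.H26_Charts

/-!
# S18 / package SPEC (helper26): the three inputs of `h26_charts_connected`

`O` an integrally closed noetherian domain, `F` a field, `j : F` transcendental over `O`.

* `h26_isIntegral_of_mem_charts` : an element of `F` integral over `O[j]` and over `O[1/j]` is
  integral over `O` (valuative criterion; no hypothesis on `O`, `j`);
* `h26_hcap` : (c4) the hypothesis `hcap`;
* `h26_isIntegral_of_mem_chart_of_mul` : an element `b` of `C₁` with `π b ∈ O` is integral
  over `O` (specialisation `j ↦ 0`);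
* `h26_hloc` : (c5) the hypothesis `hloc`;
* `h26_hfin` : (c3) the hypothesis `hfin`.
-/

set_option autoImplicit false

open Polynomial

namespace Fermat.Agent.S18x.Spec.H26

section Cap

variable (O : Type*) {F : Type*} [CommRing O] [Field F] [Algebra O F]

/-- An element integral over a subalgebra contained in a valuation subring lies in the
valuation subring. -/
theorem h26_mem_valuationSubring_of_isIntegral (V : ValuationSubring F) (A : Subalgebra O F)
    (hA : ∀ a ∈ A, a ∈ V) {x : F} (hx : IsIntegral A x) : x ∈ V := by
  rw [h26_isIntegral_iff] at hx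
  obtain ⟨p, hp, hcoeff, hz⟩ := hx
  have hl : p ∈ lifts (algebraMap V F) := by
    rw [lifts_iff_coeff_lifts]
    intro n
    exact ⟨⟨p.coeff n, hA _ (hcoeff n)⟩, rfl⟩
  obtain ⟨q, hq, -, hqm⟩ := lifts_and_natDegree_eq_and_monic hl hp
  have hint : IsIntegral V x := by
    refine ⟨q, hqm, ?_⟩
    rw [← eval_map, hq]
    exact hz
  obtain ⟨y, hy⟩ := (IsIntegrallyClosed.isIntegral_iff (R := V) (K := F)).mp hint
  rw [← hy]
  exact y.2

/-- **Valuative criterion for the two charts**: an element of the field `F` integral over `O[j]`
and over `O[1/j]` is integral over `O`. -/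
theorem h26_isIntegral_of_mem_charts {j j' : F} (hjj' : j * j' = 1) {x : F}
    (h₁ : x ∈ chart O j) (h₂ : x ∈ chart O j') : IsIntegral O x := by
  have hj' : j' = j⁻¹ := (eq_inv_of_mul_eq_one_right hjj')
  have key : x ∈ (⨅ V : {V : ValuationSubring F //
      Set.range (algebraMap O F) ⊆ V.toSubring}, V.1.toSubring) := by
    rw [Subring.mem_iInf]
    rintro ⟨V, hV⟩
    have hO : ∀ c : O, algebraMap O F c ∈ V := fun c => hV ⟨c, rfl⟩
    rcases V.mem_or_inv_mem j with hj | hj
    · refine h26_mem_valuationSubring_of_isIntegral O V (Algebra.adjoin O {j}) ?_ h₁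
      intro a ha
      induction ha using Algebra.adjoin_induction with
      | mem y hy =>
        rw [Set.mem_singleton_iff] at hy
        rw [hy]
        exact hj
      | algebraMap r => exact hO r
      | add y z _ _ hy hz => exact V.add_mem _ _ hy hz
      | mul y z _ _ hy hz => exact V.mul_mem _ _ hy hz
    · refine h26_mem_valuationSubring_of_isIntegral O V (Algebra.adjoin O {j'}) ?_ h₂
      intro a ha
      induction ha using Algebra.adjoin_induction with
      | mem y hy =>
        rw [Set.mem_singleton_iff] at hy
        rw [hy, hj']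
        exact hj
      | algebraMap r => exact hO r
      | add y z _ _ hy hz => exact V.add_mem _ _ hy hz
      | mul y z _ _ hy hz => exact V.mul_mem _ _ hy hz
  rw [iInf_valuationSubring_superset] at key
  have hint : IsIntegral (Subring.closure (Set.range (algebraMap O F))) x := key
  obtain ⟨P, hP, hz⟩ := hint
  have hl : P.map (algebraMap (Subring.closure (Set.range (algebraMap O F))) F) ∈
      lifts (algebraMap O F) := by
    rw [lifts_iff_coeff_lifts]
    intro n
    rw [coeff_map]
    have hmem : ((P.coeff n : Subring.closure (Set.range (algebraMap O F))) : F) ∈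
        (algebraMap O F).range := by
      have hle : Subring.closure (Set.range (algebraMap O F)) ≤ (algebraMap O F).range := by
        rw [Subring.closure_le]
        rintro _ ⟨c, rfl⟩
        exact ⟨c, rfl⟩
      exact hle (P.coeff n).2
    exact hmem
  obtain ⟨q, hq, -, hqm⟩ := lifts_and_natDegree_eq_and_monic hl (hP.map _)
  refine ⟨q, hqm, ?_⟩
  rw [← eval_map, hq, eval_map]
  exact hz

/-- (c4) **The hypothesis `hcap` of `h26_charts_connected`**: if every element of `F` integral
over `O` comes from `O`, the global functions of the two-chart model are the constants. -/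
theorem h26_hcap {j j' : F} (hjj' : j * j' = 1)
    (hconst : ∀ x : F, IsIntegral O x → ∃ c : O, algebraMap O F c = x) :
    ∀ x ∈ chart O j, x ∈ chart O j' → ∃ c : O, algebraMap O F c = x :=
  fun x h₁ h₂ => hconst x (h26_isIntegral_of_mem_charts O hjj' h₁ h₂)

end Cap

section Loc

variable (O : Type*) {F : Type*} [CommRing O] [IsDomain O] [IsIntegrallyClosed O] [Field F]
  [Algebra O F]

/-- In an integrally closed domain: a relation `Σ_{i ≤ n} c i * π ^ (n - i) * d ^ i = 0` with
`c n = 1` forces `π ∣ d`. -/
theorem h26_dvd_of_relation (π d : O) (hπ : π ≠ 0) (n : ℕ) (c : ℕ → O) (hc : c n = 1)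
    (h : ∑ i ∈ Finset.range (n + 1), c i * π ^ (n - i) * d ^ i = 0) : π ∣ d := by
  have hπK : algebraMap O (FractionRing O) π ≠ 0 :=
    (map_ne_zero_iff _ (IsFractionRing.injective O (FractionRing O))).mpr hπ
  have hint : IsIntegral O (algebraMap O (FractionRing O) d / algebraMap O (FractionRing O) π) := by
    refine ⟨X ^ n + ∑ i : Fin n, C (c i) * X ^ (i : ℕ), monic_X_pow_add (degree_sum_fin_lt _), ?_⟩
    have h' := congrArg (algebraMap O (FractionRing O)) h
    rw [map_zero, map_sum, Finset.sum_range_succ, hc, Nat.sub_self, pow_zero, mul_one, one_mul,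
      Finset.sum_range] at h'
    have hmul : algebraMap O (FractionRing O) π ^ n *
        eval₂ (algebraMap O (FractionRing O))
          (algebraMap O (FractionRing O) d / algebraMap O (FractionRing O) π)
          (X ^ n + ∑ i : Fin n, C (c i) * X ^ (i : ℕ)) = 0 := by
      rw [eval₂_add, eval₂_pow, eval₂_X, eval₂_finsetSum, mul_add, Finset.mul_sum, ← h',
        add_comm]
      congr 1
      · refine Finset.sum_congr rfl fun i _ => ?_
        rw [eval₂_mul, eval₂_C, eval₂_pow, eval₂_X, map_mul, map_mul, map_pow, map_pow, div_pow]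
        have hi : (i : ℕ) ≤ n := i.2.le
        have hpow : algebraMap O (FractionRing O) π ^ n =
            algebraMap O (FractionRing O) π ^ (n - (i : ℕ)) *
              algebraMap O (FractionRing O) π ^ (i : ℕ) := by
          rw [← pow_add, Nat.sub_add_cancel hi]
        rw [hpow]
        field_simp
      · rw [div_pow, map_pow]
        field_simp
    rcases mul_eq_zero.mp hmul with h0 | h0
    · exact absurd (pow_eq_zero_iff (n := n) (by
        intro hn
        subst hn
        simp at h0) |>.mp h0) hπK
    · exact h0
  obtain ⟨y, hy⟩ := IsIntegrallyClosed.isIntegral_iff.mp hint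
  refine ⟨y, ?_⟩
  apply IsFractionRing.injective O (FractionRing O)
  rw [map_mul, hy]
  field_simp

/-- **Specialisation `j ↦ 0`**: if `j` is transcendental over `O`, an element `b` of the chart
`C₁` (integral over `O[j]`) with `π b = d ∈ O`, `π ≠ 0`, satisfies `π ∣ d` in `O`. -/
theorem h26_dvd_of_mem_chart {j : F} (hj : Transcendental O j) (π d : O) (hπ : π ≠ 0) {b : F}
    (hb : b ∈ chart O j) (h : algebraMap O F d = algebraMap O F π * b) : π ∣ d := by
  have hinj : Function.Injective (aeval j : O[X] →ₐ[O] F) := transcendental_iff_injective.mp hj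
  obtain ⟨p, hp, hcoeff, hz⟩ := (h26_isIntegral_iff _ _).mp ((mem_chart O).mp hb)
  have hex : ∀ i, ∃ P : O[X], aeval j P = p.coeff i := by
    intro i
    have := hcoeff i
    rw [Algebra.adjoin_singleton_eq_range_aeval] at this
    exact this
  choose P hP using hex
  have hPn : P p.natDegree = 1 := by
    apply hinj
    rw [hP, map_one]
    exact hp.coeff_natDegree
  -- the polynomial relation
  have hG : (∑ i ∈ Finset.range (p.natDegree + 1),
      P i * C (π ^ (p.natDegree - i) * d ^ i)) = 0 := by
    apply hinj
    rw [map_zero, map_sum]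
    have h0 : algebraMap O F π ^ p.natDegree * p.eval b = 0 := by rw [hz, mul_zero]
    rw [eval_eq_sum_range, Finset.mul_sum] at h0
    rw [← h0]
    refine Finset.sum_congr rfl fun i hi => ?_
    have hi' : i ≤ p.natDegree := Nat.lt_succ_iff.mp (Finset.mem_range.mp hi)
    have hpow : algebraMap O F π ^ p.natDegree =
        algebraMap O F π ^ (p.natDegree - i) * algebraMap O F π ^ i := by
      rw [← pow_add, Nat.sub_add_cancel hi']
    rw [map_mul, hP, aeval_C, map_mul, map_pow, map_pow, h, hpow]
    ring
  have hG0 := congrArg (eval 0) hG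
  rw [eval_finsetSum, eval_zero] at hG0
  refine h26_dvd_of_relation O π d hπ p.natDegree (fun i => (P i).eval 0) ?_ ?_
  · simp only [hPn, eval_one]
  · refine Eq.trans (Finset.sum_congr rfl fun i _ => ?_) hG0
    rw [eval_mul, eval_C]
    ring

/-- (c5) **The hypothesis `hloc` of `h26_charts_connected`** for a prime element `π` of an
integrally closed domain `O` and `j` transcendental over `O`. -/
theorem h26_hloc {j : F} (hj : Transcendental O j) (π : O) (hπ : Prime π) :
    ∀ c : O, (∃ b ∈ chart O j, algebraMap O F (c * c - c) = algebraMap O F π * b) →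
      π ∣ c ∨ π ∣ c - 1 := by
  rintro c ⟨b, hb, h⟩
  have hdvd : π ∣ c * c - c := h26_dvd_of_mem_chart O hj π (c * c - c) hπ.ne_zero hb h
  have hfac : c * c - c = c * (c - 1) := by ring
  rw [hfac] at hdvd
  exact hπ.dvd_or_dvd hdvd

end Loc

section Fin

variable (O : Type*) {F : Type*} [CommRing O] [IsDomain O] [IsIntegrallyClosed O]
  [IsNoetherianRing O] [Field F] [Algebra O F]

/-- For `j` transcendental over `O`, the ring `O[j]` is isomorphic to the polynomial ring. -/
noncomputable def h26_adjoinEquiv {j : F} (hj : Transcendental O j) :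
    O[X] ≃ₐ[O] Algebra.adjoin O {j} :=
  (AlgEquiv.ofInjective (aeval j : O[X] →ₐ[O] F) (transcendental_iff_injective.mp hj)).trans
    (Subalgebra.equivOfEq _ _ (Algebra.adjoin_singleton_eq_range_aeval O j).symm)

omit [IsDomain O] [IsIntegrallyClosed O] in
theorem h26_isNoetherianRing_adjoin {j : F} (hj : Transcendental O j) :
    IsNoetherianRing (Algebra.adjoin O {j}) :=
  isNoetherianRing_of_ringEquiv O[X] (h26_adjoinEquiv O hj).toRingEquiv

omit [IsNoetherianRing O] in
theorem h26_isIntegrallyClosed_adjoin {j : F} (hj : Transcendental O j) :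
    IsIntegrallyClosed (Algebra.adjoin O {j}) :=
  IsIntegrallyClosed.of_equiv (h26_adjoinEquiv O hj).toRingEquiv

/-- (c3) **The hypothesis `hfin` of `h26_charts_connected`**: if `F` is a finite separable
extension of the fraction field `L` of `O[j]`, the chart `C₁` is a finitely generated
`O[j]`-module. -/
theorem h26_hfin {j : F} (hj : Transcendental O j) (L : Type*) [Field L]
    [Algebra (Algebra.adjoin O {j}) L] [IsFractionRing (Algebra.adjoin O {j}) L] [Algebra L F]
    [IsScalarTower (Algebra.adjoin O {j}) L F] [FiniteDimensional L F]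
    [Algebra.IsSeparable L F] :
    ∃ bs : Finset F, (∀ b ∈ bs, b ∈ chart O j) ∧
      ∀ b ∈ chart O j, b ∈ Submodule.span (Algebra.adjoin O {j}) (bs : Set F) := by
  classical
  have := h26_isNoetherianRing_adjoin O hj
  have := h26_isIntegrallyClosed_adjoin O hj
  have : Module.Finite (Algebra.adjoin O {j}) (integralClosure (Algebra.adjoin O {j}) F) :=
    IsIntegralClosure.finite (Algebra.adjoin O {j}) L F (integralClosure (Algebra.adjoin O {j}) F)
  obtain ⟨s, hs⟩ := (Module.finite_def (R := Algebra.adjoin O {j})
    (M := integralClosure (Algebra.adjoin O {j}) F)).mp inferInstance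
  refine ⟨s.image Subtype.val, ?_, ?_⟩
  · intro b hb
    obtain ⟨x, -, rfl⟩ := Finset.mem_image.mp hb
    exact x.2
  · intro b hb
    have hmem : (⟨b, hb⟩ : integralClosure (Algebra.adjoin O {j}) F) ∈
        Submodule.span (Algebra.adjoin O {j}) (s : Set _) := by
      rw [hs]
      exact Submodule.mem_top
    have := Submodule.mem_map_of_mem
      (f := (integralClosure (Algebra.adjoin O {j}) F).val.toLinearMap) hmem
    rw [Submodule.map_span] at this
    simpa using this

end Fin

end Fermat.Agent.S18x.Spec.H26
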