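import Mathlib
import Fermat.Agent.S18x.Spec.H26_Inputs

/-!
# S18 / package SPEC (helper26): the finiteness hypothesis in elementary form

`H26FinOver O j` : the field `F` is "finite over the fraction field of `O[j]`", in element form
(no fraction field, no instances): there is a finite set `ws ⊆ F` such that every `x : F` has a
non-zero multiple `a * x`, `a ∈ O[j]`, in the `O[j]`-span of `ws`.

* `h26_hfin_of_finOver` : `H26FinOver O j` ⟹ the hypothesis `hfin` of `h26_charts_connected`
  (characteristic zero);
* `h26_finOver_map` : `H26FinOver` passes to a finite extension `F'` of `F`;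
* `h26_finOver_of_finiteDimensional` : `H26FinOver` from
  `FiniteDimensional (IntermediateField.adjoin K {j}) F`, `K = Frac O`.
-/

set_option autoImplicit false
set_option linter.style.haveILetI false

open Polynomial

namespace Fermat.Agent.S18x.Spec.H26

section Def

variable (O : Type*) {F : Type*} [CommRing O] [Field F] [Algebra O F]

/-- `F` is finite over the fraction field of `O[j]`, in element form. -/
def H26FinOver (j : F) : Prop :=
  ∃ ws : Finset F, ∀ x : F, ∃ a ∈ Algebra.adjoin O {j}, a ≠ 0 ∧
    a * x ∈ Submodule.span (Algebra.adjoin O {j}) (ws : Set F)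

end Def

section ToHfin

variable (O : Type*) {F : Type*} [CommRing O] [IsDomain O] [IsIntegrallyClosed O]
  [IsNoetherianRing O] [Field F] [CharZero F] [Algebra O F]

/-- (c3') **The hypothesis `hfin` of `h26_charts_connected`** from the elementary finiteness
hypothesis, in characteristic zero. -/
theorem h26_hfin_of_finOver {j : F} (hj : Transcendental O j) (hfin : H26FinOver O j) :
    ∃ bs : Finset F, (∀ b ∈ bs, b ∈ chart O j) ∧
      ∀ b ∈ chart O j, b ∈ Submodule.span (Algebra.adjoin O {j}) (bs : Set F) := by
  classical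
  obtain ⟨ws, hws⟩ := hfin
  letI : Algebra (FractionRing (Algebra.adjoin O {j})) F :=
    FractionRing.liftAlgebra (Algebra.adjoin O {j}) F
  haveI : IsScalarTower (Algebra.adjoin O {j}) (FractionRing (Algebra.adjoin O {j})) F :=
    FractionRing.isScalarTower_liftAlgebra (Algebra.adjoin O {j}) F
  haveI : CharZero (FractionRing (Algebra.adjoin O {j})) :=
    (RingHom.charZero_iff (algebraMap (FractionRing (Algebra.adjoin O {j})) F).injective).mpr
      inferInstance
  haveI : FiniteDimensional (FractionRing (Algebra.adjoin O {j})) F := by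
    refine Module.finite_def.mpr ⟨ws, ?_⟩
    rw [eq_top_iff]
    intro x _
    obtain ⟨a, ha, ha0, hax⟩ := hws x
    have hle := Submodule.span_le_restrictScalars (Algebra.adjoin O {j})
      (FractionRing (Algebra.adjoin O {j})) (ws : Set F)
    have h1 : a * x ∈ Submodule.span (FractionRing (Algebra.adjoin O {j})) (ws : Set F) :=
      hle hax
    have h2 := Submodule.smul_mem _
      ((algebraMap (Algebra.adjoin O {j}) (FractionRing (Algebra.adjoin O {j})) ⟨a, ha⟩)⁻¹) h1
    have h3 : ((algebraMap (Algebra.adjoin O {j}) (FractionRing (Algebra.adjoin O {j}))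
        ⟨a, ha⟩)⁻¹) • (a * x) = x := by
      rw [Algebra.smul_def, map_inv₀, ← IsScalarTower.algebraMap_apply]
      change a⁻¹ * (a * x) = x
      rw [← mul_assoc, inv_mul_cancel₀ ha0, one_mul]
    rw [h3] at h2
    exact h2
  exact h26_hfin O hj (FractionRing (Algebra.adjoin O {j}))

end ToHfin

section Map

variable (O : Type*) {F : Type*} [CommRing O] [Field F] [Algebra O F]

/-- A product over a finite set, times `y`, lies in the span as soon as one of the factors
times `y` does. -/
theorem h26_prod_mul_mem_span {ι : Type*} [DecidableEq ι] (A : Subalgebra O F) (S : Set F)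
    (s : Finset ι) (a : ι → F) (ha : ∀ i ∈ s, a i ∈ A) (i : ι) (hi : i ∈ s) (y : F)
    (hy : a i * y ∈ Submodule.span A S) : (∏ k ∈ s, a k) * y ∈ Submodule.span A S := by
  rw [← Finset.mul_prod_erase s a hi, mul_comm (a i), mul_assoc]
  have hmem : (∏ k ∈ s.erase i, a k) ∈ A :=
    Subalgebra.prod_mem A fun k hk => ha k (Finset.mem_of_mem_erase hk)
  have := Submodule.smul_mem (Submodule.span A S) (⟨_, hmem⟩ : A) hy
  exact this

variable {F' : Type*} [Field F'] [Algebra F F'] [Algebra O F'] [IsScalarTower O F F']

/-- The image of `O[j]` in an extension `F'` of `F` lies in `O[j']`, `j'` the image of `j`. -/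
theorem h26_algebraMap_mem_adjoin {j a : F} (ha : a ∈ Algebra.adjoin O {j}) :
    algebraMap F F' a ∈ Algebra.adjoin O {algebraMap F F' j} := by
  induction ha using Algebra.adjoin_induction with
  | mem y hy =>
    rw [Set.mem_singleton_iff] at hy
    rw [hy]
    exact Algebra.subset_adjoin (Set.mem_singleton _)
  | algebraMap r =>
    rw [← IsScalarTower.algebraMap_apply]
    exact Subalgebra.algebraMap_mem _ r
  | add y z _ _ hy hz =>
    rw [map_add]
    exact Subalgebra.add_mem _ hy hz
  | mul y z _ _ hy hz =>
    rw [map_mul]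
    exact Subalgebra.mul_mem _ hy hz

/-- (adapter 1) **`H26FinOver` passes to a finite extension.** -/
theorem h26_finOver_map [FiniteDimensional F F'] {j : F} (hfin : H26FinOver O j) :
    H26FinOver O (algebraMap F F' j) := by
  classical
  obtain ⟨ws, hws⟩ := hfin
  let b := Module.finBasis F F'
  refine ⟨(ws ×ˢ (Finset.univ : Finset (Fin (Module.finrank F F')))).image
    (fun p => algebraMap F F' p.1 * b p.2), fun x => ?_⟩
  -- (ii) the span of `ws` times a basis vector lies in the new span
  have hii : ∀ (k : Fin (Module.finrank F F')) (y : F),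
      y ∈ Submodule.span (Algebra.adjoin O {j}) (ws : Set F) →
      algebraMap F F' y * b k ∈ Submodule.span (Algebra.adjoin O {algebraMap F F' j})
        (((ws ×ˢ (Finset.univ : Finset (Fin (Module.finrank F F')))).image
          (fun p => algebraMap F F' p.1 * b p.2) : Finset F') : Set F') := by
    intro k y hy
    induction hy using Submodule.span_induction with
    | mem w hw =>
      refine Submodule.subset_span ?_
      rw [Finset.mem_coe, Finset.mem_image]
      exact ⟨(w, k), Finset.mem_product.mpr ⟨hw, Finset.mem_univ k⟩, rfl⟩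
    | zero => rw [map_zero, zero_mul]; exact Submodule.zero_mem _
    | add y z _ _ hy hz =>
      rw [map_add, add_mul]
      exact Submodule.add_mem _ hy hz
    | smul a y _ hy =>
      have ha : algebraMap F F' (a : F) ∈ Algebra.adjoin O {algebraMap F F' j} :=
        h26_algebraMap_mem_adjoin O a.2
      have := Submodule.smul_mem _ (⟨_, ha⟩ : Algebra.adjoin O {algebraMap F F' j}) hy
      have heq : algebraMap F F' (a • y) * b k =
          (⟨_, ha⟩ : Algebra.adjoin O {algebraMap F F' j}) • (algebraMap F F' y * b k) := by
        change algebraMap F F' ((a : F) * y) * b k =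
          algebraMap F F' (a : F) * (algebraMap F F' y * b k)
        rw [map_mul, mul_assoc]
      rw [heq]
      exact this
  have hex : ∀ k : Fin (Module.finrank F F'), ∃ a ∈ Algebra.adjoin O {j}, a ≠ 0 ∧
      a * b.repr x k ∈ Submodule.span (Algebra.adjoin O {j}) (ws : Set F) := fun k =>
    hws (b.repr x k)
  choose a ha ha0 hak using hex
  refine ⟨algebraMap F F' (∏ k, a k), h26_algebraMap_mem_adjoin O
    (Subalgebra.prod_mem _ fun k _ => ha k), ?_, ?_⟩
  · rw [Ne, map_eq_zero, Finset.prod_eq_zero_iff]
    rintro ⟨k, -, hk⟩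
    exact ha0 k hk
  · have hx : x = ∑ k, algebraMap F F' (b.repr x k) * b k := by
      conv_lhs => rw [← b.sum_repr x]
      refine Finset.sum_congr rfl fun k _ => ?_
      rw [Algebra.smul_def]
    rw [hx, Finset.mul_sum]
    refine Submodule.sum_mem _ fun k _ => ?_
    rw [← mul_assoc, ← map_mul]
    refine hii k _ ?_
    exact h26_prod_mul_mem_span O (Algebra.adjoin O {j}) _ Finset.univ a (fun i _ => ha i) k
      (Finset.mem_univ k) _ (hak k)

end Map

section OfFiniteDimensional

variable (O : Type*) {F : Type*} [CommRing O] [IsDomain O] [Field F] [Algebra O F]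
  (K : Type*) [Field K] [Algebra O K] [IsFractionRing O K] [Algebra K F] [IsScalarTower O K F]

/-- Every element of `K(j)` is a quotient of elements of `O[j]`, `K = Frac O`. -/
theorem h26_exists_mul_mem_adjoin (j : F) {c : F} (hc : c ∈ IntermediateField.adjoin K {j}) :
    ∃ a ∈ Algebra.adjoin O {j}, a ≠ 0 ∧ a * c ∈ Algebra.adjoin O {j} := by
  obtain ⟨r, s, rfl⟩ := (IntermediateField.mem_adjoin_simple_iff K c).mp hc
  by_cases hs : aeval j s = 0
  · refine ⟨1, Subalgebra.one_mem _, one_ne_zero, ?_⟩
    rw [hs, div_zero, mul_zero]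
    exact Subalgebra.zero_mem _
  obtain ⟨br, hbr, hr⟩ := IsLocalization.integerNormalization_spec (nonZeroDivisors O) r
  obtain ⟨bs, hbs, hs'⟩ := IsLocalization.integerNormalization_spec (nonZeroDivisors O) s
  have hinj : Function.Injective (algebraMap O F) := by
    rw [IsScalarTower.algebraMap_eq O K F]
    exact (algebraMap K F).injective.comp (IsFractionRing.injective O K)
  have hbr0 : algebraMap O F br ≠ 0 :=
    (map_ne_zero_iff _ hinj).mpr (nonZeroDivisors.ne_zero hbr)
  have hbs0 : algebraMap O F bs ≠ 0 :=
    (map_ne_zero_iff _ hinj).mpr (nonZeroDivisors.ne_zero hbs)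
  -- `br • aeval j r` and `bs • aeval j s` lie in `O[j]`
  have hR : algebraMap O F br * aeval j r ∈ Algebra.adjoin O {j} := by
    have h1 : aeval j ((IsLocalization.integerNormalization (nonZeroDivisors O) r).map
        (algebraMap O K)) = algebraMap O F br * aeval j r := by
      rw [hr]
      simp only [Algebra.smul_def, map_mul]
      rw [show (algebraMap O K[X]) br = C (algebraMap O K br) from rfl, aeval_C,
        ← IsScalarTower.algebraMap_apply]
    rw [← h1, aeval_map_algebraMap, Algebra.adjoin_singleton_eq_range_aeval]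
    exact ⟨_, rfl⟩
  have hS : algebraMap O F bs * aeval j s ∈ Algebra.adjoin O {j} := by
    have h1 : aeval j ((IsLocalization.integerNormalization (nonZeroDivisors O) s).map
        (algebraMap O K)) = algebraMap O F bs * aeval j s := by
      rw [hs']
      simp only [Algebra.smul_def, map_mul]
      rw [show (algebraMap O K[X]) bs = C (algebraMap O K bs) from rfl, aeval_C,
        ← IsScalarTower.algebraMap_apply]
    rw [← h1, aeval_map_algebraMap, Algebra.adjoin_singleton_eq_range_aeval]
    exact ⟨_, rfl⟩
  refine ⟨algebraMap O F br * (algebraMap O F bs * aeval j s),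
    Subalgebra.mul_mem _ (Subalgebra.algebraMap_mem _ br) hS,
    mul_ne_zero hbr0 (mul_ne_zero hbs0 hs), ?_⟩
  have heq : algebraMap O F br * (algebraMap O F bs * aeval j s) * (aeval j r / aeval j s) =
      algebraMap O F bs * (algebraMap O F br * aeval j r) := by
    field_simp
  rw [heq]
  exact Subalgebra.mul_mem _ (Subalgebra.algebraMap_mem _ bs) hR

/-- (adapter 3) **`H26FinOver` from finite-dimensionality over `K(j)`**, `K = Frac O`. -/
theorem h26_finOver_of_finiteDimensional (j : F)
    [FiniteDimensional (IntermediateField.adjoin K {j}) F] : H26FinOver O j := by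
  classical
  obtain ⟨ws, hws⟩ := (Module.finite_def (R := IntermediateField.adjoin K {j}) (M := F)).mp
    inferInstance
  refine ⟨ws, fun x => ?_⟩
  have hx : x ∈ Submodule.span (IntermediateField.adjoin K {j}) (ws : Set F) := by
    rw [hws]
    exact Submodule.mem_top
  obtain ⟨c, -, hsum⟩ := Submodule.mem_span_finset.mp hx
  have hex : ∀ w : F, ∃ a ∈ Algebra.adjoin O {j}, a ≠ 0 ∧
      a * (c w : F) ∈ Algebra.adjoin O {j} := fun w =>
    h26_exists_mul_mem_adjoin O K j (c w).2
  choose a ha ha0 hac using hex
  refine ⟨∏ w ∈ ws, a w, Subalgebra.prod_mem _ fun w _ => ha w, ?_, ?_⟩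
  · rw [Finset.prod_ne_zero_iff]
    exact fun w _ => ha0 w
  · rw [← hsum, Finset.mul_sum]
    refine Submodule.sum_mem _ fun w hw => ?_
    have h1 : (∏ w ∈ ws, a w) * (c w • w) = ((∏ w ∈ ws, a w) * (c w : F)) * w := by
      rw [mul_assoc]
      rfl
    rw [h1]
    have h2 : (∏ w ∈ ws, a w) * (c w : F) ∈ Algebra.adjoin O {j} := by
      rw [← Finset.mul_prod_erase ws a hw, mul_comm (a w), mul_assoc]
      exact Subalgebra.mul_mem _
        (Subalgebra.prod_mem _ fun k _ => ha k) (hac w)
    have := Submodule.smul_mem (Submodule.span (Algebra.adjoin O {j}) (ws : Set F))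
      (⟨_, h2⟩ : Algebra.adjoin O {j}) (Submodule.subset_span (Finset.mem_coe.mpr hw))
    exact this

end OfFiniteDimensional

end Fermat.Agent.S18x.Spec.H26
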