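import Mathlib

/-!
# S18 / package SPEC (helper26): the Kummer extension `F' = F[T]/(T^m - f)`

For a prime `m` and `f : F` which is not an `m`-th power, `T^m - f` is irreducible
(Mathlib `X_pow_sub_C_irreducible_of_prime`), so `F' := AdjoinRoot (X ^ m - C f)` is a field,
finite over `F`, `u := AdjoinRoot.root _` satisfies `u ^ m = f`, and `1, u, …, u^(m-1)` are
linearly independent over `F`.
-/

set_option autoImplicit false

open Polynomial

namespace Fermat.Agent.S18x.Spec.H26

section KummerExt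

variable {F : Type*} [Field F]

theorem h26_kummer_irreducible {m : ℕ} (hm : m.Prime) {f : F} (hf : ∀ g : F, g ^ m ≠ f) :
    Irreducible (X ^ m - C f : F[X]) :=
  X_pow_sub_C_irreducible_of_prime hm hf

theorem h26_kummer_monic {m : ℕ} (hm : m ≠ 0) (f : F) : (X ^ m - C f : F[X]).Monic :=
  monic_X_pow_sub_C f hm

theorem h26_kummer_natDegree {m : ℕ} (_hm : m ≠ 0) (f : F) :
    (X ^ m - C f : F[X]).natDegree = m :=
  natDegree_X_pow_sub_C

theorem h26_kummer_ne_zero {m : ℕ} (hm : m ≠ 0) (f : F) : (X ^ m - C f : F[X]) ≠ 0 :=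
  (h26_kummer_monic hm f).ne_zero

/-- `u ^ m = f` in `F[T]/(T^m - f)`. -/
theorem h26_kummer_root_pow (m : ℕ) (f : F) :
    (AdjoinRoot.root (X ^ m - C f : F[X])) ^ m =
      algebraMap F (AdjoinRoot (X ^ m - C f : F[X])) f := by
  have h := AdjoinRoot.eval₂_root (X ^ m - C f : F[X])
  rw [eval₂_sub, eval₂_pow, eval₂_X, eval₂_C, sub_eq_zero] at h
  exact h

/-- `F[T]/(T^m - f)` is finite over `F`. -/
theorem h26_kummer_finite {m : ℕ} (hm : m ≠ 0) (f : F) :
    Module.Finite F (AdjoinRoot (X ^ m - C f : F[X])) :=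
  (AdjoinRoot.powerBasis (h26_kummer_ne_zero hm f)).finite

/-- `[F[T]/(T^m - f) : F] = m`. -/
theorem h26_kummer_finrank {m : ℕ} (hm : m ≠ 0) (f : F) :
    Module.finrank F (AdjoinRoot (X ^ m - C f : F[X])) = m := by
  rw [(AdjoinRoot.powerBasis (h26_kummer_ne_zero hm f)).finrank, AdjoinRoot.powerBasis_dim,
    h26_kummer_natDegree hm f]

/-- `1, u, …, u^(m-1)` are linearly independent over `F` in `F[T]/(T^m - f)`, in element
form. -/
theorem h26_kummer_indep {m : ℕ} (hm : m ≠ 0) (f : F) (c : Fin m → F)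
    (h : ∑ k : Fin m, algebraMap F (AdjoinRoot (X ^ m - C f : F[X])) (c k) *
      (AdjoinRoot.root (X ^ m - C f : F[X])) ^ (k : ℕ) = 0) : ∀ k, c k = 0 := by
  -- the polynomial `Σ c_k X^k` of degree `< m` is divisible by `X^m - f`
  have hmk : AdjoinRoot.mk (X ^ m - C f : F[X]) (∑ k : Fin m, C (c k) * X ^ (k : ℕ)) = 0 := by
    rw [map_sum, ← h]
    refine Finset.sum_congr rfl fun k _ => ?_
    rw [map_mul, map_pow, AdjoinRoot.mk_C, AdjoinRoot.mk_X]
    rfl
  rw [AdjoinRoot.mk_eq_zero] at hmk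
  have hdeg : (∑ k : Fin m, C (c k) * X ^ (k : ℕ) : F[X]).degree < m := degree_sum_fin_lt c
  have hzero : (∑ k : Fin m, C (c k) * X ^ (k : ℕ) : F[X]) = 0 := by
    by_contra hne
    have h1 := degree_le_of_dvd hmk hne
    rw [degree_X_pow_sub_C (Nat.pos_of_ne_zero hm) f] at h1
    exact absurd (lt_of_le_of_lt h1 hdeg) (lt_irrefl _)
  intro k
  have hcoeff := congrArg (fun p : F[X] => p.coeff (k : ℕ)) hzero
  simp only [finsetSum_coeff, coeff_C_mul, coeff_X_pow, coeff_zero] at hcoeff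
  rw [Finset.sum_eq_single k] at hcoeff
  · simpa using hcoeff
  · intro b _ hb
    have : (k : ℕ) ≠ (b : ℕ) := fun h => hb (Fin.ext h.symm)
    simp [this]
  · intro hk
    exact absurd (Finset.mem_univ k) hk

/-- `1, u, …, u^(m-1)` are linearly independent over `F` in `F[T]/(T^m - f)`. -/
theorem h26_kummer_linearIndependent {m : ℕ} (hm : m ≠ 0) (f : F) :
    LinearIndependent F
      (fun k : Fin m => (AdjoinRoot.root (X ^ m - C f : F[X])) ^ (k : ℕ)) := by
  rw [Fintype.linearIndependent_iff]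
  intro c h
  refine h26_kummer_indep hm f c ?_
  rw [← h]
  refine Finset.sum_congr rfl fun k _ => ?_
  rw [Algebra.smul_def]

end KummerExt

end Fermat.Agent.S18x.Spec.H26
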