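import Mathlib
import Fermat.Agent.S18x.Spec.H17_GlueConn
import Fermat.Agent.S18x.Spec.H26_Fin
import Fermat.Agent.S18x.Spec.H26_KummerExt

/-!
# S18 / package SPEC (helper26): the final [SPEC] theorem

`O` an integrally closed noetherian domain, `π₀ : O` prime, `F` a field (finite over the fraction
field of `O[j]`, `j` transcendental over `O`), `V ⊆ F` an integrally closed subring (the valuation
ring of the vertical prime) containing `O`, `j`, `1/j` in which `π₀` is not a unit, and
`C₁, C₂, C₁₂ ⊆ F` the charts (integral closures of `O[j]`, `O[1/j]`, `O[j, 1/j]`).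

* `h26_spec_core` : helper17's gluing theorem `h17_spec_of_conn` with the connectedness
  hypothesis discharged by `h26_charts_connected` + (c3), (c4), (c5): for any finite extension
  `L` of `F` of characteristic zero with `hconst` and `u : L`, `u ^ m = f`, `f ≡ 1 mod π V`:
  the local inputs (LOC₁), (LOC₂) and the saturations (SAT) are contradictory with the linear
  independence of `1, u, …, u^(m-1)`;
* `h26_spec` : for a prime `m`: `f` is an `m`-th power in `F`, provided `hconst` holds for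
  `AdjoinRoot (X ^ m - C f)`.
-/

set_option autoImplicit false
set_option linter.style.haveILetI false

open Polynomial

namespace Fermat.Agent.S18x.Spec.H26

section Translate

variable {F L : Type*} [Field F] [Field L] [Algebra F L]

/-- Integrality of an element of `L` over a subring `B` of `F`: a monic polynomial over `L` with
coefficients in the image of `B`. -/
theorem h26_isIntegral_subring_iff (B : Subring F) (y : L) :
    IsIntegral B y ↔ ∃ p : L[X], p.Monic ∧ (∀ i, ∃ b ∈ B, algebraMap F L b = p.coeff i) ∧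
      p.eval y = 0 := by
  constructor
  · rintro ⟨P, hP, hz⟩
    refine ⟨P.map (algebraMap B L), hP.map _, fun i => ?_, ?_⟩
    · rw [coeff_map]
      exact ⟨(P.coeff i : F), (P.coeff i).2, rfl⟩
    · rw [eval_map]
      exact hz
  · rintro ⟨p, hp, hcoeff, hz⟩
    have hl : p ∈ lifts (algebraMap B L) := by
      rw [lifts_iff_coeff_lifts]
      intro n
      obtain ⟨b, hb, h⟩ := hcoeff n
      exact ⟨⟨b, hb⟩, h⟩
    obtain ⟨q, hq, -, hqm⟩ := lifts_and_natDegree_eq_and_monic hl hp
    refine ⟨q, hqm, ?_⟩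
    rw [← eval_map, hq]
    exact hz

variable (O : Type*) [CommRing O] [Algebra O F] [Algebra O L] [IsScalarTower O F L]

theorem h26_adjoin_image (S : Set F) :
    Algebra.adjoin O (algebraMap F L '' S) =
      (Algebra.adjoin O S).map (IsScalarTower.toAlgHom O F L) := by
  rw [AlgHom.map_adjoin]
  rfl

theorem h26_algebraMap_mem_adjoin_image (S : Set F) {b : F} (hb : b ∈ Algebra.adjoin O S) :
    algebraMap F L b ∈ Algebra.adjoin O (algebraMap F L '' S) := by
  rw [h26_adjoin_image]
  exact ⟨b, hb, rfl⟩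

theorem h26_exists_of_mem_adjoin_image (S : Set F) {c : L}
    (hc : c ∈ Algebra.adjoin O (algebraMap F L '' S)) :
    ∃ b ∈ Algebra.adjoin O S, algebraMap F L b = c := by
  rw [h26_adjoin_image] at hc
  obtain ⟨b, hb, h⟩ := hc
  exact ⟨b, hb, h⟩

/-- The image in `L` of an element of `F` integral over `O[S]` is integral over `O[S_L]`. -/
theorem h26_isIntegral_algebraMap (S : Set F) {b : F}
    (hb : IsIntegral (Algebra.adjoin O S) b) :
    IsIntegral (Algebra.adjoin O (algebraMap F L '' S)) (algebraMap F L b) := by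
  rw [h26_isIntegral_iff] at hb ⊢
  obtain ⟨q, hq, hcoeff, hz⟩ := hb
  refine ⟨q.map (algebraMap F L), hq.map _, fun i => ?_, ?_⟩
  · rw [coeff_map]
    exact h26_algebraMap_mem_adjoin_image O S (hcoeff i)
  · rw [eval_map, eval₂_at_apply, hz, map_zero]

/-- An element of `L` which is a root of a monic polynomial with coefficients integral over a
subalgebra `A` is integral over `A`. -/
theorem h26_isIntegral_of_coeff (A : Subalgebra O L) (y : L) (p : L[X]) (hp : p.Monic)
    (hcoeff : ∀ i, IsIntegral A (p.coeff i)) (hz : p.eval y = 0) : IsIntegral A y := by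
  have hl : p ∈ lifts (algebraMap (integralClosure A L) L) := by
    rw [lifts_iff_coeff_lifts]
    intro n
    exact ⟨⟨p.coeff n, hcoeff n⟩, rfl⟩
  obtain ⟨q, hq, -, hqm⟩ := lifts_and_natDegree_eq_and_monic hl hp
  have hint : IsIntegral (integralClosure A L) y := by
    refine ⟨q, hqm, ?_⟩
    rw [← eval_map, hq]
    exact hz
  exact isIntegral_trans (R := A) (A := integralClosure A L) y hint

/-- **Transitivity for the charts**: for the integral closure `B` of `O[S]` in `F`, integrality
of an element of `L` over `B` is integrality over `O[S_L]`. -/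
theorem h26_isIntegral_closure_iff (S : Set F) (B : Subring F)
    (hB : ∀ x : F, x ∈ B ↔ IsIntegral (Algebra.adjoin O S) x) (y : L) :
    IsIntegral B y ↔ IsIntegral (Algebra.adjoin O (algebraMap F L '' S)) y := by
  constructor
  · intro h
    obtain ⟨p, hp, hcoeff, hz⟩ := (h26_isIntegral_subring_iff B y).mp h
    refine h26_isIntegral_of_coeff O _ y p hp (fun i => ?_) hz
    obtain ⟨b, hb, hbi⟩ := hcoeff i
    rw [← hbi]
    exact h26_isIntegral_algebraMap O S ((hB b).mp hb)
  · intro h
    obtain ⟨p, hp, hcoeff, hz⟩ := (h26_isIntegral_iff _ y).mp h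
    refine (h26_isIntegral_subring_iff B y).mpr ⟨p, hp, fun i => ?_, hz⟩
    obtain ⟨b, hb, hbi⟩ := h26_exists_of_mem_adjoin_image O S (hcoeff i)
    exact ⟨b, (hB b).mpr (h26_isIntegral_of_mem hb), hbi⟩

end Translate

section Core

variable {O F L : Type*} [CommRing O] [Field F] [Field L] [Algebra O F] [Algebra F L]
  [Algebra O L] [IsScalarTower O F L]

/-- Membership in the chart of `L` is integrality over the chart of `F`. -/
theorem h26_tr_chart (j : F) (y : L) :
    IsIntegral (chart O j).toSubring y ↔ y ∈ chart O (algebraMap F L j) := by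
  have h := h26_isIntegral_closure_iff (L := L) O {j} (chart O j).toSubring
    (fun _ => Iff.rfl) y
  rw [Set.image_singleton] at h
  exact h

/-- Membership in the middle chart of `L` is integrality over the middle chart of `F`. -/
theorem h26_tr_chart₁₂ (j j' : F) (y : L) :
    IsIntegral (chart₁₂ O j j').toSubring y ↔
      y ∈ chart₁₂ O (algebraMap F L j) (algebraMap F L j') := by
  have h := h26_isIntegral_closure_iff (L := L) O {j, j'} (chart₁₂ O j j').toSubring
    (fun _ => Iff.rfl) y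
  rw [Set.image_pair] at h
  exact h

omit [Field L] [Algebra F L] [Algebra O L] [IsScalarTower O F L] in
/-- The integral closure of `O[S]` in `F` lies in every integrally closed subring containing
`O` and `S`. -/
theorem h26_closure_le (S : Set F) (V : Subring F) (hVic : ∀ y : F, IsIntegral V y → y ∈ V)
    (hOV : ∀ c : O, algebraMap O F c ∈ V) (hSV : ∀ s ∈ S, s ∈ V) {x : F}
    (hx : IsIntegral (Algebra.adjoin O S) x) : x ∈ V := by
  have hadj : ∀ a ∈ Algebra.adjoin O S, a ∈ V := by
    intro a ha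
    induction ha using Algebra.adjoin_induction with
    | mem y hy => exact hSV y hy
    | algebraMap r => exact hOV r
    | add y z _ _ hy hz => exact V.add_mem hy hz
    | mul y z _ _ hy hz => exact V.mul_mem hy hz
  obtain ⟨p, hp, hcoeff, hz⟩ := (h26_isIntegral_iff _ x).mp hx
  refine hVic x ((h26_isIntegral_subring_iff (L := F) V x).mpr ⟨p, hp, fun i => ?_, hz⟩)
  exact ⟨p.coeff i, hadj _ (hcoeff i), rfl⟩

omit [Field L] [Algebra F L] [Algebra O L] [IsScalarTower O F L] in
/-- The integral closure of `O[S]` in `F` is integrally closed in `F`. -/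
theorem h26_closure_ic (S : Set F) (B : Subring F)
    (hB : ∀ x : F, x ∈ B ↔ IsIntegral (Algebra.adjoin O S) x) (y : F) (hy : IsIntegral B y) :
    y ∈ B := by
  have h := (h26_isIntegral_closure_iff (L := F) O S B hB y).mp hy
  rw [hB]
  have himg : (algebraMap F F '' S) = S := by
    ext x
    simp
  rw [himg] at h
  exact h

variable [IsDomain O] [IsIntegrallyClosed O] [IsNoetherianRing O] [CharZero L]

/-- **[SPEC] core**: helper17's gluing theorem with the connectedness of the special fibre of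
the two-chart model of `L` discharged. -/
theorem h26_spec_core (π₀ : O) (hπ₀ : Prime π₀) (j j' : F) (hjj' : j * j' = 1)
    (hj : Transcendental O j) (hfinF : H26FinOver O j) [FiniteDimensional F L]
    (V : Subring F) (hVic : ∀ y : F, IsIntegral V y → y ∈ V)
    (hOV : ∀ c : O, algebraMap O F c ∈ V) (hjV : j ∈ V) (hj'V : j' ∈ V)
    (hπV : ∀ v ∈ V, algebraMap O F π₀ * v ≠ 1)
    (hsat₁ : ∀ v ∈ V, algebraMap O F π₀ * v ∈ chart O j → v ∈ chart O j)
    (hsat₂ : ∀ v ∈ V, algebraMap O F π₀ * v ∈ chart O j' → v ∈ chart O j')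
    (hsat₁₂ : ∀ v ∈ V, algebraMap O F π₀ * v ∈ chart₁₂ O j j' → v ∈ chart₁₂ O j j')
    (m : ℕ) (hm : 2 ≤ m) (μ₀ : O) (hμ : μ₀ * (m : O) = 1)
    (f v : F) (hvV : v ∈ V) (hf : f - 1 = algebraMap O F π₀ * v)
    (u : L) (hu : u ^ m = algebraMap F L f)
    (hind : LinearIndependent F (fun k : Fin m => u ^ (k : ℕ)))
    (hLOC₁ : ∀ 𝔫 : Ideal (chart O j).toSubring, 𝔫.IsMaximal →
      (⟨algebraMap O F π₀, (chart O j).algebraMap_mem π₀⟩ : (chart O j).toSubring) ∈ 𝔫 →
      ∃ (h : F) (s : (chart O j).toSubring), s ∉ 𝔫 ∧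
        (∃ c ∈ V, h - 1 = algebraMap O F π₀ * c) ∧
        (s : F) * f * h ^ m ∈ (chart O j).toSubring)
    (hLOC₂ : ∀ 𝔫 : Ideal (chart O j').toSubring, 𝔫.IsMaximal →
      (⟨algebraMap O F π₀, (chart O j').algebraMap_mem π₀⟩ : (chart O j').toSubring) ∈ 𝔫 →
      ∃ (h : F) (s : (chart O j').toSubring), s ∉ 𝔫 ∧
        (∃ c ∈ V, h - 1 = algebraMap O F π₀ * c) ∧
        (s : F) * f * h ^ m ∈ (chart O j').toSubring)
    (hconst : ∀ x : L, IsIntegral O x → ∃ c : O, algebraMap O L c = x) : False := by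
  have hinj : Function.Injective (algebraMap O F) := by
    intro a b h
    have h2 := (transcendental_iff_injective.mp hj) (a₁ := C a) (a₂ := C b)
      (by rw [aeval_C, aeval_C, h])
    exact C_injective h2
  have hjL : Transcendental O (algebraMap F L j) :=
    (transcendental_algebraMap_iff (algebraMap F L).injective).mpr hj
  have hjjL : algebraMap F L j * algebraMap F L j' = 1 := by
    rw [← map_mul, hjj', map_one]
  have hπL : algebraMap F L (algebraMap O F π₀) = algebraMap O L π₀ :=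
    (IsScalarTower.algebraMap_apply O F L π₀).symm
  -- the three inputs of the connectedness lemma, in `L`
  have hfinL := h26_hfin_of_finOver O hjL (h26_finOver_map O (F' := L) hfinF)
  have hcapL := h26_hcap O hjjL hconst
  have hlocL := h26_hloc O hjL π₀ hπ₀
  refine H17.h17_spec_of_conn (F := F) (L := L) (algebraMap O F).range V (chart O j).toSubring
    (chart O j').toSubring (chart₁₂ O j j').toSubring ?_ ?_ ?_ ?_ ?_ hVic ?_ ?_ ?_
    (algebraMap O F π₀) ?_ ⟨π₀, rfl⟩ hπV hsat₁ hsat₂ hsat₁₂ m hm (algebraMap O F μ₀) ⟨μ₀, rfl⟩ ?_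
    f v hvV hf u hu hind hLOC₁ hLOC₂ ?_
  · rintro _ ⟨c, rfl⟩
    exact (chart O j).algebraMap_mem c
  · rintro _ ⟨c, rfl⟩
    exact (chart O j').algebraMap_mem c
  · exact chart_le_chart₁₂_left O j j'
  · exact chart_le_chart₁₂_right O j j'
  · intro x hx
    refine h26_closure_le (O := O) {j, j'} V hVic hOV ?_ hx
    rintro s (rfl | rfl)
    · exact hjV
    · exact hj'V
  · exact h26_closure_ic (O := O) {j} _ (fun _ => Iff.rfl)
  · exact h26_closure_ic (O := O) {j'} _ (fun _ => Iff.rfl)
  · exact h26_closure_ic (O := O) {j, j'} _ (fun _ => Iff.rfl)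
  · exact (map_ne_zero_iff _ hinj).mpr hπ₀.ne_zero
  · rw [← map_natCast (algebraMap O F), ← map_mul, hμ, map_one]
  · -- the connectedness
    intro e₁ e₂ he₁ he₂ hi₁ hi₂ h₁₂
    have he₁' := (h26_tr_chart (O := O) j e₁).mp he₁
    have he₂' := (h26_tr_chart (O := O) j' e₂).mp he₂
    have hi₁' : ∃ b ∈ chart O (algebraMap F L j), e₁ * e₁ - e₁ = algebraMap O L π₀ * b := by
      obtain ⟨y, hy, h⟩ := hi₁
      exact ⟨y, (h26_tr_chart (O := O) j y).mp hy, by rw [h, hπL]⟩
    have hi₂' : ∃ b ∈ chart O (algebraMap F L j'), e₂ * e₂ - e₂ = algebraMap O L π₀ * b := by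
      obtain ⟨y, hy, h⟩ := hi₂
      exact ⟨y, (h26_tr_chart (O := O) j' y).mp hy, by rw [h, hπL]⟩
    have h₁₂' : ∃ b ∈ chart₁₂ O (algebraMap F L j) (algebraMap F L j'),
        e₁ - e₂ = algebraMap O L π₀ * b := by
      obtain ⟨y, hy, h⟩ := h₁₂
      exact ⟨y, (h26_tr_chart₁₂ (O := O) j j' y).mp hy, by rw [h, hπL]⟩
    rcases h26_charts_connected O π₀ hjjL hfinL hcapL hlocL e₁ e₂ he₁' he₂' hi₁' hi₂' h₁₂' with
      ⟨⟨b₁, hb₁, h1⟩, ⟨b₂, hb₂, h2⟩⟩ | ⟨⟨b₁, hb₁, h1⟩, ⟨b₂, hb₂, h2⟩⟩
    · exact Or.inl ⟨⟨b₁, (h26_tr_chart (O := O) j b₁).mpr hb₁, by rw [h1, hπL]⟩,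
        ⟨b₂, (h26_tr_chart (O := O) j' b₂).mpr hb₂, by rw [h2, hπL]⟩⟩
    · exact Or.inr ⟨⟨b₁, (h26_tr_chart (O := O) j b₁).mpr hb₁, by rw [h1, hπL]⟩,
        ⟨b₂, (h26_tr_chart (O := O) j' b₂).mpr hb₂, by rw [h2, hπL]⟩⟩

end Core

section Final

variable {O F : Type*} [CommRing O] [IsDomain O] [IsIntegrallyClosed O] [IsNoetherianRing O]
  [Field F] [CharZero F] [Algebra O F]

/-- **[SPEC] final theorem (Kummer)**: `O` an integrally closed noetherian domain, `π₀ : O`
prime, `F` a field of characteristic zero, finite over the fraction field of `O[j]` (`j`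
transcendental over `O`), `V ⊆ F` an integrally closed subring containing `O`, `j`, `1/j` in
which `π₀` is not a unit, `m` a prime number invertible in `O`, `f ≡ 1 mod π₀ V`.  If the charts
are saturated in `V` (SAT), `f` is locally an `m`-th power times a function regular at every
closed point of the special fibre of the two charts (LOC₁), (LOC₂), and the constants of
`F[T]/(T^m - f)` are `O` (`hconst`), then `f` is an `m`-th power in `F`. -/
theorem h26_spec (π₀ : O) (hπ₀ : Prime π₀) (j j' : F) (hjj' : j * j' = 1)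
    (hj : Transcendental O j) (hfinF : H26FinOver O j)
    (V : Subring F) (hVic : ∀ y : F, IsIntegral V y → y ∈ V)
    (hOV : ∀ c : O, algebraMap O F c ∈ V) (hjV : j ∈ V) (hj'V : j' ∈ V)
    (hπV : ∀ v ∈ V, algebraMap O F π₀ * v ≠ 1)
    (hsat₁ : ∀ v ∈ V, algebraMap O F π₀ * v ∈ chart O j → v ∈ chart O j)
    (hsat₂ : ∀ v ∈ V, algebraMap O F π₀ * v ∈ chart O j' → v ∈ chart O j')
    (hsat₁₂ : ∀ v ∈ V, algebraMap O F π₀ * v ∈ chart₁₂ O j j' → v ∈ chart₁₂ O j j')
    (m : ℕ) (hm : m.Prime) (μ₀ : O) (hμ : μ₀ * (m : O) = 1)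
    (f v : F) (hvV : v ∈ V) (hf : f - 1 = algebraMap O F π₀ * v)
    (hLOC₁ : ∀ 𝔫 : Ideal (chart O j).toSubring, 𝔫.IsMaximal →
      (⟨algebraMap O F π₀, (chart O j).algebraMap_mem π₀⟩ : (chart O j).toSubring) ∈ 𝔫 →
      ∃ (h : F) (s : (chart O j).toSubring), s ∉ 𝔫 ∧
        (∃ c ∈ V, h - 1 = algebraMap O F π₀ * c) ∧
        (s : F) * f * h ^ m ∈ (chart O j).toSubring)
    (hLOC₂ : ∀ 𝔫 : Ideal (chart O j').toSubring, 𝔫.IsMaximal →
      (⟨algebraMap O F π₀, (chart O j').algebraMap_mem π₀⟩ : (chart O j').toSubring) ∈ 𝔫 →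
      ∃ (h : F) (s : (chart O j').toSubring), s ∉ 𝔫 ∧
        (∃ c ∈ V, h - 1 = algebraMap O F π₀ * c) ∧
        (s : F) * f * h ^ m ∈ (chart O j').toSubring)
    (hconst : ∀ x : AdjoinRoot (X ^ m - C f : F[X]), IsIntegral O x →
      ∃ c : O, algebraMap O (AdjoinRoot (X ^ m - C f : F[X])) c = x) :
    ∃ g : F, g ^ m = f := by
  by_contra hne0
  have hne : ∀ g : F, g ^ m ≠ f := fun g hg => hne0 ⟨g, hg⟩
  haveI : Fact (Irreducible (X ^ m - C f : F[X])) := ⟨h26_kummer_irreducible hm hne⟩
  haveI : CharZero (AdjoinRoot (X ^ m - C f : F[X])) :=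
    charZero_of_injective_algebraMap (algebraMap F (AdjoinRoot (X ^ m - C f : F[X]))).injective
  haveI : FiniteDimensional F (AdjoinRoot (X ^ m - C f : F[X])) :=
    h26_kummer_finite hm.ne_zero f
  exact h26_spec_core (L := AdjoinRoot (X ^ m - C f : F[X])) π₀ hπ₀ j j' hjj' hj hfinF V hVic hOV
    hjV hj'V hπV hsat₁ hsat₂ hsat₁₂ m hm.two_le μ₀ hμ f v hvV hf
    (AdjoinRoot.root (X ^ m - C f : F[X])) (h26_kummer_root_pow m f)
    (h26_kummer_linearIndependent hm.ne_zero f) hLOC₁ hLOC₂ hconst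

end Final

end Fermat.Agent.S18x.Spec.H26
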