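import Mathlib
import Fermat.Agent.S18x.Spec.H26_Spec

/-!
# S18 / package SPEC (helper26): adapters for the consumers of `h26_spec`

* `h26_transcendental_inv`, `h26_finOver_inv` : the hypotheses `hj`, `hfinF` pass from `j` to
  `1/j`;
* `h26_transcendental_of_tower` : `Transcendental K j → Transcendental O j` for `O → K` injective;
* `h26_isAlgebraic_of_finOver` : every element of `F` is algebraic over `O[j]`;
* `h26_chart_hfrac` : `F` is the fraction field of the chart (element form);
* `h26_isNoetherianRing_chart` : the chart is a noetherian ring;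
* `h26_valuationSubring_ic` : a valuation subring is integrally closed (in the spelling `hVic`
  of `h26_spec`);
* `h26_spec_val` : `h26_spec` for a `ValuationSubring`.
-/

set_option autoImplicit false
set_option linter.style.haveILetI false

open Polynomial

namespace Fermat.Agent.S18x.Spec.H26

section Inv

variable (O : Type*) {F : Type*} [CommRing O] [Field F] [Algebra O F]

theorem h26_transcendental_inv {j j' : F} (hjj' : j * j' = 1) (hj : Transcendental O j) :
    Transcendental O j' := by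
  have hj' : j' = j⁻¹ := eq_inv_of_mul_eq_one_right hjj'
  intro h
  rw [hj'] at h
  exact hj (IsAlgebraic.inv_iff.mp h)

/-- Uniform scaling of finitely many elements of `O[j]` into `O[1/j]`. -/
theorem h26_exists_pow_mul_mem_finset {j j' : F} (hjj' : j * j' = 1) {ι : Type*}
    (s : Finset ι) (c : ι → F) (hc : ∀ i ∈ s, c i ∈ Algebra.adjoin O {j}) :
    ∃ n : ℕ, ∀ i ∈ s, j' ^ n * c i ∈ Algebra.adjoin O {j'} := by
  classical
  have hs : j' ∈ Algebra.adjoin O {j'} := Algebra.subset_adjoin (Set.mem_singleton j')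
  have hone : ∀ a ∈ Algebra.adjoin O {j}, ∃ k : ℕ, j' ^ k * a ∈ Algebra.adjoin O {j'} :=
    h26_exists_pow_mul_mem (Algebra.adjoin O {j'}) j' hs {j} (by
      intro g hg
      rw [Set.mem_singleton_iff] at hg
      refine ⟨1, ?_⟩
      rw [hg, pow_one, mul_comm, hjj']
      exact Subalgebra.one_mem _)
  induction s using Finset.induction_on with
  | empty => exact ⟨0, fun i hi => absurd hi (Finset.notMem_empty i)⟩
  | insert a s ha ih =>
    obtain ⟨n, hn⟩ := ih fun i hi => hc i (Finset.mem_insert_of_mem hi)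
    obtain ⟨k, hk⟩ := hone (c a) (hc a (Finset.mem_insert_self a s))
    refine ⟨n + k, fun i hi => ?_⟩
    rcases Finset.mem_insert.mp hi with rfl | hi
    · rw [pow_add, mul_assoc]
      exact Subalgebra.mul_mem _ (Subalgebra.pow_mem _ hs _) hk
    · rw [pow_add, mul_comm (j' ^ n), mul_assoc]
      exact Subalgebra.mul_mem _ (Subalgebra.pow_mem _ hs _) (hn i hi)

/-- (adapter) **`H26FinOver` passes from `j` to `1/j`.** -/
theorem h26_finOver_inv {j j' : F} (hjj' : j * j' = 1) (h : H26FinOver O j) :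
    H26FinOver O j' := by
  classical
  obtain ⟨ws, hws⟩ := h
  refine ⟨ws, fun x => ?_⟩
  obtain ⟨a, ha, ha0, hax⟩ := hws x
  obtain ⟨c, -, hsum⟩ := Submodule.mem_span_finset.mp hax
  have hs : j' ∈ Algebra.adjoin O {j'} := Algebra.subset_adjoin (Set.mem_singleton j')
  have hj'0 : j' ≠ 0 := by
    rintro rfl
    rw [mul_zero] at hjj'
    exact zero_ne_one hjj'
  obtain ⟨n₁, hn₁⟩ := h26_exists_pow_mul_mem_finset O hjj' ({()} : Finset Unit) (fun _ => a)
    (fun _ _ => ha)
  obtain ⟨n₂, hn₂⟩ := h26_exists_pow_mul_mem_finset O hjj' ws (fun w => (c w : F))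
    (fun w _ => (c w).2)
  have h1 : j' ^ (n₁ + n₂) * a ∈ Algebra.adjoin O {j'} := by
    rw [pow_add, mul_comm (j' ^ n₁), mul_assoc]
    exact Subalgebra.mul_mem _ (Subalgebra.pow_mem _ hs _) (hn₁ () (Finset.mem_singleton_self _))
  refine ⟨j' ^ (n₁ + n₂) * a, h1, mul_ne_zero (pow_ne_zero _ hj'0) ha0, ?_⟩
  rw [mul_assoc, ← hsum, Finset.mul_sum]
  refine Submodule.sum_mem _ fun w hw => ?_
  have h2 : j' ^ (n₁ + n₂) * (c w : F) ∈ Algebra.adjoin O {j'} := by
    rw [pow_add, mul_assoc]
    exact Subalgebra.mul_mem _ (Subalgebra.pow_mem _ hs _) (hn₂ w hw)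
  have := Submodule.smul_mem (Submodule.span (Algebra.adjoin O {j'}) (ws : Set F))
    (⟨_, h2⟩ : Algebra.adjoin O {j'}) (Submodule.subset_span (Finset.mem_coe.mpr hw))
  have e : j' ^ (n₁ + n₂) * (c w • w) =
      (⟨_, h2⟩ : Algebra.adjoin O {j'}) • w := by
    change j' ^ (n₁ + n₂) * ((c w : F) * w) = (j' ^ (n₁ + n₂) * (c w : F)) * w
    rw [mul_assoc]
  rw [e]
  exact this

/-- `Transcendental K j → Transcendental O j` when `O → K` is injective. -/
theorem h26_transcendental_of_tower (K : Type*) [Field K] [Algebra O K] [Algebra K F]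
    [IsScalarTower O K F] (hinj : Function.Injective (algebraMap O K)) {j : F}
    (hj : Transcendental K j) : Transcendental O j :=
  hj.restrictScalars hinj

end Inv

section ChartFacts

variable (O : Type*) {F : Type*} [CommRing O] [IsDomain O] [IsIntegrallyClosed O]
  [IsNoetherianRing O] [Field F] [CharZero F] [Algebra O F]

/-- The integral closure of `O[j]` in `F` is a noetherian ring and `F` is algebraic over `O[j]`
(`j` transcendental over `O`, `F` finite over the fraction field of `O[j]`, char. 0). -/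
theorem h26_closure_facts {j : F} (hj : Transcendental O j) (hfin : H26FinOver O j) :
    IsNoetherianRing (integralClosure (Algebra.adjoin O {j}) F) ∧
      ∀ x : F, IsAlgebraic (Algebra.adjoin O {j}) x := by
  classical
  obtain ⟨ws, hws⟩ := hfin
  letI : Algebra (FractionRing (Algebra.adjoin O {j})) F :=
    FractionRing.liftAlgebra (Algebra.adjoin O {j}) F
  haveI : IsScalarTower (Algebra.adjoin O {j}) (FractionRing (Algebra.adjoin O {j})) F :=
    FractionRing.isScalarTower_liftAlgebra (Algebra.adjoin O {j}) F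
  haveI : CharZero (FractionRing (Algebra.adjoin O {j})) :=
    (RingHom.charZero_iff (algebraMap (FractionRing (Algebra.adjoin O {j})) F).injective).mpr
      inferInstance
  haveI : FiniteDimensional (FractionRing (Algebra.adjoin O {j})) F := by
    refine Module.finite_def.mpr ⟨ws, ?_⟩
    rw [eq_top_iff]
    intro x _
    obtain ⟨a, ha, ha0, hax⟩ := hws x
    have hle := Submodule.span_le_restrictScalars (Algebra.adjoin O {j})
      (FractionRing (Algebra.adjoin O {j})) (ws : Set F)
    have h1 : a * x ∈ Submodule.span (FractionRing (Algebra.adjoin O {j})) (ws : Set F) :=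
      hle hax
    have h2 := Submodule.smul_mem _
      ((algebraMap (Algebra.adjoin O {j}) (FractionRing (Algebra.adjoin O {j})) ⟨a, ha⟩)⁻¹) h1
    have h3 : ((algebraMap (Algebra.adjoin O {j}) (FractionRing (Algebra.adjoin O {j}))
        ⟨a, ha⟩)⁻¹) • (a * x) = x := by
      rw [Algebra.smul_def, map_inv₀, ← IsScalarTower.algebraMap_apply]
      change a⁻¹ * (a * x) = x
      rw [← mul_assoc, inv_mul_cancel₀ ha0, one_mul]
    rw [h3] at h2
    exact h2
  haveI := h26_isNoetherianRing_adjoin O hj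
  haveI := h26_isIntegrallyClosed_adjoin O hj
  refine ⟨IsIntegralClosure.isNoetherianRing (Algebra.adjoin O {j})
    (FractionRing (Algebra.adjoin O {j})) F (integralClosure (Algebra.adjoin O {j}) F), ?_⟩
  intro x
  have halg : IsAlgebraic (FractionRing (Algebra.adjoin O {j})) x :=
    Algebra.IsAlgebraic.isAlgebraic x
  exact (IsFractionRing.isAlgebraic_iff (Algebra.adjoin O {j})
    (FractionRing (Algebra.adjoin O {j})) F).mpr halg

/-- Every element of `F` is algebraic over `O[j]`. -/
theorem h26_isAlgebraic_of_finOver {j : F} (hj : Transcendental O j) (hfin : H26FinOver O j)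
    (x : F) : IsAlgebraic (Algebra.adjoin O {j}) x :=
  (h26_closure_facts O hj hfin).2 x

/-- (adapter) **`F` is the fraction field of the chart**, element form. -/
theorem h26_chart_hfrac {j : F} (hj : Transcendental O j) (hfin : H26FinOver O j) (x : F) :
    ∃ a b : (chart O j).toSubring, b ≠ 0 ∧ x * (b : F) = (a : F) := by
  obtain ⟨y, hy0, hy⟩ := (h26_isAlgebraic_of_finOver O hj hfin x).exists_integral_multiple
  have hyF : (y : F) ≠ 0 := fun h => hy0 (Subtype.ext h)
  have hmem : (y : F) * x ∈ chart O j := hy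
  refine ⟨⟨(y : F) * x, hmem⟩, ⟨(y : F), h26_isIntegral_of_mem y.2⟩, ?_, ?_⟩
  · intro h
    exact hyF (congrArg Subtype.val h)
  · exact mul_comm _ _

/-- (adapter) **The chart is a noetherian ring.** -/
theorem h26_isNoetherianRing_chart {j : F} (hj : Transcendental O j) (hfin : H26FinOver O j) :
    IsNoetherianRing (chart O j).toSubring := by
  haveI := (h26_closure_facts O hj hfin).1
  let e : integralClosure (Algebra.adjoin O {j}) F ≃+* (chart O j).toSubring :=
    { toFun := fun x => ⟨x.1, x.2⟩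
      invFun := fun x => ⟨x.1, x.2⟩
      left_inv := fun _ => rfl
      right_inv := fun _ => rfl
      map_mul' := fun _ _ => rfl
      map_add' := fun _ _ => rfl }
  exact isNoetherianRing_of_ringEquiv _ e

end ChartFacts

section Val

variable {F : Type*} [Field F]

/-- A valuation subring is integrally closed, in the spelling `hVic` of `h26_spec`. -/
theorem h26_valuationSubring_ic (V : ValuationSubring F) (y : F)
    (hy : IsIntegral V.toSubring y) : y ∈ V.toSubring := by
  obtain ⟨p, hp, hcoeff, hz⟩ := (h26_isIntegral_subring_iff (L := F) V.toSubring y).mp hy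
  have hl : p ∈ lifts (algebraMap V F) := by
    rw [lifts_iff_coeff_lifts]
    intro n
    obtain ⟨b, hb, h⟩ := hcoeff n
    exact ⟨⟨b, hb⟩, h⟩
  obtain ⟨q, hq, -, hqm⟩ := lifts_and_natDegree_eq_and_monic hl hp
  have hint : IsIntegral V y := by
    refine ⟨q, hqm, ?_⟩
    rw [← eval_map, hq]
    exact hz
  obtain ⟨z, hz'⟩ := (IsIntegrallyClosed.isIntegral_iff (R := V) (K := F)).mp hint
  rw [← hz']
  exact z.2

variable {O : Type*} [CommRing O] [IsDomain O] [IsIntegrallyClosed O] [IsNoetherianRing O]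
  [CharZero F] [Algebra O F]

/-- **[SPEC] final theorem for a valuation subring `V`** (the Gauss valuation ring). -/
theorem h26_spec_val (π₀ : O) (hπ₀ : Prime π₀) (j j' : F) (hjj' : j * j' = 1)
    (hj : Transcendental O j) (hfinF : H26FinOver O j)
    (V : ValuationSubring F)
    (hOV : ∀ c : O, algebraMap O F c ∈ V) (hjV : j ∈ V) (hj'V : j' ∈ V)
    (hπV : ∀ v ∈ V, algebraMap O F π₀ * v ≠ 1)
    (hsat₁ : ∀ v ∈ V, algebraMap O F π₀ * v ∈ chart O j → v ∈ chart O j)
    (hsat₂ : ∀ v ∈ V, algebraMap O F π₀ * v ∈ chart O j' → v ∈ chart O j')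
    (hsat₁₂ : ∀ v ∈ V, algebraMap O F π₀ * v ∈ chart₁₂ O j j' → v ∈ chart₁₂ O j j')
    (m : ℕ) (hm : m.Prime) (μ₀ : O) (hμ : μ₀ * (m : O) = 1)
    (f v : F) (hvV : v ∈ V) (hf : f - 1 = algebraMap O F π₀ * v)
    (hLOC₁ : ∀ 𝔫 : Ideal (chart O j).toSubring, 𝔫.IsMaximal →
      (⟨algebraMap O F π₀, (chart O j).algebraMap_mem π₀⟩ : (chart O j).toSubring) ∈ 𝔫 →
      ∃ (h : F) (s : (chart O j).toSubring), s ∉ 𝔫 ∧
        (∃ c ∈ V, h - 1 = algebraMap O F π₀ * c) ∧
        (s : F) * f * h ^ m ∈ (chart O j).toSubring)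
    (hLOC₂ : ∀ 𝔫 : Ideal (chart O j').toSubring, 𝔫.IsMaximal →
      (⟨algebraMap O F π₀, (chart O j').algebraMap_mem π₀⟩ : (chart O j').toSubring) ∈ 𝔫 →
      ∃ (h : F) (s : (chart O j').toSubring), s ∉ 𝔫 ∧
        (∃ c ∈ V, h - 1 = algebraMap O F π₀ * c) ∧
        (s : F) * f * h ^ m ∈ (chart O j').toSubring)
    (hconst : ∀ x : AdjoinRoot (X ^ m - C f : F[X]), IsIntegral O x →
      ∃ c : O, algebraMap O (AdjoinRoot (X ^ m - C f : F[X])) c = x) :
    ∃ g : F, g ^ m = f :=
  h26_spec π₀ hπ₀ j j' hjj' hj hfinF V.toSubring (h26_valuationSubring_ic V) hOV hjV hj'V hπV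
    hsat₁ hsat₂ hsat₁₂ m hm μ₀ hμ f v hvV hf hLOC₁ hLOC₂ hconst

end Val

end Fermat.Agent.S18x.Spec.H26
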