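import Mathlib
import Fermat.Agent.S18x.Spec.H26_Adapt
import Fermat.Agent.S18x.Dict.H7_LocPlace
import Fermat.Agent.S18x.Dict.H17_Const

/-!
# S18 / package SPEC (helper26): the abstract Kummer theorem `(D5b-ABS)`

The combination of `h26_spec_val` (the final [SPEC] theorem), helper7's `h7_LOC` (the local
input from (SM) and (DIV)) and helper17's `h17_hconst` (the constants of the Kummer extension).
No prelude object except `AlgebraicCurve.Place`.

* `h26_chart_prime` : `π B` is a prime ideal of the chart `B` (saturation + `V` local with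
  maximal ideal `π V`);
* `h26_hK` : `K ⊆ B[1/π]`;
* `h26_hLOC` : the input `hLOC` of `h26_spec` from (SM) and (DIV);
* `h26_kum_abs` : the abstract Kummer theorem.
-/

set_option autoImplicit false
set_option linter.style.haveILetI false

open Polynomial AlgebraicCurve

namespace Fermat.Agent.S18x.Spec.H26

section Prime

variable {F : Type*} [Field F]

/-- `π B` is a prime ideal of `B` when `B ∩ π V = π B` and `V` is local with maximal ideal
`π V`. -/
theorem h26_chart_prime (B V : Subring F) (hBV : B ≤ V) (π : F) (hπB : π ∈ B) (hπ0 : π ≠ 0)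
    (hπV : ∀ v ∈ V, π * v ≠ 1)
    (hVval : ∀ y ∈ V, (∃ v ∈ V, y = π * v) ∨ y⁻¹ ∈ V)
    (hsat : ∀ v ∈ V, π * v ∈ B → v ∈ B) :
    (Ideal.span {(⟨π, hπB⟩ : B)}).IsPrime := by
  have hπ'0 : (⟨π, hπB⟩ : B) ≠ 0 := fun h => hπ0 (congrArg Subtype.val h)
  rw [Ideal.span_singleton_prime hπ'0]
  have hdvd : ∀ b : B, (∃ v ∈ V, (b : F) = π * v) → (⟨π, hπB⟩ : B) ∣ b := by
    rintro b ⟨v, hv, hbv⟩
    have hvB : v ∈ B := hsat v hv (hbv ▸ b.2)
    exact ⟨⟨v, hvB⟩, Subtype.ext hbv⟩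
  refine ⟨hπ'0, ?_, ?_⟩
  · rintro ⟨u, hu⟩
    have h1 : π * ((u⁻¹ : Bˣ) : B) = 1 := by
      have h2 : (u : B) * ((u⁻¹ : Bˣ) : B) = 1 := Units.mul_inv u
      rw [hu] at h2
      exact congrArg Subtype.val h2
    exact hπV _ (hBV ((u⁻¹ : Bˣ) : B).2) h1
  · intro a b hab
    obtain ⟨c, hc⟩ := hab
    have hc' : (a : F) * (b : F) = π * (c : F) := congrArg Subtype.val hc
    by_cases ha0 : (a : F) = 0
    · have : a = 0 := Subtype.ext ha0
      rw [this]
      exact Or.inl (dvd_zero _)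
    rcases hVval (a : F) (hBV a.2) with ha | ha
    · exact Or.inl (hdvd a ha)
    · refine Or.inr (hdvd b ⟨(c : F) * (a : F)⁻¹, V.mul_mem (hBV c.2) ha, ?_⟩)
      field_simp
      linear_combination hc'

end Prime

section Kum

variable {O K F : Type*} [CommRing O] [IsDomain O] [IsDiscreteValuationRing O] [Field K]
  [Field F] [Algebra O K] [IsFractionRing O K] [Algebra K F] [Algebra O F]
  [IsScalarTower O K F]

/-- `K ⊆ B[1/π]` for a subring `B ⊇ O`, `O` a discrete valuation ring with uniformiser `π₀`. -/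
theorem h26_hK (π₀ : O) (hπ₀ : Irreducible π₀) (B : Subring F)
    (hOB : ∀ c : O, algebraMap O F c ∈ B) (c : K) :
    ∃ n : ℕ, algebraMap O F π₀ ^ n * algebraMap K F c ∈ B := by
  obtain ⟨a, b, hb, rfl⟩ := IsFractionRing.div_surjective O c
  have hb0 : b ≠ 0 := nonZeroDivisors.ne_zero hb
  obtain ⟨n, u, hu⟩ := IsDiscreteValuationRing.eq_unit_mul_pow_irreducible hb0 hπ₀
  refine ⟨n, ?_⟩
  have hπK : algebraMap O K π₀ ≠ 0 :=
    (map_ne_zero_iff _ (IsFractionRing.injective O K)).mpr hπ₀.ne_zero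
  have huK : algebraMap O K (u : O) ≠ 0 :=
    (map_ne_zero_iff _ (IsFractionRing.injective O K)).mpr u.ne_zero
  have h1 : algebraMap O K π₀ ^ n * (algebraMap O K a / algebraMap O K b) =
      algebraMap O K (a * ((u⁻¹ : Oˣ) : O)) := by
    have hinv : algebraMap O K (u : O) * algebraMap O K ((u⁻¹ : Oˣ) : O) = 1 := by
      rw [← map_mul, Units.mul_inv, map_one]
    rw [hu, map_mul, map_mul, map_pow]
    field_simp
    linear_combination (-(algebraMap O K a)) * hinv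
  have h2 : algebraMap O F π₀ ^ n * algebraMap K F (algebraMap O K a / algebraMap O K b) =
      algebraMap O F (a * ((u⁻¹ : Oˣ) : O)) := by
    rw [IsScalarTower.algebraMap_apply O K F π₀, IsScalarTower.algebraMap_apply O K F
      (a * ((u⁻¹ : Oˣ) : O)), ← h1, map_mul, map_pow]
  rw [h2]
  exact hOB _

variable [CharZero F]

/-- **The local input `hLOC` of `h26_spec` at the chart `chart O x`** from (SM) and (DIV):
helper7's `h7_LOC` with all chart facts discharged. -/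
theorem h26_hLOC (π₀ : O) (hπ₀ : Irreducible π₀) (x : F) (hx : Transcendental O x)
    (hfinF : H26FinOver O x) (V : ValuationSubring F) (hOV : ∀ c : O, algebraMap O F c ∈ V)
    (hxV : x ∈ V) (hπV : ∀ v ∈ V, algebraMap O F π₀ * v ≠ 1)
    (hVmax : ∀ y ∈ V, y⁻¹ ∉ V → ∃ v ∈ V, y = algebraMap O F π₀ * v)
    (hsat : ∀ v ∈ V, algebraMap O F π₀ * v ∈ chart O x → v ∈ chart O x)
    (m : ℕ) (hm : 0 < m) (f v : F) (hvV : v ∈ V) (hf : f - 1 = algebraMap O F π₀ * v)
    (hdiv : ∀ P : Place K F, (m : ℤ) ∣ P.ord f)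
    (hSM : ∀ 𝔫 : Ideal (chart O x).toSubring, 𝔫.IsMaximal →
      (⟨algebraMap O F π₀, (chart O x).algebraMap_mem π₀⟩ : (chart O x).toSubring) ∈ 𝔫 →
      ∃ t ∈ 𝔫, ∀ y ∈ 𝔫, ∃ s : (chart O x).toSubring, s ∉ 𝔫 ∧ ∃ u w : (chart O x).toSubring,
        s * y = ⟨algebraMap O F π₀, (chart O x).algebraMap_mem π₀⟩ * u + t * w) :
    ∀ 𝔫 : Ideal (chart O x).toSubring, 𝔫.IsMaximal →
      (⟨algebraMap O F π₀, (chart O x).algebraMap_mem π₀⟩ : (chart O x).toSubring) ∈ 𝔫 →
      ∃ (h : F) (s : (chart O x).toSubring), s ∉ 𝔫 ∧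
        (∃ c ∈ V, h - 1 = algebraMap O F π₀ * c) ∧
        (s : F) * f * h ^ m ∈ (chart O x).toSubring := by
  intro 𝔫 h𝔫 hπ𝔫
  obtain ⟨t, ht, hSMt⟩ := hSM 𝔫 h𝔫 hπ𝔫
  have hinj : Function.Injective (algebraMap O F) := by
    rw [IsScalarTower.algebraMap_eq O K F]
    exact (algebraMap K F).injective.comp (IsFractionRing.injective O K)
  have hπ0 : algebraMap O F π₀ ≠ 0 := (map_ne_zero_iff _ hinj).mpr hπ₀.ne_zero
  have hBV : (chart O x).toSubring ≤ V.toSubring := by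
    intro y hy
    refine h26_closure_le (O := O) {x} V.toSubring (h26_valuationSubring_ic V) hOV ?_ hy
    intro s hs
    rw [Set.mem_singleton_iff] at hs
    rw [hs]
    exact hxV
  have hVval : ∀ y ∈ V.toSubring, (∃ v ∈ V.toSubring, y = algebraMap O F π₀ * v) ∨
      y⁻¹ ∈ V.toSubring := by
    intro y hy
    by_cases h : y⁻¹ ∈ V
    · exact Or.inr h
    · exact Or.inl (hVmax y hy h)
  haveI : IsNoetherianRing (chart O x).toSubring := h26_isNoetherianRing_chart O hx hfinF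
  exact Dict.H7.h7_LOC (K := K) (chart O x).toSubring V.toSubring (algebraMap O F π₀)
    ((chart O x).algebraMap_mem π₀) hπ0
    (h26_chart_prime _ _ hBV _ _ hπ0 hπV hVval hsat)
    (h26_hK π₀ hπ₀ _ (fun c => (chart O x).algebraMap_mem c))
    (h26_chart_hfrac O hx hfinF) hBV hVval hsat m hm f ⟨v, hvV, hf⟩ hdiv 𝔫 h𝔫 hπ𝔫 t ht hSMt

/-- **(D5b-ABS) the abstract Kummer theorem.**  `O` a discrete valuation ring with uniformiser
`π₀` and fraction field `K`, `F ⊇ K` a field of characteristic zero, finite over `K(x)` (`x`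
transcendental), in which `K` is algebraically closed (`hK`), `E ⊇ F` a field containing the
roots of all polynomials over `K` (`hE`), `V` a valuation ring of `F` with maximal ideal `π₀ V`
containing `O`, `x`, `1/x`, the charts `chart O x`, `chart O (1/x)`, `chart₁₂` saturated in `V`
(SAT) and with the property (SM) at every closed point of their special fibres.  If `m` is a
prime invertible in `O`, `f ≡ 1 mod π₀ V` and `m ∣ ord_P f` for all places `P` of `F / K`, then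
`f` is an `m`-th power in `E`. -/
theorem h26_kum_abs {E : Type*} [Field E] [Algebra F E]
    (π₀ : O) (hπ₀ : Irreducible π₀) (x x' : F) (hxx' : x * x' = 1)
    (hx : Transcendental O x) (hfinF : H26FinOver O x)
    (V : ValuationSubring F) (hOV : ∀ c : O, algebraMap O F c ∈ V) (hxV : x ∈ V)
    (hx'V : x' ∈ V) (hπV : ∀ v ∈ V, algebraMap O F π₀ * v ≠ 1)
    (hVmax : ∀ y ∈ V, y⁻¹ ∉ V → ∃ v ∈ V, y = algebraMap O F π₀ * v)
    (hsat₁ : ∀ v ∈ V, algebraMap O F π₀ * v ∈ chart O x → v ∈ chart O x)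
    (hsat₂ : ∀ v ∈ V, algebraMap O F π₀ * v ∈ chart O x' → v ∈ chart O x')
    (hsat₁₂ : ∀ v ∈ V, algebraMap O F π₀ * v ∈ chart₁₂ O x x' → v ∈ chart₁₂ O x x')
    (m : ℕ) (hm : m.Prime) (μ₀ : O) (hμ : μ₀ * (m : O) = 1)
    (f v : F) (hvV : v ∈ V) (hf : f - 1 = algebraMap O F π₀ * v)
    (hdiv : ∀ P : Place K F, (m : ℤ) ∣ P.ord f)
    (hSM₁ : ∀ 𝔫 : Ideal (chart O x).toSubring, 𝔫.IsMaximal →
      (⟨algebraMap O F π₀, (chart O x).algebraMap_mem π₀⟩ : (chart O x).toSubring) ∈ 𝔫 →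
      ∃ t ∈ 𝔫, ∀ y ∈ 𝔫, ∃ s : (chart O x).toSubring, s ∉ 𝔫 ∧ ∃ u w : (chart O x).toSubring,
        s * y = ⟨algebraMap O F π₀, (chart O x).algebraMap_mem π₀⟩ * u + t * w)
    (hSM₂ : ∀ 𝔫 : Ideal (chart O x').toSubring, 𝔫.IsMaximal →
      (⟨algebraMap O F π₀, (chart O x').algebraMap_mem π₀⟩ : (chart O x').toSubring) ∈ 𝔫 →
      ∃ t ∈ 𝔫, ∀ y ∈ 𝔫, ∃ s : (chart O x').toSubring, s ∉ 𝔫 ∧ ∃ u w : (chart O x').toSubring,
        s * y = ⟨algebraMap O F π₀, (chart O x').algebraMap_mem π₀⟩ * u + t * w)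
    (hK : ∀ y : F, IsAlgebraic K y → y ∈ (algebraMap K F).range)
    (hE : ∀ p : K[X], p.Monic → Irreducible p →
      ∃ r : E, aeval r (p.map (algebraMap K F)) = 0) :
    ∃ g : E, g ^ m = algebraMap F E f := by
  by_contra hfE
  have hprime : Prime π₀ := hπ₀.prime
  have hnot : ∀ g : F, g ^ m ≠ f := fun g hg =>
    hfE ⟨algebraMap F E g, by rw [← map_pow, hg]⟩
  haveI : Fact (Irreducible (X ^ m - C f : F[X])) := ⟨h26_kummer_irreducible hm hnot⟩
  have hconst : ∀ y : AdjoinRoot (X ^ m - C f : F[X]), IsIntegral O y →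
      ∃ c : O, algebraMap O (AdjoinRoot (X ^ m - C f : F[X])) c = y := fun y hy =>
    Dict.H17.h17_hconst (K := K) (F := F) (E := E) hK hE m hm f hfE
      (AdjoinRoot.root (X ^ m - C f : F[X])) (h26_kummer_root_pow m f)
      (h26_kummer_finrank hm.ne_zero f) y hy
  have hx' : Transcendental O x' := h26_transcendental_inv O hxx' hx
  have hfinF' : H26FinOver O x' := h26_finOver_inv O hxx' hfinF
  obtain ⟨g, hg⟩ := h26_spec_val π₀ hprime x x' hxx' hx hfinF V hOV hxV hx'V hπV hsat₁ hsat₂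
    hsat₁₂ m hm μ₀ hμ f v hvV hf
    (h26_hLOC (K := K) π₀ hπ₀ x hx hfinF V hOV hxV hπV hVmax hsat₁ m hm.pos f v hvV hf hdiv hSM₁)
    (h26_hLOC (K := K) π₀ hπ₀ x' hx' hfinF' V hOV hx'V hπV hVmax hsat₂ m hm.pos f v hvV hf hdiv
      hSM₂)
    hconst
  exact hnot g hg

end Kum

end Fermat.Agent.S18x.Spec.H26
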