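import Mathlib
import Fermat.Agent.S18x.Spec.H26_Adapt

/-!
# S18 / package SPEC (helper26): change of the base coordinate

The final [SPEC] theorems are agnostic in the base coordinate `x` (`j`, or a Hauptmodul `h`).
If `x, j : F` are related by `s * j ∈ O[x]` for some `s ∈ O[x]`, `s ≠ 0` (e.g. the Hauptmodul
identity `D(h) * j = N(h)`), the hypotheses `hx`, `hfinF` of `h26_spec` / `h26_kum_abs` pass
from `j` to `x`:

* `h26_transcendental_of_scale` : `Transcendental O j → Transcendental O x`;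
* `h26_finOver_of_scale` : `H26FinOver O j → H26FinOver O x`.
-/

set_option autoImplicit false

open Polynomial

namespace Fermat.Agent.S18x.Spec.H26

section Coord

variable (O : Type*) {F : Type*} [CommRing O] [Field F] [Algebra O F]

/-- Uniform scaling of finitely many elements into a subalgebra by a power of `s`. -/
theorem h26_uniform_scale (A : Subalgebra O F) (s : F) (hs : s ∈ A) {ι : Type*}
    (t : Finset ι) (c : ι → F) (hc : ∀ i ∈ t, ∃ k : ℕ, s ^ k * c i ∈ A) :
    ∃ n : ℕ, ∀ i ∈ t, s ^ n * c i ∈ A := by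
  classical
  induction t using Finset.induction_on with
  | empty => exact ⟨0, fun i hi => absurd hi (Finset.notMem_empty i)⟩
  | insert a t ha ih =>
    obtain ⟨n, hn⟩ := ih fun i hi => hc i (Finset.mem_insert_of_mem hi)
    obtain ⟨k, hk⟩ := hc a (Finset.mem_insert_self a t)
    refine ⟨n + k, fun i hi => ?_⟩
    rcases Finset.mem_insert.mp hi with rfl | hi
    · rw [pow_add, mul_assoc]
      exact A.mul_mem (A.pow_mem hs _) hk
    · rw [pow_add, mul_comm (s ^ n), mul_assoc]
      exact A.mul_mem (A.pow_mem hs _) (hn i hi)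

/-- Every element of `O[j]` can be scaled into `O[x]` by a power of `s`, if `s, s * j ∈ O[x]`. -/
theorem h26_scale_mem {j x s : F} (hs : s ∈ Algebra.adjoin O {x})
    (hsj : s * j ∈ Algebra.adjoin O {x}) :
    ∀ c ∈ Algebra.adjoin O {j}, ∃ k : ℕ, s ^ k * c ∈ Algebra.adjoin O {x} :=
  h26_exists_pow_mul_mem (Algebra.adjoin O {x}) s hs {j} (by
    intro g hg
    rw [Set.mem_singleton_iff] at hg
    refine ⟨1, ?_⟩
    rw [hg, pow_one]
    exact hsj)

/-- (adapter) **`H26FinOver` passes from `j` to a coordinate `x` with `s * j ∈ O[x]`**,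
`s ∈ O[x]`, `s ≠ 0`. -/
theorem h26_finOver_of_scale {j x s : F} (hs : s ∈ Algebra.adjoin O {x}) (hs0 : s ≠ 0)
    (hsj : s * j ∈ Algebra.adjoin O {x}) (h : H26FinOver O j) : H26FinOver O x := by
  classical
  obtain ⟨ws, hws⟩ := h
  refine ⟨ws, fun y => ?_⟩
  obtain ⟨a, ha, ha0, hay⟩ := hws y
  obtain ⟨c, -, hsum⟩ := Submodule.mem_span_finset.mp hay
  obtain ⟨n₁, hn₁⟩ := h26_scale_mem O hs hsj a ha
  obtain ⟨n₂, hn₂⟩ := h26_uniform_scale O (Algebra.adjoin O {x}) s hs ws (fun w => (c w : F))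
    (fun w _ => h26_scale_mem O hs hsj _ (c w).2)
  have h1 : s ^ (n₁ + n₂) * a ∈ Algebra.adjoin O {x} := by
    rw [pow_add, mul_comm (s ^ n₁), mul_assoc]
    exact Subalgebra.mul_mem _ (Subalgebra.pow_mem _ hs _) hn₁
  refine ⟨s ^ (n₁ + n₂) * a, h1, mul_ne_zero (pow_ne_zero _ hs0) ha0, ?_⟩
  rw [mul_assoc, ← hsum, Finset.mul_sum]
  refine Submodule.sum_mem _ fun w hw => ?_
  have h2 : s ^ (n₁ + n₂) * (c w : F) ∈ Algebra.adjoin O {x} := by
    rw [pow_add, mul_assoc]
    exact Subalgebra.mul_mem _ (Subalgebra.pow_mem _ hs _) (hn₂ w hw)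
  have := Submodule.smul_mem (Submodule.span (Algebra.adjoin O {x}) (ws : Set F))
    (⟨_, h2⟩ : Algebra.adjoin O {x}) (Submodule.subset_span (Finset.mem_coe.mpr hw))
  have e : s ^ (n₁ + n₂) * (c w • w) = (⟨_, h2⟩ : Algebra.adjoin O {x}) • w := by
    change s ^ (n₁ + n₂) * ((c w : F) * w) = (s ^ (n₁ + n₂) * (c w : F)) * w
    rw [mul_assoc]
  rw [e]
  exact this

/-- (adapter) **Transcendence passes from `j` to a coordinate `x` with `s * j ∈ O[x]`**,
`s ∈ O[x]`, `s ≠ 0`. -/
theorem h26_transcendental_of_scale [IsDomain O] {j x s : F} (hs : s ∈ Algebra.adjoin O {x})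
    (hs0 : s ≠ 0) (hsj : s * j ∈ Algebra.adjoin O {x}) (hj : Transcendental O j) :
    Transcendental O x := by
  intro hx
  apply hj
  have hle : Algebra.adjoin O {x} ≤ Subalgebra.algebraicClosure O F := by
    rw [Algebra.adjoin_le_iff]
    intro y hy
    rw [Set.mem_singleton_iff] at hy
    rw [hy]
    exact hx
  have h1 : IsAlgebraic O s := hle hs
  have h2 : IsAlgebraic O (s * j) := hle hsj
  have h3 : IsAlgebraic O s⁻¹ := IsAlgebraic.inv_iff.mpr h1
  have h4 : j = s⁻¹ * (s * j) := by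
    rw [← mul_assoc, inv_mul_cancel₀ hs0, one_mul]
  rw [h4]
  exact h3.mul h2

end Coord

end Fermat.Agent.S18x.Spec.H26
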